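import Fermat.Agent.Corollaries.Baker.Main
import Fermat.Agent.Corollaries.Diri.LVal

/-!
# Applications of Baker's theorem: the values `L(1, χ)` are transcendental
-/

set_option autoImplicit false

open Finset

namespace Fermat.Agent.Cor.BBW

/-- a rational multiple of a logarithm of an algebraic number -/
theorem isAlgebraic_exp_rat_mul {l : ℂ} (hl : IsAlgebraic ℚ (Complex.exp l)) (r : ℚ) :
    IsAlgebraic ℚ (Complex.exp (r * l)) := by
  have hd : (r.den : ℂ) ≠ 0 := Nat.cast_ne_zero.mpr r.den_ne_zero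
  refine IsAlgebraic.of_pow (n := r.den) r.den_pos ?_
  rw [← Complex.exp_nat_mul]
  have h1 : (r.den : ℂ) * (r * l) = (r.num : ℂ) * l := by
    have h2 : (r : ℂ) = r.num / r.den := by exact_mod_cast (Rat.num_div_den r).symm
    rw [h2]
    field_simp
  rw [h1]
  rcases Int.eq_nat_or_neg r.num with ⟨n, hn | hn⟩
  · rw [hn, Int.cast_natCast, Complex.exp_nat_mul]
    exact hl.pow n
  · rw [hn, Int.cast_neg, Int.cast_natCast, neg_mul, Complex.exp_neg, Complex.exp_nat_mul]
    exact (hl.pow n).inv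

/-- a rational combination of logarithms of algebraic numbers -/
theorem isAlgebraic_exp_sum {ι : Type*} (s : Finset ι) {l : ι → ℂ}
    (hl : ∀ i ∈ s, IsAlgebraic ℚ (Complex.exp (l i))) (r : ι → ℚ) :
    IsAlgebraic ℚ (Complex.exp (∑ i ∈ s, (r i : ℂ) * l i)) := by
  rw [Complex.exp_sum]
  exact (IsIntegral.prod _ fun i hi =>
    (isAlgebraic_exp_rat_mul (hl i hi) (r i)).isIntegral).isAlgebraic

/-- **Galois conjugation of the coefficients**: a linear relation with algebraic coefficients between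
logarithms of algebraic numbers stays valid if the coefficients are replaced by their images under
another embedding. -/
theorem sum_conj_eq_zero {F : Type*} [Field F] [CharZero F] [Algebra.IsAlgebraic ℚ F]
    (φ ψ : F →+* ℂ) {ι : Type*} (s : Finset ι) {c : ι → F} {l : ι → ℂ}
    (hl : ∀ i ∈ s, IsAlgebraic ℚ (Complex.exp (l i))) (h : ∑ i ∈ s, φ (c i) * l i = 0) :
    ∑ i ∈ s, ψ (c i) * l i = 0 := by
  classical
  set W : Submodule ℚ F := Submodule.span ℚ (c '' s) with hW
  have hfin : Module.Finite ℚ W := Module.Finite.iff_fg.mpr (Submodule.fg_span (s.finite_toSet.image c))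
  set b := Module.finBasis ℚ W with hb
  set n := Module.finrank ℚ W with hn
  have hc : ∀ i ∈ s, c i ∈ W := fun i hi => Submodule.subset_span ⟨i, hi, rfl⟩
  obtain ⟨r, hr⟩ : ∃ r : ι → Fin n → ℚ, ∀ i ∈ s, c i = ∑ k, (r i k : F) * (b k : F) := by
    refine ⟨fun i => if hi : i ∈ s then fun k => b.repr ⟨c i, hc i hi⟩ k else 0, fun i hi => ?_⟩
    have h1 := congrArg (Subtype.val) (b.sum_repr ⟨c i, hc i hi⟩)
    rw [Submodule.coe_sum] at h1
    simp only [dif_pos hi]
    refine Eq.trans h1.symm ?_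
    refine sum_congr rfl fun k _ => ?_
    rw [Submodule.coe_smul, Rat.smul_def]
  have hexp : ∀ χ : F →+* ℂ, ∑ i ∈ s, χ (c i) * l i =
      ∑ k, χ (b k : F) * ∑ i ∈ s, (r i k : ℂ) * l i := by
    intro χ
    have h1 : ∀ i ∈ s, χ (c i) * l i = ∑ k, χ (b k : F) * ((r i k : ℂ) * l i) := by
      intro i hi
      rw [hr i hi, map_sum, sum_mul]
      refine sum_congr rfl fun k _ => ?_
      rw [map_mul, map_ratCast]
      ring
    rw [sum_congr rfl h1, sum_comm]
    exact sum_congr rfl fun k _ => by rw [mul_sum]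
  have hind : LinearIndependent ℚ fun k => φ (b k : F) := by
    have h1 : LinearIndependent ℚ fun k => (b k : F) :=
      b.linearIndependent.map' W.subtype (Submodule.ker_subtype W)
    have h2 := h1.map' (φ.toRatAlgHom.toLinearMap)
      (LinearMap.ker_eq_bot.mpr φ.toRatAlgHom.toRingHom.injective)
    exact h2
  have hzero := Baker.eq_zero_of_sum_eq_zero (β := fun k => φ (b k : F))
    (l := fun k => ∑ i ∈ s, (r i k : ℂ) * l i)
    (fun k => ((Algebra.IsAlgebraic.isAlgebraic (R := ℚ) (b k : F)).isIntegral.map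
      φ.toRatAlgHom).isAlgebraic) hind
    (fun k => isAlgebraic_exp_sum s hl fun i => r i k) (by rw [← hexp φ]; exact h)
  rw [hexp ψ]
  exact sum_eq_zero fun k _ => by rw [hzero k, mul_zero]

/-! ### The values at `1` of `L`-functions -/

variable {N : ℕ} [NeZero N]

theorem isAlgebraic_stdAddChar (j : ZMod N) : IsAlgebraic ℚ (ZMod.stdAddChar j : ℂ) := by
  refine IsAlgebraic.of_pow (n := N) (NeZero.pos N) ?_
  rw [Diri.stdAddChar_pow]
  exact isAlgebraic_one

theorem isAlgebraic_exp_log (j : ZMod N) :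
    IsAlgebraic ℚ (Complex.exp (Complex.log (1 - ZMod.stdAddChar (-j)))) := by
  by_cases hj : j = 0
  · subst hj
    rw [neg_zero, AddChar.map_zero_eq_one, sub_self, Complex.log_zero, Complex.exp_zero]
    exact isAlgebraic_one
  · rw [Complex.exp_log (sub_ne_zero.mpr (Diri.stdAddChar_ne_one (neg_ne_zero.mpr hj)).symm)]
    exact isAlgebraic_one.sub (isAlgebraic_stdAddChar _)

theorem isAlgebraic_invDFT {Φ : ZMod N → ℂ} (hΦ : ∀ k, IsAlgebraic ℚ (Φ k)) (j : ZMod N) :
    IsAlgebraic ℚ (ZMod.dft.symm Φ j) := by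
  rw [ZMod.invDFT_apply, smul_eq_mul]
  refine IsAlgebraic.mul (IsAlgebraic.inv ?_) (IsIntegral.sum _ fun k _ => IsAlgebraic.isIntegral
    ((isAlgebraic_stdAddChar _).mul (hΦ k))).isAlgebraic
  exact_mod_cast isAlgebraic_natCast (R := ℚ) (A := ℂ) N

/-- **The value at `1` of the `L`-function of a periodic function with algebraic values and mean
value `0` is `0` or transcendental.** -/
theorem LFunction_one_eq_zero_or_transcendental {Φ : ZMod N → ℂ} (hΦ : ∀ k, IsAlgebraic ℚ (Φ k))
    (hsum : ∑ k, Φ k = 0) :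
    ZMod.LFunction Φ 1 = 0 ∨ Transcendental ℚ (ZMod.LFunction Φ 1) := by
  have h1 : ZMod.LFunction Φ 1 =
      ∑ j : ZMod N, -ZMod.dft.symm Φ j * Complex.log (1 - ZMod.stdAddChar (-j)) := by
    rw [Diri.ZMod_LFunction_one Φ hsum, ← sum_neg_distrib]
    exact sum_congr rfl fun j _ => by rw [neg_mul]
  rw [h1]
  exact Baker.sum_eq_zero_or_transcendental univ (fun j _ => (isAlgebraic_invDFT hΦ j).neg)
    fun j _ => isAlgebraic_exp_log j

theorem isAlgebraic_dirichletCharacter (χ : DirichletCharacter ℂ N) (k : ZMod N) :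
    IsAlgebraic ℚ (χ k) := by
  by_cases hk : IsUnit k
  · obtain ⟨u, rfl⟩ := hk
    refine IsAlgebraic.of_pow (n := Fintype.card (ZMod N)ˣ) Fintype.card_pos ?_
    rw [← map_pow, ← Units.val_pow_eq_pow_val, pow_card_eq_one, Units.val_one, map_one]
    exact isAlgebraic_one
  · rw [χ.map_nonunit hk]
    exact isAlgebraic_zero

/-- **`L(1, χ)` is transcendental** for every Dirichlet character `χ ≠ 1`. -/
theorem transcendental_LFunction_one {χ : DirichletCharacter ℂ N} (hχ : χ ≠ 1) :
    Transcendental ℚ (χ.LFunction 1) := by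
  rcases LFunction_one_eq_zero_or_transcendental (isAlgebraic_dirichletCharacter χ)
    (χ.sum_eq_zero_of_ne_one hχ) with h | h
  · exact absurd h (DirichletCharacter.LFunction_apply_one_ne_zero hχ)
  · exact h

end Fermat.Agent.Cor.BBW
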