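import Fermat.Agent.Corollaries.BBW.Basic

/-!
# The theorem of Baker, Birch and Wirsing (a problem of Chowla)
-/

set_option autoImplicit false

open Finset Polynomial

namespace Fermat.Agent.Cor.BBW

variable {N : ℕ} [NeZero N]

/-- the linear form in logarithms, `-1` times the value at `1` -/
noncomputable def logSum (N : ℕ) [NeZero N] : (ZMod N → ℂ) →ₗ[ℂ] ℂ where
  toFun Φ := ∑ j : ZMod N, ZMod.dft.symm Φ j * Complex.log (1 - ZMod.stdAddChar (-j))
  map_add' Φ Ψ := by simp [map_add, add_mul, sum_add_distrib]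
  map_smul' c Φ := by simp [mul_sum, mul_assoc]

theorem logSum_apply (Φ : ZMod N → ℂ) :
    logSum N Φ = ∑ j : ZMod N, ZMod.dft.symm Φ j * Complex.log (1 - ZMod.stdAddChar (-j)) := rfl

theorem LFunction_one_eq {Φ : ZMod N → ℂ} (h : ∑ k, Φ k = 0) :
    ZMod.LFunction Φ 1 = -logSum N Φ := by
  rw [Diri.ZMod_LFunction_one Φ h, logSum_apply]

/-- twist by a unit -/
def tw (h : (ZMod N)ˣ) (Φ : ZMod N → ℂ) : ZMod N → ℂ := fun k => Φ (((h⁻¹ : (ZMod N)ˣ) : ZMod N) * k)

theorem invDFT_tw (h : (ZMod N)ˣ) (Φ : ZMod N → ℂ) (j : ZMod N) :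
    ZMod.dft.symm (tw h Φ) j = ZMod.dft.symm Φ (h * j) := by
  rw [ZMod.invDFT_apply, ZMod.invDFT_apply]
  congr 1
  refine Fintype.sum_equiv (Units.mulLeft h⁻¹) _ _ fun k => ?_
  rw [Units.mulLeft_apply, tw]
  congr 2
  have h1 : ((h⁻¹ : (ZMod N)ˣ) : ZMod N) * h = 1 := by
    rw [← Units.val_mul, inv_mul_cancel, Units.val_one]
  linear_combination -(k * j) * h1

theorem stdAddChar_pow_val (u x : ZMod N) :
    (ZMod.stdAddChar x : ℂ) ^ u.val = ZMod.stdAddChar (u * x) := by
  rw [← AddChar.map_nsmul_eq_pow, nsmul_eq_mul, ZMod.natCast_zmod_val]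

variable {K : Type*} [Field K] [CharZero K] [Algebra.IsAlgebraic ℚ K] [Algebra K ℂ]

/-- invariance of the relation under the Galois group of the cyclotomic field -/
theorem logSum_tw_eq_zero (hirr : Irreducible (cyclotomic N K)) {f : ZMod N → K}
    (h0 : logSum N (fun k => algebraMap K ℂ (f k)) = 0) (h : (ZMod N)ˣ) :
    logSum N (tw h fun k => algebraMap K ℂ (f k)) = 0 := by
  classical
  have hfd : FiniteDimensional K (CyclotomicField N K) :=
    IsCyclotomicExtension.finiteDimensional {N} K (CyclotomicField N K)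
  have halg : Algebra.IsAlgebraic ℚ (CyclotomicField N K) :=
    Algebra.IsAlgebraic.trans ℚ K (CyclotomicField N K)
  have hcz : CharZero (CyclotomicField N K) :=
    charZero_of_injective_algebraMap (algebraMap K (CyclotomicField N K)).injective
  set ι : CyclotomicField N K →ₐ[K] ℂ := IsAlgClosed.lift with hι
  have hζ := IsCyclotomicExtension.zeta_spec N K (CyclotomicField N K)
  set ζ := IsCyclotomicExtension.zeta N K (CyclotomicField N K) with hζdef
  obtain ⟨i, -, hi⟩ := (hζ.map_of_injective ι.injective).eq_pow_of_pow_eq_one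
    (Diri.stdAddChar_pow (1 : ZMod N))
  have hi' : ι ζ ^ i = ZMod.stdAddChar (1 : ZMod N) := hi
  have hz : ∀ x : ZMod N, ι (ζ ^ (i * x.val)) = ZMod.stdAddChar x := by
    intro x
    rw [map_pow, pow_mul, hi', stdAddChar_pow_val, mul_one]
  obtain ⟨σ, hσ⟩ : ∃ σ : CyclotomicField N K ≃ₐ[K] CyclotomicField N K,
      σ ζ = ζ ^ (h : ZMod N).val :=
    ⟨IsCyclotomicExtension.fromZetaAut (hζ.pow_of_coprime _ (ZMod.val_coe_unit_coprime h)) hirr,
      IsCyclotomicExtension.fromZetaAut_spec _ _⟩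
  have hzσ : ∀ x : ZMod N, ι (σ (ζ ^ (i * x.val))) = ZMod.stdAddChar ((h : ZMod N) * x) := by
    intro x
    rw [map_pow, hσ, ← pow_mul, mul_comm, pow_mul, map_pow, hz, stdAddChar_pow_val]
  have hι1 : ∀ y : K, ι (algebraMap K (CyclotomicField N K) y) = algebraMap K ℂ y := ι.commutes
  have hσ1 : ∀ y : K, σ (algebraMap K (CyclotomicField N K) y) =
      algebraMap K (CyclotomicField N K) y := σ.commutes
  set c : ZMod N → CyclotomicField N K := fun j => ((N : ℕ) : CyclotomicField N K)⁻¹ *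
    ∑ k : ZMod N, ζ ^ (i * (k * j).val) * algebraMap K (CyclotomicField N K) (f k) with hc
  have h1 : ∀ j, (ι : CyclotomicField N K →+* ℂ) (c j) =
      ZMod.dft.symm (fun k => algebraMap K ℂ (f k)) j := by
    intro j
    rw [ZMod.invDFT_apply, smul_eq_mul]
    show ι (c j) = _
    rw [hc]
    simp only [map_mul, map_inv₀, map_natCast, map_sum]
    congr 1
    refine sum_congr rfl fun k _ => ?_
    rw [hz, hι1, smul_eq_mul]
  have h2 : ∀ j, ((ι : CyclotomicField N K →+* ℂ).comp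
      (σ : CyclotomicField N K →+* CyclotomicField N K)) (c j) =
      ZMod.dft.symm (tw h fun k => algebraMap K ℂ (f k)) j := by
    intro j
    rw [invDFT_tw, ZMod.invDFT_apply, smul_eq_mul]
    show ι (σ (c j)) = _
    rw [hc]
    simp only [map_mul, map_inv₀, map_natCast, map_sum]
    congr 1
    refine sum_congr rfl fun k _ => ?_
    rw [hzσ, hσ1, hι1, smul_eq_mul]
    congr 2
    ring
  have h3 := sum_conj_eq_zero (ι : CyclotomicField N K →+* ℂ)
    ((ι : CyclotomicField N K →+* ℂ).comp (σ : CyclotomicField N K →+* CyclotomicField N K)) univ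
    (c := c) (l := fun j => Complex.log (1 - ZMod.stdAddChar (-j)))
    (fun j _ => isAlgebraic_exp_log j) (by
      rw [← h0, logSum_apply]
      exact sum_congr rfl fun j _ => by rw [h1])
  rw [logSum_apply, ← h3]
  exact sum_congr rfl fun j _ => by rw [h2]

/-- orthogonality to the characters -/
theorem sum_char_mul_eq_zero (hirr : Irreducible (cyclotomic N K)) {f : ZMod N → K}
    (hf : ∀ k, ¬IsUnit k → k ≠ 0 → f k = 0)
    (h0 : logSum N (fun k => algebraMap K ℂ (f k)) = 0) {χ : DirichletCharacter ℂ N}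
    (hχ : χ ≠ 1) : ∑ k, χ⁻¹ k * algebraMap K ℂ (f k) = 0 := by
  classical
  set Φ : ZMod N → ℂ := fun k => algebraMap K ℂ (f k) with hΦ
  set C : ℂ := ∑ k, χ⁻¹ k * Φ k with hC
  have hCu : C = ∑ b : (ZMod N)ˣ, χ⁻¹ (b : ZMod N) * Φ b := by
    rw [hC]
    refine (Fintype.sum_of_injective (fun b : (ZMod N)ˣ => (b : ZMod N)) Units.val_injective
      _ _ (fun k hk => ?_) fun b => rfl).symm
    rw [χ⁻¹.map_nonunit (fun ⟨u, hu⟩ => hk ⟨u, hu⟩), zero_mul]
  have hg : ∑ h : (ZMod N)ˣ, χ (h : ZMod N) • tw h Φ = C • (χ : ZMod N → ℂ) := by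
    funext a
    rw [Finset.sum_apply, Pi.smul_apply, smul_eq_mul]
    simp only [Pi.smul_apply, smul_eq_mul]
    by_cases ha : IsUnit a
    · obtain ⟨u, rfl⟩ := ha
      rw [hCu, sum_mul]
      refine Fintype.sum_equiv ((Equiv.inv _).trans (Equiv.mulRight u)) _ _ fun h => ?_
      simp only [Equiv.trans_apply, Equiv.inv_apply, Equiv.coe_mulRight, tw, Units.val_mul]
      have h1 : χ⁻¹ (((h⁻¹ : (ZMod N)ˣ) : ZMod N) * u) * χ u = χ h := by
        have e1 : χ⁻¹ (((h⁻¹ : (ZMod N)ˣ) : ZMod N)) = χ h := by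
          rw [MulChar.inv_apply, Ring.inverse_unit, inv_inv]
        have e2 : χ⁻¹ (u : ZMod N) * χ u = 1 := by
          rw [← MulChar.mul_apply, inv_mul_cancel, MulChar.one_apply_coe]
        rw [map_mul, e1, mul_assoc, e2, mul_one]
      rw [← h1]
      ring
    · rw [χ.map_nonunit ha, mul_zero]
      by_cases ha0 : a = 0
      · subst ha0
        have h1 : ∀ h : (ZMod N)ˣ, χ (h : ZMod N) * tw h Φ 0 = χ (h : ZMod N) * Φ 0 := by
          intro h
          rw [tw, mul_zero]
        rw [sum_congr rfl fun h _ => h1 h, ← sum_mul]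
        have h2 : ∑ h : (ZMod N)ˣ, χ (h : ZMod N) = ∑ k : ZMod N, χ k := by
          refine Fintype.sum_of_injective (fun b : (ZMod N)ˣ => (b : ZMod N)) Units.val_injective
            _ _ (fun k hk => ?_) fun b => rfl
          exact χ.map_nonunit (fun ⟨u, hu⟩ => hk ⟨u, hu⟩)
        rw [h2, χ.sum_eq_zero_of_ne_one hχ, zero_mul]
      · refine sum_eq_zero fun h _ => ?_
        have h1 : f (((h⁻¹ : (ZMod N)ˣ) : ZMod N) * a) = 0 := by
          refine hf _ (fun h2 => ha ?_) (fun h2 => ha0 ?_)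
          · exact (Units.isUnit_units_mul _ _).mp h2
          · exact (Units.mul_right_eq_zero _).mp h2
        rw [tw, hΦ]
        simp only [h1, map_zero, mul_zero]
  have h1 : logSum N (∑ h : (ZMod N)ˣ, χ (h : ZMod N) • tw h Φ) = 0 := by
    rw [map_sum]
    refine sum_eq_zero fun h _ => ?_
    rw [map_smul, logSum_tw_eq_zero hirr h0, smul_zero]
  rw [hg, map_smul, smul_eq_mul] at h1
  have h2 := LFunction_one_eq (χ.sum_eq_zero_of_ne_one hχ)
  have h3 : χ.LFunction 1 ≠ 0 := DirichletCharacter.LFunction_apply_one_ne_zero hχ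
  rw [DirichletCharacter.LFunction, h2] at h3
  exact (mul_eq_zero.mp h1).resolve_right fun h => h3 (by rw [h, neg_zero])

/-- the function is constant on the units -/
theorem totient_mul_eq (hirr : Irreducible (cyclotomic N K)) {f : ZMod N → K}
    (hf : ∀ k, ¬IsUnit k → k ≠ 0 → f k = 0)
    (h0 : logSum N (fun k => algebraMap K ℂ (f k)) = 0) {a : ZMod N} (ha : IsUnit a) :
    (N.totient : ℂ) * algebraMap K ℂ (f a) =
      ∑ b : (ZMod N)ˣ, algebraMap K ℂ (f b) := by
  classical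
  set D : DirichletCharacter ℂ N → ℂ := fun χ => ∑ k, χ k * algebraMap K ℂ (f k) with hD
  have hD0 : ∀ χ, χ ≠ 1 → D χ = 0 := by
    intro χ hχ
    have := sum_char_mul_eq_zero hirr hf h0 (χ := χ⁻¹) (inv_ne_one.mpr hχ)
    rwa [inv_inv] at this
  have h1 : ∑ χ : DirichletCharacter ℂ N, χ a⁻¹ * D χ = D 1 := by
    rw [sum_eq_single_of_mem 1 (mem_univ _) fun χ _ hχ => by rw [hD0 χ hχ, mul_zero]]
    have h2 : (1 : DirichletCharacter ℂ N) a⁻¹ = 1 := by
      obtain ⟨u, rfl⟩ := ha
      rw [ZMod.inv_coe_unit, MulChar.one_apply_coe]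
    rw [h2, one_mul]
  have h2 : ∑ χ : DirichletCharacter ℂ N, χ a⁻¹ * D χ =
      (N.totient : ℂ) * algebraMap K ℂ (f a) := by
    simp only [hD, mul_sum]
    rw [sum_comm]
    have h3 : ∀ k : ZMod N, ∑ χ : DirichletCharacter ℂ N,
        χ a⁻¹ * (χ k * algebraMap K ℂ (f k)) =
        (if a = k then (N.totient : ℂ) else 0) * algebraMap K ℂ (f k) := by
      intro k
      rw [← DirichletCharacter.sum_char_inv_mul_char_eq ℂ ha k, sum_mul]
      exact sum_congr rfl fun χ _ => by rw [mul_assoc]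
    rw [sum_congr rfl fun k _ => h3 k]
    simp
  rw [← h2, h1, hD]
  refine (Fintype.sum_of_injective (fun b : (ZMod N)ˣ => (b : ZMod N)) Units.val_injective
    _ _ (fun k hk => ?_) fun b => ?_).symm
  · rw [MulChar.map_nonunit _ (fun ⟨u, hu⟩ => hk ⟨u, hu⟩), zero_mul]
  · rw [MulChar.one_apply_coe, one_mul]

end Fermat.Agent.Cor.BBW
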