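import Fermat.Agent.Corollaries.BBW.Chowla

/-!
# The theorem of Baker, Birch and Wirsing: the main theorem
-/

set_option autoImplicit false

open Finset Polynomial Filter Topology

namespace Fermat.Agent.Cor.BBW

variable {N : ℕ} [NeZero N]

open scoped Classical in
/-- the exceptional function: `1` on the units, `-φ(N)` at `0` -/
noncomputable def exc (N : ℕ) [NeZero N] : ZMod N → ℂ := fun k =>
  (if IsUnit k then 1 else 0) - (N.totient : ℂ) * (if k = 0 then 1 else 0)

theorem sum_exc : ∑ k, exc N k = 0 := by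
  classical
  simp only [exc, sum_sub_distrib, ← mul_sum]
  rw [sum_ite_eq' univ (0 : ZMod N), if_pos (mem_univ _), mul_one, sub_eq_zero]
  have h1 : ∑ k : ZMod N, (if IsUnit k then (1 : ℂ) else 0) = ∑ _u : (ZMod N)ˣ, (1 : ℂ) := by
    refine (Fintype.sum_of_injective (fun b : (ZMod N)ˣ => (b : ZMod N)) Units.val_injective
      _ _ (fun k hk => ?_) fun b => ?_).symm
    · exact if_neg fun ⟨u, hu⟩ => hk ⟨u, hu⟩
    · rw [if_pos b.isUnit]
  rw [h1, sum_const, card_univ, ZMod.card_units_eq_totient, nsmul_eq_mul, mul_one]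

/-- the `L`-function of the exceptional function -/
theorem LFunction_exc {s : ℂ} (hs : s ≠ 1) : ZMod.LFunction (exc N) s =
    ((∏ p ∈ N.primeFactors, (1 - (p : ℂ) ^ (-s))) - (N.totient : ℂ) * (N : ℂ) ^ (-s)) *
      riemannZeta s := by
  classical
  have h1 : ZMod.LFunction (exc N) s =
      ZMod.LFunction (fun k : ZMod N => (1 : DirichletCharacter ℂ N) k) s -
        (N.totient : ℂ) * ZMod.LFunction (fun k : ZMod N => if k = 0 then (1 : ℂ) else 0) s := by
    simp only [ZMod.LFunction]
    have h3 : ∑ k : ZMod N, exc N k * HurwitzZeta.hurwitzZeta (ZMod.toAddCircle k) s =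
        ∑ k : ZMod N, (1 : DirichletCharacter ℂ N) k *
          HurwitzZeta.hurwitzZeta (ZMod.toAddCircle k) s -
        (N.totient : ℂ) * ∑ k : ZMod N, (if k = 0 then (1 : ℂ) else 0) *
          HurwitzZeta.hurwitzZeta (ZMod.toAddCircle k) s := by
      rw [mul_sum, ← sum_sub_distrib]
      refine sum_congr rfl fun k _ => ?_
      have h2 : (1 : DirichletCharacter ℂ N) k = if IsUnit k then 1 else 0 := by
        split_ifs with hk
        · exact MulChar.one_apply hk
        · exact MulChar.map_nonunit _ hk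
      rw [h2, exc]
      ring
    rw [h3]
    ring
  have h2 : ZMod.LFunction (fun k : ZMod N => (1 : DirichletCharacter ℂ N) k) s =
      (∏ p ∈ N.primeFactors, (1 - (p : ℂ) ^ (-s))) * riemannZeta s :=
    DirichletCharacter.LFunctionTrivChar_eq_mul_riemannZeta hs
  have h3 : ZMod.LFunction (fun k : ZMod N => if k = 0 then (1 : ℂ) else 0) s =
      (N : ℂ) ^ (-s) * riemannZeta s := by
    simp only [ZMod.LFunction]
    congr 1
    rw [sum_eq_single_of_mem (0 : ZMod N) (mem_univ _) fun k _ hk => by rw [if_neg hk, zero_mul],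
      if_pos rfl, one_mul, map_zero, HurwitzZeta.hurwitzZeta_zero]
  rw [h1, h2, h3]
  ring

/-- the lower bound for the factor -/
theorem factor_ge (hN : 1 < N) {x : ℝ} (hx : 1 < x) :
    ((N.totient : ℝ) / N) * (Real.log N / (1 + (x - 1) * Real.log N)) ≤
      ((∏ p ∈ N.primeFactors, (1 - (p : ℝ) ^ (-x))) - (N.totient : ℝ) * (N : ℝ) ^ (-x)) /
        (x - 1) := by
  have hN0 : (0 : ℝ) < N := by exact_mod_cast NeZero.pos N
  have hlog : 0 < Real.log N := Real.log_pos (by exact_mod_cast hN)
  have hy : 0 < x - 1 := by linarith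
  have h1 : ((N.totient : ℝ) / N) ≤ ∏ p ∈ N.primeFactors, (1 - (p : ℝ) ^ (-x)) := by
    have h2 : (N.totient : ℝ) = N * ∏ p ∈ N.primeFactors, (1 - (p : ℝ)⁻¹) := by
      have := congrArg (Rat.cast : ℚ → ℝ) (Nat.totient_eq_mul_prod_factors N)
      push_cast at this
      exact this
    rw [h2, mul_div_assoc, mul_comm, div_mul_cancel₀ _ hN0.ne']
    refine prod_le_prod (fun p hp => ?_) fun p hp => ?_
    · have hp1 : (1 : ℝ) ≤ p := by exact_mod_cast (Nat.prime_of_mem_primeFactors hp).one_lt.le
      rw [sub_nonneg]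
      exact inv_le_one_of_one_le₀ hp1
    · have hp1 : (1 : ℝ) ≤ p := by exact_mod_cast (Nat.prime_of_mem_primeFactors hp).one_lt.le
      have h3 : (p : ℝ) ^ (-x) ≤ (p : ℝ) ^ (-1 : ℝ) :=
        Real.rpow_le_rpow_of_exponent_le hp1 (by linarith)
      rw [Real.rpow_neg_one] at h3
      linarith
  have h2 : (N : ℝ) ^ (-x) ≤ (N : ℝ)⁻¹ * (1 / (1 + (x - 1) * Real.log N)) := by
    have h3 : (N : ℝ) ^ (-x) = (N : ℝ)⁻¹ * ((N : ℝ) ^ (x - 1))⁻¹ := by
      rw [← Real.rpow_neg_one (N : ℝ), ← Real.rpow_neg hN0.le, ← Real.rpow_add hN0]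
      congr 1
      ring
    rw [h3, one_div]
    refine mul_le_mul_of_nonneg_left (inv_anti₀ (by positivity) ?_) (by positivity)
    rw [Real.rpow_def_of_pos hN0]
    have := Real.add_one_le_exp (Real.log N * (x - 1))
    linarith
  rw [le_div_iff₀ hy]
  have hpos : 0 < 1 + (x - 1) * Real.log N := by positivity
  have h3 : (N.totient : ℝ) * (N : ℝ) ^ (-x) ≤
      (N.totient : ℝ) * ((N : ℝ)⁻¹ * (1 / (1 + (x - 1) * Real.log N))) :=
    mul_le_mul_of_nonneg_left h2 (Nat.cast_nonneg _)
  have h4 : ((N.totient : ℝ) / N) * (Real.log N / (1 + (x - 1) * Real.log N)) * (x - 1) =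
      (N.totient : ℝ) / N - (N.totient : ℝ) * ((N : ℝ)⁻¹ * (1 / (1 + (x - 1) * Real.log N))) := by
    field_simp
    ring
  rw [h4]
  linarith

/-- the value of the exceptional `L`-function at `1` is not `0` -/
theorem LFunction_exc_one_ne_zero (hN : 1 < N) : ZMod.LFunction (exc N) 1 ≠ 0 := by
  intro h0
  have hN0 : (0 : ℝ) < N := by exact_mod_cast NeZero.pos N
  have hlog : 0 < Real.log N := Real.log_pos (by exact_mod_cast hN)
  have hcont : ContinuousAt (ZMod.LFunction (exc N)) 1 :=
    (ZMod.differentiable_LFunction_of_sum_zero sum_exc).continuous.continuousAt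
  have hpath : Tendsto (fun x : ℝ => (x : ℂ)) (𝓝[>] 1) (𝓝[≠] (1 : ℂ)) := by
    refine tendsto_nhdsWithin_iff.mpr ⟨?_, ?_⟩
    · have := (Complex.continuous_ofReal.tendsto (1 : ℝ))
      rw [Complex.ofReal_one] at this
      exact this.mono_left nhdsWithin_le_nhds
    · filter_upwards [self_mem_nhdsWithin] with x hx
      intro h
      have h1 : (x : ℂ) = 1 := h
      have h2 : x = 1 := by exact_mod_cast h1
      exact (ne_of_gt (Set.mem_Ioi.mp hx)) h2
  have h1 : Tendsto (fun x : ℝ => ZMod.LFunction (exc N) x) (𝓝[>] 1) (𝓝 0) := by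
    rw [← h0]
    exact hcont.tendsto.comp (hpath.mono_right nhdsWithin_le_nhds)
  have h2 : Tendsto (fun x : ℝ => ((x : ℂ) - 1) * riemannZeta x) (𝓝[>] 1) (𝓝 1) :=
    riemannZeta_residue_one.comp hpath
  have h3 := h1.div h2 one_ne_zero
  rw [zero_div] at h3
  set B : ℝ → ℝ := fun x => ((∏ p ∈ N.primeFactors, (1 - (p : ℝ) ^ (-x))) -
    (N.totient : ℝ) * (N : ℝ) ^ (-x)) / (x - 1) with hB
  have h4 : Tendsto (fun x : ℝ => ((B x : ℝ) : ℂ)) (𝓝[>] 1) (𝓝 0) := by
    refine h3.congr' ?_
    filter_upwards [self_mem_nhdsWithin] with x hx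
    have hx1 : (1 : ℝ) < x := hx
    have hx2 : (x : ℂ) ≠ 1 := by
      intro h
      have : x = 1 := by exact_mod_cast h
      linarith
    have hx3 : (x : ℂ) - 1 ≠ 0 := sub_ne_zero.mpr hx2
    have hz : riemannZeta x ≠ 0 := riemannZeta_ne_zero_of_one_le_re (by simpa using hx1.le)
    show ZMod.LFunction (exc N) x / (((x : ℂ) - 1) * riemannZeta x) = ((B x : ℝ) : ℂ)
    rw [LFunction_exc hx2, hB]
    push_cast
    rw [Complex.ofReal_cpow hN0.le]
    push_cast
    field_simp
    congr 1
    refine prod_congr rfl fun p _ => ?_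
    rw [Complex.ofReal_cpow (Nat.cast_nonneg p)]
    push_cast
    rfl
  have h5 : Tendsto B (𝓝[>] 1) (𝓝 0) := by
    have := (Complex.continuous_re.tendsto 0).comp h4
    rw [Complex.zero_re] at this
    exact this
  have h6 : Tendsto (fun x : ℝ => ((N.totient : ℝ) / N) *
      (Real.log N / (1 + (x - 1) * Real.log N))) (𝓝[>] 1)
      (𝓝 (((N.totient : ℝ) / N) * (Real.log N / (1 + (1 - 1) * Real.log N)))) := by
    refine Tendsto.mono_left ?_ nhdsWithin_le_nhds
    have hc : ContinuousAt (fun x : ℝ => ((N.totient : ℝ) / N) *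
        (Real.log N / (1 + (x - 1) * Real.log N))) 1 := by
      refine ContinuousAt.mul continuousAt_const (ContinuousAt.div continuousAt_const
        (by fun_prop) ?_)
      simp
    exact hc.tendsto
  have h7 := le_of_tendsto_of_tendsto h6 h5 (by
    filter_upwards [self_mem_nhdsWithin] with x hx
    exact factor_ge hN hx)
  rw [sub_self, zero_mul, add_zero, div_one] at h7
  have h8 : (0 : ℝ) < N.totient := by exact_mod_cast Nat.totient_pos.mpr (NeZero.pos N)
  have h9 : 0 < (N.totient : ℝ) / N * Real.log N := by positivity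
  linarith

variable {K : Type*} [Field K] [CharZero K] [Algebra.IsAlgebraic ℚ K] [Algebra K ℂ]

/-- **The theorem of Baker, Birch and Wirsing** (1973). `K` a field of algebraic numbers over which
the `N`-th cyclotomic polynomial is irreducible, `f` a periodic function with period `N` and values
in `K` such that `f(k) = 0` if `1 < gcd(k, N) < N`. If `∑ f(n) / n = 0` then `f = 0`. -/
theorem baker_birch_wirsing (hirr : Irreducible (cyclotomic N K)) {f : ZMod N → K}
    (hf : ∀ k, ¬IsUnit k → k ≠ 0 → f k = 0) (hsum : ∑ k, f k = 0)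
    (h : ZMod.LFunction (fun k => algebraMap K ℂ (f k)) 1 = 0) : f = 0 := by
  classical
  have hsum' : ∑ k, algebraMap K ℂ (f k) = 0 := by rw [← map_sum, hsum, map_zero]
  have h0 : logSum N (fun k => algebraMap K ℂ (f k)) = 0 := by
    rw [LFunction_one_eq hsum'] at h
    exact neg_eq_zero.mp h
  have hinj : Function.Injective (algebraMap K ℂ) := (algebraMap K ℂ).injective
  have hφ : (N.totient : ℂ) ≠ 0 :=
    Nat.cast_ne_zero.mpr (Nat.totient_pos.mpr (NeZero.pos N)).ne'
  rcases Nat.lt_or_ge 1 N with hN | hN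
  · have h00 : ¬IsUnit (0 : ZMod N) := by
      have : Fact (1 < N) := ⟨hN⟩
      exact not_isUnit_zero
    set c : ℂ := algebraMap K ℂ (f 1) with hc
    have hu : ∀ a : ZMod N, IsUnit a → algebraMap K ℂ (f a) = c := by
      intro a ha
      have h1 := totient_mul_eq hirr hf h0 ha
      have h2 := totient_mul_eq hirr hf h0 isUnit_one
      exact mul_left_cancel₀ hφ (h1.trans h2.symm)
    have hz : algebraMap K ℂ (f 0) = -(N.totient : ℂ) * c := by
      have h1 : ∑ k, algebraMap K ℂ (f k) =
          algebraMap K ℂ (f 0) + ∑ b : (ZMod N)ˣ, algebraMap K ℂ (f b) := by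
        have h2 : ∑ b : (ZMod N)ˣ, algebraMap K ℂ (f b) =
            ∑ k : ZMod N, if k = 0 then 0 else algebraMap K ℂ (f k) := by
          refine Fintype.sum_of_injective (fun b : (ZMod N)ˣ => (b : ZMod N)) Units.val_injective
            _ _ (fun k hk => ?_) fun b => ?_
          · by_cases hk0 : k = 0
            · rw [if_pos hk0]
            · rw [if_neg hk0, hf k (fun ⟨u, hu⟩ => hk ⟨u, hu⟩) hk0, map_zero]
          · exact (if_neg fun h : (b : ZMod N) = 0 => h00 (h ▸ b.isUnit)).symm
        rw [h2, ← add_sum_erase univ _ (mem_univ (0 : ZMod N)),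
          ← add_sum_erase univ (fun k : ZMod N => if k = 0 then 0 else algebraMap K ℂ (f k))
            (mem_univ (0 : ZMod N)), if_pos rfl, zero_add]
        congr 1
        refine sum_congr rfl fun k hk => ?_
        rw [if_neg (mem_erase.mp hk).1]
      have h3 := totient_mul_eq hirr hf h0 (a := 1) isUnit_one
      rw [h1, ← h3] at hsum'
      linear_combination hsum'
    have he : (fun k => algebraMap K ℂ (f k)) = c • exc N := by
      funext k
      rw [Pi.smul_apply, smul_eq_mul, exc]
      by_cases hk : IsUnit k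
      · have hk0 : k ≠ 0 := fun h => h00 (h ▸ hk)
        rw [hu k hk, if_pos hk, if_neg hk0, mul_zero, sub_zero, mul_one]
      · by_cases hk0 : k = 0
        · rw [hk0, if_neg h00, if_pos rfl, hz]
          ring
        · rw [if_neg hk, if_neg hk0, hf k hk hk0, map_zero]
          ring
    rw [he, map_smul, smul_eq_mul] at h0
    have h4 := LFunction_exc_one_ne_zero hN
    rw [LFunction_one_eq sum_exc] at h4
    have hc0 : c = 0 := (mul_eq_zero.mp h0).resolve_right fun h => h4 (by rw [h, neg_zero])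
    funext k
    apply hinj
    have h5 := congrFun he k
    rw [hc0, zero_smul] at h5
    rw [Pi.zero_apply, map_zero]
    exact h5
  · have hN1 : N = 1 := le_antisymm hN (NeZero.pos N)
    subst hN1
    funext k
    have h1 : ∑ j : ZMod 1, f j = f k := Fintype.sum_eq_single k fun j hj =>
      absurd (Subsingleton.elim j k) hj
    rw [← h1, hsum, Pi.zero_apply]

/-- the value is transcendental -/
theorem transcendental_LFunction (hirr : Irreducible (cyclotomic N K)) {f : ZMod N → K}
    (hf : ∀ k, ¬IsUnit k → k ≠ 0 → f k = 0) (hsum : ∑ k, f k = 0) (h : f ≠ 0) :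
    Transcendental ℚ (ZMod.LFunction (fun k => algebraMap K ℂ (f k)) 1) := by
  have hsum' : ∑ k, algebraMap K ℂ (f k) = 0 := by rw [← map_sum, hsum, map_zero]
  rcases LFunction_one_eq_zero_or_transcendental (fun k =>
    ((Algebra.IsAlgebraic.isAlgebraic (R := ℚ) (f k)).isIntegral.map
      (algebraMap K ℂ).toRatAlgHom).isAlgebraic) hsum' with h1 | h1
  · exact absurd (baker_birch_wirsing hirr hf hsum h1) h
  · exact h1

end Fermat.Agent.Cor.BBW
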