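import Fermat.Agent.Corollaries.BBW.Parity
import Fermat.Agent.Corollaries.BBW.Main

/-!
# The theorem of Chowla and Okada: linear independence of the numbers `cot (π a / N)`
-/

set_option autoImplicit false

open Finset Polynomial

namespace Fermat.Agent.Cor.BBW

variable {N : ℕ} [NeZero N]

/-- `cot (π k / N)` -/
noncomputable def ct (k : ZMod N) : ℝ := Real.cot (Real.pi * k.val / N)

omit [NeZero N] in
theorem ct_zero : ct (0 : ZMod N) = 0 := by
  rw [ct, ZMod.val_zero, Nat.cast_zero, mul_zero, zero_div, Real.cot_eq_cos_div_sin, Real.sin_zero,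
    div_zero]

theorem ct_neg (k : ZMod N) : ct (-k) = -ct k := by
  by_cases hk : k = 0
  · subst hk
    rw [neg_zero, ct_zero, neg_zero]
  · have hN : (N : ℝ) ≠ 0 := Nat.cast_ne_zero.mpr (NeZero.ne N)
    have h1 : (-k).val = N - k.val := by
      have : NeZero k := ⟨hk⟩
      exact ZMod.val_neg_of_ne_zero k
    have h2 : Real.pi * ((-k).val : ℝ) / N = Real.pi - Real.pi * k.val / N := by
      rw [h1, Nat.cast_sub (ZMod.val_lt k).le]
      field_simp
    rw [ct, h2, Real.cot_eq_cos_div_sin, Real.cos_pi_sub, Real.sin_pi_sub, ct,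
      Real.cot_eq_cos_div_sin, neg_div]

/-- `i / (e(k) - 1) = (cot (π k / N) - i) / 2` -/
theorem I_div_sub_one {k : ZMod N} (hk : k ≠ 0) :
    Complex.I / (ZMod.stdAddChar k - 1) = ((ct k : ℝ) - Complex.I) / 2 := by
  have hN : (0 : ℝ) < N := Nat.cast_pos.mpr (NeZero.pos N)
  have hj0 : (0 : ℝ) < k.val := by
    exact_mod_cast Nat.pos_of_ne_zero fun h => hk ((ZMod.val_eq_zero k).mp h)
  have hjN : (k.val : ℝ) < N := by exact_mod_cast ZMod.val_lt k
  have hπ := Real.pi_pos
  set θ : ℝ := Real.pi * k.val / N with hθ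
  have hθ0 : 0 < θ := by positivity
  have hθπ : θ < Real.pi := by
    rw [hθ, div_lt_iff₀ hN]
    nlinarith
  have hs : Real.sin θ ≠ 0 := (Real.sin_pos_of_pos_of_lt_pi hθ0 hθπ).ne'
  have hs' : Complex.sin θ ≠ 0 := by
    rw [← Complex.ofReal_sin]
    exact_mod_cast hs
  have he : (ZMod.stdAddChar k : ℂ) = Complex.exp (θ * Complex.I) * Complex.exp (θ * Complex.I) := by
    rw [Diri.stdAddChar_eq_exp, ← Complex.exp_add]
    congr 1
    rw [hθ]
    push_cast
    ring
  have hne : (ZMod.stdAddChar k : ℂ) - 1 ≠ 0 := sub_ne_zero.mpr (Diri.stdAddChar_ne_one hk)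
  rw [div_eq_div_iff hne two_ne_zero, ct, ← hθ, Real.cot_eq_cos_div_sin, he, Complex.exp_mul_I]
  push_cast
  have h3 := Complex.sin_sq_add_cos_sq (θ : ℂ)
  have h4 : Complex.I ^ 2 = -1 := Complex.I_sq
  field_simp
  linear_combination (-(Complex.cos θ + Complex.I * Complex.sin θ)) * h3 +
    ((Complex.cos θ + Complex.I * Complex.sin θ) * Complex.sin θ ^ 2) * h4

/-- **The value at `1` for an odd function**: `π / (2 N) ∑ f(k) cot (π k / N)`. -/
theorem LFunction_one_cot {Φ : ZMod N → ℂ} (ho : ∀ k, Φ (-k) = -Φ k) :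
    ZMod.LFunction Φ 1 = Real.pi / (2 * N) * ∑ k, Φ k * (ct k : ℝ) := by
  have hN : (N : ℂ) ≠ 0 := Nat.cast_ne_zero.mpr (NeZero.ne N)
  have hsum : ∑ k, Φ k = 0 := by
    have h1 : ∑ k, Φ k = -∑ k, Φ k := by
      conv_lhs => rw [← Equiv.sum_comp (Equiv.neg (ZMod N))]
      rw [← sum_neg_distrib]
      exact sum_congr rfl fun k _ => by rw [Equiv.neg_apply, ho]
    have h2 : (2 : ℂ) * ∑ k, Φ k = 0 := by linear_combination h1
    exact (mul_eq_zero.mp h2).resolve_left two_ne_zero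
  have h00 : Φ 0 = 0 := by
    have h1 := ho 0
    rw [neg_zero] at h1
    have h2 : (2 : ℂ) * Φ 0 = 0 := by linear_combination h1
    exact (mul_eq_zero.mp h2).resolve_left two_ne_zero
  have hinner : ∀ k : ZMod N, k ≠ 0 → ∑ j : ZMod N, (ZMod.stdAddChar (k * j) : ℂ) *
      (-Complex.I * (1 / 2 - (j.val : ℂ) / N)) = ((ct k : ℝ) - Complex.I) / 2 := by
    intro k hk
    have h1 : ∑ j : ZMod N, (ZMod.stdAddChar (k * j) : ℂ) = 0 := by
      have h2 := AddChar.sum_mulShift (R := ZMod N) (R' := ℂ) k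
        (ZMod.isPrimitive_stdAddChar N)
      rw [if_neg hk] at h2
      rw [← Nat.cast_zero (R := ℂ), ← h2]
      exact sum_congr rfl fun j _ => by rw [mul_comm]
    have h2 := Diri.sum_val_mul_stdAddChar (neg_ne_zero.mpr hk)
    rw [neg_neg] at h2
    have h3 : ∑ j : ZMod N, (ZMod.stdAddChar (k * j) : ℂ) *
        (-Complex.I * (1 / 2 - (j.val : ℂ) / N)) =
        -Complex.I / 2 * ∑ j : ZMod N, (ZMod.stdAddChar (k * j) : ℂ) +
          Complex.I / N * ∑ j : ZMod N, (j.val : ℂ) * ZMod.stdAddChar (-(j * -k)) := by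
      rw [mul_sum, mul_sum, ← sum_add_distrib]
      refine sum_congr rfl fun j _ => ?_
      rw [mul_neg, neg_neg, mul_comm k j]
      ring
    rw [h3, h1, h2, ← I_div_sub_one hk]
    have h4 : (ZMod.stdAddChar k : ℂ) - 1 ≠ 0 := sub_ne_zero.mpr (Diri.stdAddChar_ne_one hk)
    field_simp
    ring
  have h1 : ∑ j, ZMod.dft.symm Φ j * (-Complex.I * (1 / 2 - (j.val : ℂ) / N)) =
      (N : ℂ)⁻¹ * ∑ k, Φ k * (((ct k : ℝ) - Complex.I) / 2) := by
    have h2 : ∀ j, ZMod.dft.symm Φ j * (-Complex.I * (1 / 2 - (j.val : ℂ) / N)) =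
        (N : ℂ)⁻¹ * ∑ k, Φ k * ((ZMod.stdAddChar (k * j) : ℂ) *
          (-Complex.I * (1 / 2 - (j.val : ℂ) / N))) := by
      intro j
      rw [ZMod.invDFT_apply, smul_eq_mul, mul_assoc, sum_mul]
      congr 1
      refine sum_congr rfl fun k _ => ?_
      rw [smul_eq_mul]
      ring
    rw [sum_congr rfl fun j _ => h2 j, ← mul_sum, sum_comm]
    congr 1
    refine sum_congr rfl fun k _ => ?_
    rw [← mul_sum]
    by_cases hk : k = 0
    · rw [hk, h00, zero_mul, zero_mul]
    · rw [hinner k hk]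
  have h2 : ∑ k, Φ k * (((ct k : ℝ) - Complex.I) / 2) =
      (1 / 2) * ∑ k, Φ k * (ct k : ℝ) - Complex.I / 2 * ∑ k, Φ k := by
    rw [mul_sum, mul_sum, ← sum_sub_distrib]
    exact sum_congr rfl fun k _ => by ring
  rw [LFunction_one_of_odd ho, h1, h2, hsum]
  field_simp
  ring

variable {K : Type*} [Field K] [CharZero K] [Algebra.IsAlgebraic ℚ K] [Algebra K ℂ]

/-- **Okada's theorem** over a field of algebraic numbers `K` over which the `N`-th cyclotomic
polynomial is irreducible: the numbers `cot (π a / N)`, `a` prime to `N`, `a < N / 2`, are linearly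
independent over `K`. -/
theorem linearIndependent_cot (hN : 1 < N) (hirr : Irreducible (cyclotomic N K)) :
    LinearIndependent K fun a : {a : ZMod N // IsUnit a ∧ 2 * a.val < N} =>
      ((Real.cot (Real.pi * a.1.val / N) : ℝ) : ℂ) := by
  classical
  have hF : Fact (1 < N) := ⟨hN⟩
  rw [Fintype.linearIndependent_iff]
  intro g hg
  set p : ZMod N → K := fun k => if h : IsUnit k ∧ 2 * k.val < N then g ⟨k, h⟩ else 0 with hp
  set f : ZMod N → K := fun k => p k - p (-k) with hf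
  have hodd : ∀ k, f (-k) = -f k := by
    intro k
    rw [hf]
    simp only [neg_neg]
    ring
  have hpn : ∀ k, ¬IsUnit k → p k = 0 := by
    intro k hk
    rw [hp]
    exact dif_neg fun h => hk h.1
  have hunit : ∀ k, ¬IsUnit k → k ≠ 0 → f k = 0 := by
    intro k hk _
    rw [hf]
    simp only
    rw [hpn k hk, hpn (-k) (fun h => hk (by simpa using h.neg)), sub_zero]
  have hsum : ∑ k, f k = 0 := by
    rw [hf, sum_sub_distrib, sub_eq_zero]
    exact (Equiv.sum_comp (Equiv.neg (ZMod N)) p).symm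
  have hodd' : ∀ k, (fun k => algebraMap K ℂ (f k)) (-k) = -(fun k => algebraMap K ℂ (f k)) k := by
    intro k
    simp only
    rw [hodd, map_neg]
  have hsp : ∑ k, algebraMap K ℂ (p k) * (ct k : ℝ) = 0 := by
    rw [← hg]
    have h1 : ∀ k : ZMod N, algebraMap K ℂ (p k) * ((ct k : ℝ) : ℂ) =
        if h : IsUnit k ∧ 2 * k.val < N then
          g ⟨k, h⟩ • ((Real.cot (Real.pi * k.val / N) : ℝ) : ℂ) else 0 := by
      intro k
      by_cases h : IsUnit k ∧ 2 * k.val < N
      · rw [dif_pos h, hp]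
        simp only [dif_pos h]
        rw [Algebra.smul_def, ct]
      · rw [dif_neg h, hp]
        simp only [dif_neg h]
        rw [map_zero, zero_mul]
    rw [sum_congr rfl fun k _ => h1 k]
    refine (Fintype.sum_of_injective (fun a : {a : ZMod N // IsUnit a ∧ 2 * a.val < N} => a.1)
      Subtype.val_injective _ _ (fun k hk => ?_) fun a => ?_).symm
    · exact dif_neg fun h => hk ⟨⟨k, h⟩, rfl⟩
    · rw [dif_pos a.2]
  have hL : ZMod.LFunction (fun k => algebraMap K ℂ (f k)) 1 = 0 := by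
    rw [LFunction_one_cot hodd']
    have h1 : ∑ k, algebraMap K ℂ (f k) * ((ct k : ℝ) : ℂ) =
        2 * ∑ k, algebraMap K ℂ (p k) * ((ct k : ℝ) : ℂ) := by
      have h2 : ∑ k, algebraMap K ℂ (p (-k)) * ((ct k : ℝ) : ℂ) =
          -∑ k, algebraMap K ℂ (p k) * ((ct k : ℝ) : ℂ) := by
        rw [← Equiv.sum_comp (Equiv.neg (ZMod N))
          (fun k => algebraMap K ℂ (p (-k)) * ((ct k : ℝ) : ℂ)), ← sum_neg_distrib]
        refine sum_congr rfl fun k _ => ?_
        rw [Equiv.neg_apply, neg_neg, ct_neg]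
        push_cast
        ring
      have h3 : ∑ k, algebraMap K ℂ (f k) * ((ct k : ℝ) : ℂ) =
          ∑ k, algebraMap K ℂ (p k) * ((ct k : ℝ) : ℂ) -
            ∑ k, algebraMap K ℂ (p (-k)) * ((ct k : ℝ) : ℂ) := by
        rw [← sum_sub_distrib]
        refine sum_congr rfl fun k _ => ?_
        rw [hf]
        simp only [map_sub]
        ring
      rw [h3, h2]
      ring
    rw [h1, hsp, mul_zero, mul_zero]
  have hf0 := baker_birch_wirsing hirr hunit hsum hL
  intro a
  have h1 := congrFun hf0 a.1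
  have h2 : p (-a.1) = 0 := by
    rw [hp]
    refine dif_neg fun h => ?_
    have ha0 : a.1 ≠ 0 := fun h0 => not_isUnit_zero (h0 ▸ a.2.1)
    have : NeZero a.1 := ⟨ha0⟩
    have h3 := ZMod.val_neg_of_ne_zero a.1
    have h4 := a.2.2
    have h5 := h.2
    have h6 := ZMod.val_lt a.1
    rw [h3] at h5
    omega
  have h3 : p a.1 = g a := by
    rw [hp]
    exact dif_pos a.2
  rw [hf] at h1
  simp only [Pi.zero_apply] at h1
  rw [h2, h3, sub_zero] at h1
  exact h1

omit [NeZero N] in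
/-- **The theorem of Chowla (`N` prime) and Okada**: the `φ(N) / 2` real numbers `cot (π a / N)`,
`a` prime to `N`, `1 ≤ a < N / 2`, are linearly independent over `ℚ`. -/
theorem linearIndependent_cot_rat (hN : 1 < N) :
    LinearIndependent ℚ fun a : {a : ℕ // a.Coprime N ∧ 2 * a < N} =>
      Real.cot (Real.pi * a.1 / N) := by
  have hNZ : NeZero N := ⟨by omega⟩
  have h1 := linearIndependent_cot (K := ℚ) hN (cyclotomic.irreducible_rat (by omega))
  have h2 := h1.comp (fun a : {a : ℕ // a.Coprime N ∧ 2 * a < N} =>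
    (⟨(a.1 : ZMod N), (ZMod.isUnit_iff_coprime a.1 N).mpr a.2.1, by
      rw [ZMod.val_cast_of_lt (by have := a.2.2; omega)]
      exact a.2.2⟩ : {a : ZMod N // IsUnit a ∧ 2 * a.val < N})) (by
    intro a b h
    have h3 := congrArg (fun x : {a : ZMod N // IsUnit a ∧ 2 * a.val < N} => x.1.val) h
    simp only at h3
    rw [ZMod.val_cast_of_lt (by have := a.2.2; omega),
      ZMod.val_cast_of_lt (by have := b.2.2; omega)] at h3
    exact Subtype.ext h3)
  have hfun : ((fun a : {a : ZMod N // IsUnit a ∧ 2 * a.val < N} =>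
      ((Real.cot (Real.pi * a.1.val / N) : ℝ) : ℂ)) ∘
      (fun a : {a : ℕ // a.Coprime N ∧ 2 * a < N} =>
    (⟨(a.1 : ZMod N), (ZMod.isUnit_iff_coprime a.1 N).mpr a.2.1, by
      rw [ZMod.val_cast_of_lt (by have := a.2.2; omega)]
      exact a.2.2⟩ : {a : ZMod N // IsUnit a ∧ 2 * a.val < N}))) =
      fun a => ((Real.cot (Real.pi * (a.1 : ℝ) / N) : ℝ) : ℂ) := by
    funext a
    show ((Real.cot (Real.pi * (((a.1 : ℕ) : ZMod N).val : ℝ) / N) : ℝ) : ℂ) =
      ((Real.cot (Real.pi * (a.1 : ℝ) / N) : ℝ) : ℂ)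
    rw [ZMod.val_cast_of_lt (by have := a.2.2; omega)]
  rw [hfun] at h2
  rw [linearIndependent_iff'] at h2 ⊢
  intro s g hg a ha
  refine h2 s g ?_ a ha
  have h4 := congrArg (fun x : ℝ => (x : ℂ)) hg
  simp only [Complex.ofReal_sum, Complex.ofReal_zero] at h4
  rw [← h4]
  refine sum_congr rfl fun b _ => ?_
  rw [Rat.smul_def, Rat.smul_def]
  push_cast
  rfl

end Fermat.Agent.Cor.BBW
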