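import Fermat.Agent.Corollaries.BBW.Series

/-!
# The values of the digamma function at rational numbers

* `tendsto_digamma`: `ψ(x) + γ = ∑ (1 / (n + 1) - 1 / (n + x))`.
* `LFunction_one_eq_digamma`: `L(1, Φ) = -(1 / N) ∑_{r = 1}^N Φ(r) ψ(r / N)` for `Φ` with period `N`
  and mean value `0`.
* `transcendental_digamma_add`: `ψ(x) + γ` is transcendental for every rational number `x` which is
  not an integer (Bundschuh 1979).
* `transcendental_digamma_sub`: `ψ(x) - ψ(y)` is transcendental for rational `x`, `y` (no poles) with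
  `x - y` not an integer.
-/

set_option autoImplicit false

open Finset Filter Topology

namespace Fermat.Agent.Cor.BBW

/-! ### The real digamma function -/

/-- the derivative of `log Γ` -/
noncomputable def psi (x : ℝ) : ℝ := deriv (Real.log ∘ Real.Gamma) x

theorem differentiableAt_logGamma {x : ℝ} (hx : 0 < x) :
    DifferentiableAt ℝ (Real.log ∘ Real.Gamma) x := by
  refine ((Real.differentiableAt_Gamma ?_).log (Real.Gamma_ne_zero ?_)) <;>
  exact fun m => ne_of_gt (by linarith [(Nat.cast_nonneg m : (0 : ℝ) ≤ m)])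

theorem logGamma_add_one {x : ℝ} (hx : 0 < x) :
    (Real.log ∘ Real.Gamma) (x + 1) = (Real.log ∘ Real.Gamma) x + Real.log x := by
  simp only [Function.comp_apply, Real.Gamma_add_one hx.ne',
    Real.log_mul hx.ne' (Real.Gamma_pos_of_pos hx).ne', add_comm]

theorem psi_add_one {x : ℝ} (hx : 0 < x) : psi (x + 1) = psi x + 1 / x := by
  rw [psi, psi, ← deriv_comp_add_const, one_div, ← Real.deriv_log,
    ← deriv_add (differentiableAt_logGamma hx) (Real.differentiableAt_log hx.ne')]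
  apply EventuallyEq.deriv_eq
  filter_upwards [eventually_gt_nhds hx] with y hy using logGamma_add_one hy

theorem psi_add_nat {x : ℝ} (hx : 0 < x) (n : ℕ) :
    psi (x + n) = psi x + ∑ i ∈ range n, 1 / ((i : ℝ) + x) := by
  induction n with
  | zero => simp
  | succ n ih =>
    rw [Nat.cast_succ, ← add_assoc, psi_add_one (by positivity), ih, sum_range_succ, add_assoc,
      add_comm x]

theorem psi_le_log {x : ℝ} (hx : 0 < x) : psi x ≤ Real.log x := by
  refine (Real.convexOn_log_Gamma.deriv_le_slope (Set.mem_Ioi.mpr hx)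
    (Set.mem_Ioi.mpr (by linarith : (0 : ℝ) < x + 1)) (by linarith)
    (differentiableAt_logGamma hx)).trans (le_of_eq ?_)
  rw [slope_def_field, add_sub_cancel_left, div_one, logGamma_add_one hx, add_sub_cancel_left]

theorem log_le_psi {x : ℝ} (hx : 0 < x) : Real.log x ≤ psi (x + 1) := by
  refine (le_of_eq ?_).trans <| Real.convexOn_log_Gamma.slope_le_deriv (Set.mem_Ioi.mpr hx)
    (Set.mem_Ioi.mpr (by linarith : (0 : ℝ) < x + 1)) (by linarith)
    (differentiableAt_logGamma (by linarith))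
  rw [slope_def_field, add_sub_cancel_left, div_one, logGamma_add_one hx, add_sub_cancel_left]

theorem tendsto_psi_sub_log {x : ℝ} (hx : 0 < x) :
    Tendsto (fun N : ℕ => psi (x + N) - Real.log N) atTop (𝓝 0) := by
  have hlim : ∀ c : ℝ, Tendsto (fun N : ℕ => Real.log (1 + c / N)) atTop (𝓝 0) := by
    intro c
    have h1 : Tendsto (fun N : ℕ => 1 + c / (N : ℝ)) atTop (𝓝 (1 + 0)) :=
      tendsto_const_nhds.add (tendsto_const_div_atTop_nhds_zero_nat c)
    rw [add_zero] at h1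
    have h2 := (Real.continuousAt_log one_ne_zero).tendsto.comp h1
    rw [Real.log_one] at h2
    exact h2
  have hev : ∀ᶠ N : ℕ in atTop, 1 ≤ N := eventually_ge_atTop 1
  refine tendsto_of_tendsto_of_tendsto_of_le_of_le' (hlim (x - 1)) (hlim x) ?_ ?_
  · filter_upwards [hev] with N hN
    have hN1 : (1 : ℝ) ≤ N := by exact_mod_cast hN
    have hN0 : (0 : ℝ) < N := by linarith
    have h1 := log_le_psi (x := x + N - 1) (by linarith)
    rw [sub_add_cancel] at h1
    have h2 : (1 : ℝ) + (x - 1) / N = (x + N - 1) / N := by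
      field_simp
      ring
    rw [h2, Real.log_div (by linarith) hN0.ne']
    linarith
  · filter_upwards [hev] with N hN
    have hN1 : (1 : ℝ) ≤ N := by exact_mod_cast hN
    have hN0 : (0 : ℝ) < N := by linarith
    have h1 := psi_le_log (x := x + N) (by linarith)
    have h2 : (1 : ℝ) + x / N = (x + N) / N := by
      field_simp
      ring
    rw [h2, Real.log_div (by linarith) hN0.ne']
    linarith

/-- **The series of the digamma function** -/
theorem tendsto_psi {x : ℝ} (hx : 0 < x) :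
    Tendsto (fun N : ℕ => ∑ n ∈ range N, (1 / ((n : ℝ) + 1) - 1 / ((n : ℝ) + x))) atTop
      (𝓝 (psi x + Real.eulerMascheroniConstant)) := by
  have h1 := (Real.tendsto_harmonic_sub_log.sub (tendsto_psi_sub_log hx)).const_add (psi x)
  rw [sub_zero] at h1
  refine h1.congr fun N => ?_
  rw [psi_add_nat hx, sum_sub_distrib]
  have h2 : ∑ n ∈ range N, 1 / ((n : ℝ) + 1) = (harmonic N : ℝ) := by
    rw [harmonic]
    push_cast
    exact sum_congr rfl fun n _ => by rw [one_div]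
  rw [h2]
  ring

theorem psi_one : psi 1 = -Real.eulerMascheroniConstant := by
  have h := tendsto_psi one_pos
  simp only [sub_self, sum_const_zero] at h
  have := tendsto_nhds_unique h tendsto_const_nhds
  linarith

/-- `ψ` is strictly increasing -/
theorem psi_lt {x y : ℝ} (hx : 0 < x) (hxy : x < y) : psi x < psi y := by
  have h := (tendsto_psi (hx.trans hxy)).sub (tendsto_psi hx)
  have h1 : 1 / x - 1 / y ≤ psi y + Real.eulerMascheroniConstant -
      (psi x + Real.eulerMascheroniConstant) := by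
    refine ge_of_tendsto h ?_
    filter_upwards [eventually_ge_atTop 1] with N hN
    rw [← sum_sub_distrib]
    have h2 : ∀ n ∈ range N, 0 ≤ 1 / ((n : ℝ) + 1) - 1 / ((n : ℝ) + y) -
        (1 / ((n : ℝ) + 1) - 1 / ((n : ℝ) + x)) := by
      intro n _
      have h3 : 1 / ((n : ℝ) + y) ≤ 1 / ((n : ℝ) + x) :=
        one_div_le_one_div_of_le (by positivity) (by linarith)
      linarith
    have h4 := single_le_sum h2 (mem_range.mpr hN : 0 ∈ range N)
    refine le_trans (le_of_eq ?_) h4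
    push_cast
    ring
  have h2 : 1 / y < 1 / x := one_div_lt_one_div_of_lt hx hxy
  linarith

/-- the complex and the real digamma function -/
theorem digamma_ofReal {x : ℝ} (hx : 0 < x) : Complex.digamma x = psi x := by
  have hne : ∀ m : ℕ, x ≠ -m := fun m => ne_of_gt (by linarith [(Nat.cast_nonneg m : (0 : ℝ) ≤ m)])
  have hg := (Real.differentiableAt_Gamma hne).hasDerivAt
  have hf : DifferentiableAt ℂ Complex.Gamma x := by
    refine Complex.differentiableAt_Gamma _ fun m => ?_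
    rw [← Complex.ofReal_natCast, ← Complex.ofReal_neg, Ne, Complex.ofReal_inj]
    exact hne m
  have h1 : deriv Complex.Gamma x = (deriv Real.Gamma x : ℝ) := by
    have h2 := (funext Complex.Gamma_ofReal ▸ hf.hasDerivAt.comp_ofReal.deriv :)
    rw [← h2]
    exact hg.ofReal_comp.deriv
  rw [Complex.digamma_def, logDeriv_apply, h1, Complex.Gamma_ofReal, psi, Function.comp_def,
    deriv.log (Real.differentiableAt_Gamma hne) (Real.Gamma_ne_zero hne)]
  push_cast
  rfl

/-! ### The value at `1` of the `L`-function of a periodic function -/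

variable {N : ℕ} [NeZero N]

omit [NeZero N] in
theorem sum_block (g : ℕ → ℂ) (M : ℕ) : ∑ n ∈ range (N * M + 1), g n =
    g 0 + ∑ j ∈ range M, ∑ i ∈ range N, g (N * j + (i + 1)) := by
  induction M with
  | zero => simp
  | succ M ih =>
    have h1 : N * (M + 1) + 1 = (N * M + 1) + N := by ring
    rw [h1, sum_range_add, ih,
      sum_range_succ (fun j => ∑ i ∈ range N, g (N * j + (i + 1))) M, add_assoc]
    congr 2
    refine sum_congr rfl fun i _ => ?_
    congr 1
    ring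

theorem sum_range_succ_cast (Φ : ZMod N → ℂ) :
    ∑ i ∈ range N, Φ ((i + 1 : ℕ) : ZMod N) = ∑ k, Φ k := by
  rw [← Equiv.sum_comp (Equiv.addRight (1 : ZMod N)) Φ, Diri.sum_zmod_eq]
  refine sum_congr rfl fun i _ => ?_
  rw [Equiv.coe_addRight]
  push_cast
  rfl

/-- `L(1, Φ) = -(1 / N) ∑_{r = 1}^N Φ(r) ψ(r / N)` -/
theorem LFunction_one_eq_psi (Φ : ZMod N → ℂ) (hΦ : ∑ k, Φ k = 0) :
    ZMod.LFunction Φ 1 =
      -(1 / N) * ∑ i ∈ range N, Φ ((i + 1 : ℕ) : ZMod N) * psi (((i : ℝ) + 1) / N) := by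
  have hN : (N : ℂ) ≠ 0 := Nat.cast_ne_zero.mpr (NeZero.ne N)
  have hN0 : 0 < N := NeZero.pos N
  have hS : ∑ i ∈ range N, Φ ((i + 1 : ℕ) : ZMod N) = 0 := by rw [sum_range_succ_cast, hΦ]
  have ht : Tendsto (fun M : ℕ => N * M + 1) atTop atTop := by
    refine tendsto_atTop_mono (fun M => ?_) tendsto_id
    have := Nat.le_mul_of_pos_left M hN0
    simp only [id]
    omega
  have h1 := (tendsto_sum_div Φ hΦ).comp ht
  have h2 : Tendsto (fun M : ℕ => -(1 / (N : ℂ)) * ∑ i ∈ range N, Φ ((i + 1 : ℕ) : ZMod N) *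
      ((∑ j ∈ range M, (1 / ((j : ℝ) + 1) - 1 / ((j : ℝ) + ((i : ℝ) + 1) / N)) : ℝ) : ℂ)) atTop
      (𝓝 (-(1 / (N : ℂ)) * ∑ i ∈ range N, Φ ((i + 1 : ℕ) : ZMod N) *
        ((psi (((i : ℝ) + 1) / N) + Real.eulerMascheroniConstant : ℝ) : ℂ))) := by
    refine Tendsto.const_mul _ (tendsto_finsetSum _ fun i _ => Tendsto.const_mul _ ?_)
    have hx : 0 < ((i : ℝ) + 1) / N := by
      have : (0 : ℝ) < N := by exact_mod_cast hN0
      positivity
    exact (Complex.continuous_ofReal.tendsto _).comp (tendsto_psi hx)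
  have h3 : ∀ M : ℕ, (∑ n ∈ range (N * M + 1), Φ (n : ZMod N) / (n : ℂ)) =
      -(1 / (N : ℂ)) * ∑ i ∈ range N, Φ ((i + 1 : ℕ) : ZMod N) *
      ((∑ j ∈ range M, (1 / ((j : ℝ) + 1) - 1 / ((j : ℝ) + ((i : ℝ) + 1) / N)) : ℝ) : ℂ) := by
    intro M
    have e1 : ∀ i : ℕ, ((∑ j ∈ range M, (1 / ((j : ℝ) + 1) -
        1 / ((j : ℝ) + ((i : ℝ) + 1) / N)) : ℝ) : ℂ) =
        (∑ j ∈ range M, 1 / ((j : ℂ) + 1)) - ∑ j ∈ range M, 1 / ((j : ℂ) + ((i : ℂ) + 1) / N) := by
      intro i
      push_cast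
      rw [sum_sub_distrib]
    have e2 : ∑ i ∈ range N, Φ ((i + 1 : ℕ) : ZMod N) *
        ((∑ j ∈ range M, (1 / ((j : ℝ) + 1) - 1 / ((j : ℝ) + ((i : ℝ) + 1) / N)) : ℝ) : ℂ) =
        -∑ i ∈ range N, Φ ((i + 1 : ℕ) : ZMod N) *
          ∑ j ∈ range M, 1 / ((j : ℂ) + ((i : ℂ) + 1) / N) := by
      simp only [e1, mul_sub]
      rw [sum_sub_distrib, ← sum_mul, hS, zero_mul, zero_sub]
    rw [e2, sum_block, Nat.cast_zero, Nat.cast_zero, div_zero, zero_add, sum_comm, neg_mul_neg,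
      mul_sum]
    refine sum_congr rfl fun i _ => ?_
    rw [mul_left_comm, mul_sum, mul_sum]
    refine sum_congr rfl fun j _ => ?_
    have e3 : ((N * j + (i + 1) : ℕ) : ZMod N) = ((i + 1 : ℕ) : ZMod N) := by
      rw [Nat.cast_add, Nat.cast_mul, ZMod.natCast_self, zero_mul, zero_add]
    have e4 : (((N * j + (i + 1) : ℕ)) : ℂ) ≠ 0 := by
      rw [Nat.cast_ne_zero]
      omega
    have e5 : ((j : ℂ) + ((i : ℂ) + 1) / N) ≠ 0 := by
      intro h
      apply e4
      have h5 : (((N * j + (i + 1) : ℕ)) : ℂ) = N * ((j : ℂ) + ((i : ℂ) + 1) / N) := by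
        push_cast
        field_simp
      rw [h5, h, mul_zero]
    have e6 : (((N * j + (i + 1) : ℕ)) : ℂ) = N * ((j : ℂ) + ((i : ℂ) + 1) / N) := by
      push_cast
      field_simp
    rw [e3, e6]
    field_simp
  have h4 := tendsto_nhds_unique h1 (h2.congr fun M => (h3 M).symm)
  rw [h4]
  congr 1
  have e7 : ∀ i ∈ range N, Φ ((i + 1 : ℕ) : ZMod N) *
      ((psi (((i : ℝ) + 1) / N) + Real.eulerMascheroniConstant : ℝ) : ℂ) =
      Φ ((i + 1 : ℕ) : ZMod N) * psi (((i : ℝ) + 1) / N) +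
        Φ ((i + 1 : ℕ) : ZMod N) * Real.eulerMascheroniConstant := by
    intro i _
    push_cast
    ring
  rw [sum_congr rfl e7, sum_add_distrib, ← sum_mul, hS, zero_mul, add_zero]

/-! ### Transcendence -/

omit [NeZero N] in
theorem isAlgebraic_ite (P : Prop) [Decidable P] : IsAlgebraic ℚ (if P then (1 : ℂ) else 0) := by
  split_ifs
  · exact isAlgebraic_one
  · exact isAlgebraic_zero

/-- `ψ(s / N) - ψ(r / N)` is transcendental for `1 ≤ r, s ≤ N`, `r ≠ s` -/
theorem transcendental_psi_sub_nat {r s : ℕ} (hr : 1 ≤ r) (hrN : r ≤ N) (hs : 1 ≤ s)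
    (hsN : s ≤ N) (hrs : r ≠ s) :
    Transcendental ℚ ((psi ((s : ℝ) / N) - psi ((r : ℝ) / N) : ℝ) : ℂ) := by
  classical
  have hN0 : 0 < N := NeZero.pos N
  have hN : (0 : ℝ) < N := by exact_mod_cast hN0
  have hNC : (N : ℂ) ≠ 0 := Nat.cast_ne_zero.mpr hN0.ne'
  set Φ : ZMod N → ℂ := fun k => (if k = (s : ZMod N) then 1 else 0) -
    (if k = (r : ZMod N) then 1 else 0) with hΦ
  have hsum : ∑ k, Φ k = 0 := by
    rw [hΦ, sum_sub_distrib, sum_ite_eq' univ (s : ZMod N), sum_ite_eq' univ (r : ZMod N),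
      if_pos (mem_univ _), if_pos (mem_univ _), sub_self]
  have halg : ∀ k, IsAlgebraic ℚ (Φ k) := fun k => (isAlgebraic_ite _).sub (isAlgebraic_ite _)
  have key : ∀ {i a : ℕ}, i ∈ range N → 1 ≤ a → a ≤ N →
      (((i + 1 : ℕ) : ZMod N) = (a : ZMod N) ↔ i = a - 1) := by
    intro i a hi ha haN
    rw [mem_range] at hi
    constructor
    · intro h
      rw [ZMod.natCast_eq_natCast_iff] at h
      rcases Nat.lt_or_ge a N with h1 | h1
      · rcases Nat.lt_or_ge (i + 1) N with h2 | h2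
        · have h3 := Nat.ModEq.eq_of_lt_of_lt h h2 h1
          omega
        · have h4 : i + 1 = N := by omega
          rw [h4] at h
          have h5 : a ≡ 0 [MOD N] := h.symm.trans (by simp [Nat.ModEq])
          have h6 := Nat.ModEq.eq_of_lt_of_lt h5 h1 hN0
          omega
      · have h4 : a = N := by omega
        rw [h4] at h
        rcases Nat.lt_or_ge (i + 1) N with h2 | h2
        · have h5 : i + 1 ≡ 0 [MOD N] := h.trans (by simp [Nat.ModEq])
          have h6 := Nat.ModEq.eq_of_lt_of_lt h5 h2 hN0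
          omega
        · omega
    · rintro rfl
      rw [Nat.sub_add_cancel ha]
  have hpsi : ∀ a : ℕ, 1 ≤ a → a ≤ N → ∑ i ∈ range N,
      (if ((i + 1 : ℕ) : ZMod N) = (a : ZMod N) then (1 : ℂ) else 0) *
        psi (((i : ℝ) + 1) / N) = psi ((a : ℝ) / N) := by
    intro a ha haN
    have h1 : ∀ i ∈ range N, (if ((i + 1 : ℕ) : ZMod N) = (a : ZMod N) then (1 : ℂ) else 0) *
        psi (((i : ℝ) + 1) / N) = if i = a - 1 then (psi (((i : ℝ) + 1) / N) : ℂ) else 0 := by
      intro i hi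
      rw [ite_mul, one_mul, zero_mul]
      exact if_congr (key hi ha haN) rfl rfl
    rw [sum_congr rfl h1, sum_ite_eq' (range N) (a - 1), if_pos (mem_range.mpr (by omega))]
    have h2 : (((a - 1 : ℕ) : ℝ) + 1) = a := by
      rw [Nat.cast_sub ha, Nat.cast_one, sub_add_cancel]
    rw [h2]
  have hL : ZMod.LFunction Φ 1 = -(1 / N) * (psi ((s : ℝ) / N) - psi ((r : ℝ) / N) : ℝ) := by
    rw [LFunction_one_eq_psi Φ hsum]
    congr 1
    simp only [hΦ, sub_mul]
    rw [sum_sub_distrib, hpsi s hs hsN, hpsi r hr hrN, Complex.ofReal_sub]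
  have hne : psi ((s : ℝ) / N) - psi ((r : ℝ) / N) ≠ 0 := by
    have hr0 : (0 : ℝ) < r := by exact_mod_cast hr
    have hs0 : (0 : ℝ) < s := by exact_mod_cast hs
    rcases lt_or_gt_of_ne hrs with h | h
    · have h1 : (r : ℝ) < s := by exact_mod_cast h
      have h2 := psi_lt (div_pos hr0 hN) (div_lt_div_of_pos_right h1 hN)
      exact (sub_pos.mpr h2).ne'
    · have h1 : (s : ℝ) < r := by exact_mod_cast h
      have h2 := psi_lt (div_pos hs0 hN) (div_lt_div_of_pos_right h1 hN)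
      exact (sub_neg.mpr h2).ne
  have hLne : ZMod.LFunction Φ 1 ≠ 0 := by
    rw [hL]
    refine mul_ne_zero (neg_ne_zero.mpr (one_div_ne_zero hNC)) ?_
    exact_mod_cast hne
  have htr := (LFunction_one_eq_zero_or_transcendental halg hsum).resolve_left hLne
  intro hcon
  apply htr
  rw [hL]
  refine IsAlgebraic.mul ?_ hcon
  exact ((isAlgebraic_natCast N).inv.neg : IsAlgebraic ℚ (-((N : ℂ))⁻¹)) |> fun h => by
    rwa [one_div]

/-- `ψ(y) - ψ(x)` is transcendental for rational `x ≠ y` in `(0, 1]` -/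
theorem transcendental_psi_sub {x y : ℚ} (hx : 0 < x) (hx1 : x ≤ 1) (hy : 0 < y) (hy1 : y ≤ 1)
    (hxy : x ≠ y) : Transcendental ℚ ((psi (y : ℝ) - psi (x : ℝ) : ℝ) : ℂ) := by
  have hN : NeZero (x.den * y.den) := ⟨Nat.mul_ne_zero x.den_ne_zero y.den_ne_zero⟩
  have hxd : (x.den : ℚ) ≠ 0 := Nat.cast_ne_zero.mpr x.den_ne_zero
  have hyd : (y.den : ℚ) ≠ 0 := Nat.cast_ne_zero.mpr y.den_ne_zero
  obtain ⟨a, ha⟩ : ∃ a : ℕ, (a : ℤ) = x.num := Int.eq_ofNat_of_zero_le (Rat.num_nonneg.mpr hx.le) |>.imp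
    fun _ h => h.symm
  obtain ⟨b, hb⟩ : ∃ b : ℕ, (b : ℤ) = y.num := Int.eq_ofNat_of_zero_le (Rat.num_nonneg.mpr hy.le) |>.imp
    fun _ h => h.symm
  have hxa : x = (a : ℚ) / x.den := by
    have h := Rat.num_div_den x
    rw [← ha, Int.cast_natCast] at h
    exact h.symm
  have hyb : y = (b : ℚ) / y.den := by
    have h := Rat.num_div_den y
    rw [← hb, Int.cast_natCast] at h
    exact h.symm
  have hxr : x = ((a * y.den : ℕ) : ℚ) / ((x.den * y.den : ℕ) : ℚ) := by
    push_cast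
    rw [mul_div_mul_right _ _ hyd]
    exact hxa
  have hyr : y = ((b * x.den : ℕ) : ℚ) / ((x.den * y.den : ℕ) : ℚ) := by
    push_cast
    rw [mul_comm (x.den : ℚ), mul_div_mul_right _ _ hxd]
    exact hyb
  have hNpos : (0 : ℚ) < ((x.den * y.den : ℕ) : ℚ) := by
    exact_mod_cast Nat.pos_of_ne_zero hN.out
  have b1 : ∀ {z : ℚ} {m : ℕ}, z = (m : ℚ) / ((x.den * y.den : ℕ) : ℚ) → 0 < z → z ≤ 1 →
      1 ≤ m ∧ m ≤ x.den * y.den := by
    intro z m hz hz0 hz1
    rw [hz] at hz0 hz1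
    rw [div_le_one hNpos] at hz1
    have h1 : (0 : ℚ) < m := (div_pos_iff_of_pos_right hNpos).mp hz0
    exact ⟨by exact_mod_cast h1, by exact_mod_cast hz1⟩
  obtain ⟨h1, h2⟩ := b1 hxr hx hx1
  obtain ⟨h3, h4⟩ := b1 hyr hy hy1
  have h5 : a * y.den ≠ b * x.den := by
    intro h
    apply hxy
    exact hxr.trans ((congrArg (fun m : ℕ => (m : ℚ) / ((x.den * y.den : ℕ) : ℚ)) h).trans
      hyr.symm)
  have h6 := transcendental_psi_sub_nat (N := x.den * y.den) h1 h2 h3 h4 h5
  have e1 : ((a * y.den : ℕ) : ℝ) / ((x.den * y.den : ℕ) : ℝ) = (x : ℝ) := by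
    have h7 := congrArg (Rat.cast : ℚ → ℝ) hxr
    rw [Rat.cast_div, Rat.cast_natCast, Rat.cast_natCast] at h7
    exact h7.symm
  have e2 : ((b * x.den : ℕ) : ℝ) / ((x.den * y.den : ℕ) : ℝ) = (y : ℝ) := by
    have h7 := congrArg (Rat.cast : ℚ → ℝ) hyr
    rw [Rat.cast_div, Rat.cast_natCast, Rat.cast_natCast] at h7
    exact h7.symm
  rwa [e1, e2] at h6

/-! ### All rational numbers -/

theorem digamma_add_nat {x : ℚ} (hx : ∀ m : ℕ, x ≠ -m) (n : ℕ) :
    ∃ c : ℚ, Complex.digamma ((x + n : ℚ) : ℂ) = Complex.digamma (x : ℂ) + c := by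
  induction n with
  | zero => exact ⟨0, by simp⟩
  | succ n ih =>
    obtain ⟨c, hc⟩ := ih
    refine ⟨c + (x + n)⁻¹, ?_⟩
    have h1 : ((x + (n + 1 : ℕ) : ℚ) : ℂ) = ((x + n : ℚ) : ℂ) + 1 := by
      push_cast
      ring
    rw [h1, Complex.digamma_apply_add_one _ fun m h => ?_, hc]
    · push_cast
      ring
    · have h2 : x + n = -(m : ℚ) := by exact_mod_cast h
      refine hx (m + n) ?_
      push_cast
      linarith

/-- reduction to the interval `(0, 1]` -/
theorem exists_digamma_eq {x : ℚ} (hx : ∀ m : ℕ, x ≠ -m) :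
    ∃ c : ℚ, Complex.digamma (x : ℂ) = psi ((x - (⌈x⌉ - 1) : ℚ) : ℝ) + c := by
  set x' : ℚ := x - (⌈x⌉ - 1) with hx'
  have h0 : 0 < x' := by
    have := Int.ceil_lt_add_one x
    rw [hx']
    linarith
  have hpsi : Complex.digamma (x' : ℂ) = psi (x' : ℝ) := by
    have h1 : (0 : ℝ) < (x' : ℝ) := by exact_mod_cast h0
    have h2 := digamma_ofReal h1
    rwa [Complex.ofReal_ratCast] at h2
  rcases le_total 0 (⌈x⌉ - 1) with h | h
  · obtain ⟨n, hn⟩ := Int.eq_ofNat_of_zero_le h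
    have h2 : ∀ m : ℕ, x' ≠ -m := fun m h3 => by
      have : (0 : ℚ) ≤ m := Nat.cast_nonneg m
      linarith
    obtain ⟨c, hc⟩ := digamma_add_nat h2 n
    refine ⟨c, ?_⟩
    rw [← hpsi, ← hc]
    congr 2
    have h3 : ((⌈x⌉ : ℚ) - 1) = (n : ℚ) := by exact_mod_cast hn
    rw [hx', h3]
    ring
  · obtain ⟨n, hn⟩ := Int.eq_ofNat_of_zero_le (neg_nonneg.mpr h)
    obtain ⟨c, hc⟩ := digamma_add_nat hx n
    refine ⟨-c, ?_⟩
    have h3 : -((⌈x⌉ : ℚ) - 1) = (n : ℚ) := by exact_mod_cast hn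
    have h4 : x' = x + n := by
      rw [hx', ← h3]
      ring
    rw [← hpsi, h4, hc]
    push_cast
    ring

theorem transcendental_add_rat {z : ℂ} (h : Transcendental ℚ z) (c : ℚ) :
    Transcendental ℚ (z + c) := by
  intro h1
  apply h
  have h2 := h1.sub (isAlgebraic_algebraMap (R := ℚ) (A := ℂ) c)
  rwa [eq_ratCast, add_sub_cancel_right] at h2

/-- **`ψ(x) - ψ(y)` is transcendental** for all rational numbers `x`, `y`, no poles of `ψ`, whose
difference is not an integer. -/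
theorem transcendental_digamma_sub {x y : ℚ} (hx : ∀ m : ℕ, x ≠ -m) (hy : ∀ m : ℕ, y ≠ -m)
    (h : ∀ n : ℤ, x - y ≠ n) :
    Transcendental ℚ (Complex.digamma (x : ℂ) - Complex.digamma (y : ℂ)) := by
  obtain ⟨c, hc⟩ := exists_digamma_eq hx
  obtain ⟨d, hd⟩ := exists_digamma_eq hy
  have b1 : ∀ z : ℚ, 0 < z - (⌈z⌉ - 1) ∧ z - (⌈z⌉ - 1) ≤ 1 := by
    intro z
    have h1 := Int.ceil_lt_add_one z
    have h2 := Int.le_ceil z
    constructor <;> linarith
  have hne : y - (⌈y⌉ - 1) ≠ x - (⌈x⌉ - 1) := by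
    intro h1
    apply h (⌈x⌉ - ⌈y⌉)
    push_cast
    linarith
  have h1 := transcendental_add_rat (transcendental_psi_sub (b1 y).1 (b1 y).2 (b1 x).1 (b1 x).2 hne)
    (c - d)
  rw [hc, hd]
  convert h1 using 1
  push_cast
  ring

/-- the converse: `ψ(x + n) - ψ(x)` is rational -/
theorem digamma_sub_rat {x y : ℚ} (hx : ∀ m : ℕ, x ≠ -m) (hy : ∀ m : ℕ, y ≠ -m) {n : ℤ}
    (h : x - y = n) : ∃ c : ℚ, Complex.digamma (x : ℂ) - Complex.digamma (y : ℂ) = c := by
  rcases le_total 0 n with h0 | h0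
  · obtain ⟨m, rfl⟩ := Int.eq_ofNat_of_zero_le h0
    obtain ⟨c, hc⟩ := digamma_add_nat hy m
    refine ⟨c, ?_⟩
    have h1 : x = y + m := by
      rw [Int.cast_natCast] at h
      linarith
    rw [h1, hc, add_sub_cancel_left]
  · obtain ⟨m, hm⟩ := Int.eq_ofNat_of_zero_le (neg_nonneg.mpr h0)
    obtain ⟨c, hc⟩ := digamma_add_nat hx m
    refine ⟨-c, ?_⟩
    have h1 : y = x + m := by
      have h2 : (-(n : ℚ)) = (m : ℚ) := by exact_mod_cast hm
      linarith
    rw [h1, hc]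
    push_cast
    ring

/-- **`ψ(x) - ψ(y)` is algebraic if and only if `x - y` is an integer** (`x`, `y` rational, no
poles). -/
theorem isAlgebraic_digamma_sub_iff {x y : ℚ} (hx : ∀ m : ℕ, x ≠ -m) (hy : ∀ m : ℕ, y ≠ -m) :
    IsAlgebraic ℚ (Complex.digamma (x : ℂ) - Complex.digamma (y : ℂ)) ↔ ∃ n : ℤ, x - y = n := by
  constructor
  · intro h
    by_contra hcon
    push Not at hcon
    exact transcendental_digamma_sub hx hy hcon h
  · rintro ⟨n, hn⟩
    obtain ⟨c, hc⟩ := digamma_sub_rat hx hy hn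
    rw [hc]
    exact isAlgebraic_algebraMap (R := ℚ) (A := ℂ) c

/-- **`ψ(x) + γ` is transcendental** for every rational number `x` which is not an integer
(Bundschuh 1979). -/
theorem transcendental_digamma_add {x : ℚ} (hx : ∀ n : ℤ, x ≠ n) :
    Transcendental ℚ (Complex.digamma (x : ℂ) + Real.eulerMascheroniConstant) := by
  have h1 := transcendental_digamma_sub (x := x) (y := 1)
    (fun m h => hx (-m) (by rw [h]; push_cast; rfl)) (fun m h => ?_) fun n h => ?_
  · rwa [Rat.cast_one, Complex.digamma_one, sub_neg_eq_add] at h1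
  · have : (0 : ℚ) ≤ m := Nat.cast_nonneg m
    linarith
  · refine hx (n + 1) ?_
    push_cast
    linarith

/-- **At most one class of rational numbers modulo `ℤ` has algebraic values of `ψ`.** -/
theorem algebraic_digamma_class {x y : ℚ} (hx : ∀ m : ℕ, x ≠ -m) (hy : ∀ m : ℕ, y ≠ -m)
    (h1 : IsAlgebraic ℚ (Complex.digamma (x : ℂ))) (h2 : IsAlgebraic ℚ (Complex.digamma (y : ℂ))) :
    ∃ n : ℤ, x - y = n :=
  (isAlgebraic_digamma_sub_iff hx hy).mp (h1.sub h2)

end Fermat.Agent.Cor.BBW
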