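import Fermat.Agent.Corollaries.BBW.Main
import Mathlib.Analysis.Complex.AbelLimit

/-!
# The value at `1` as the sum of the series, and Chowla's problem

* `tendsto_sum_pow_div`: `∑ zⁿ / n = -log (1 - z)` on the unit circle, `z ≠ 1`.
* `tendsto_sum_div`: `∑ Φ(n) / n = L(1, Φ)` for a periodic function with mean value `0`.
* `sum_eq_zero_of_tendsto`: the series converges only if the mean value is `0`.
* `baker_birch_wirsing_series`, `transcendental_series`: the theorem of Baker, Birch and Wirsing for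
  the series itself.
* `chowla`: `p` prime, `f` rational valued with period `p`, `∑ f(n) / n = 0`: then `f = 0`.
-/

set_option autoImplicit false

open Finset Filter Topology

namespace Fermat.Agent.Cor.BBW

/-! ### The series of the logarithm on the unit circle -/

theorem tendsto_range_succ {f : ℕ → ℂ} (h0 : f 0 = 0) {l : ℂ}
    (h : Tendsto (fun M : ℕ => ∑ i ∈ range M, f (i + 1)) atTop (𝓝 l)) :
    Tendsto (fun M : ℕ => ∑ i ∈ range M, f i) atTop (𝓝 l) := by
  rw [← tendsto_add_atTop_iff_nat 1]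
  refine h.congr fun M => ?_
  rw [sum_range_succ', h0, add_zero]

/-- **Abel**: `∑ zⁿ / n = -log (1 - z)` for `|z| = 1`, `z ≠ 1`. -/
theorem tendsto_sum_pow_div {z : ℂ} (hz : ‖z‖ = 1) (hz1 : z ≠ 1) :
    Tendsto (fun M : ℕ => ∑ n ∈ range M, z ^ n / (n : ℂ)) atTop
      (𝓝 (-Complex.log (1 - z))) := by
  have hz1' : z - 1 ≠ 0 := sub_ne_zero.mpr hz1
  -- convergence
  have hanti : Antitone fun n : ℕ => 1 / ((n : ℝ) + 1) := by
    intro m n hmn
    have h1 : (m : ℝ) ≤ n := by exact_mod_cast hmn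
    exact one_div_le_one_div_of_le (by positivity) (by linarith)
  have hb : ∀ n : ℕ, ‖∑ i ∈ range n, z ^ (i + 1)‖ ≤ 2 / ‖z - 1‖ := by
    intro n
    have h1 : ∑ i ∈ range n, z ^ (i + 1) = z * ((z ^ n - 1) / (z - 1)) := by
      rw [← geom_sum_eq hz1, mul_sum]
      exact sum_congr rfl fun i _ => by ring
    rw [h1, norm_mul, hz, one_mul, norm_div]
    gcongr
    calc ‖z ^ n - 1‖ ≤ ‖z ^ n‖ + ‖(1 : ℂ)‖ := norm_sub_le _ _
      _ = 2 := by rw [norm_pow, hz, one_pow, norm_one]; norm_num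
  have hcauchy := hanti.cauchySeq_series_mul_of_tendsto_zero_of_bounded
    tendsto_one_div_add_atTop_nhds_zero_nat hb
  obtain ⟨l, hl⟩ := cauchySeq_tendsto_of_complete hcauchy
  have hl' : Tendsto (fun M : ℕ => ∑ n ∈ range M, z ^ n / (n : ℂ)) atTop (𝓝 l) := by
    refine tendsto_range_succ (f := fun n : ℕ => z ^ n / (n : ℂ)) (by simp) (hl.congr fun M => ?_)
    refine sum_congr rfl fun i _ => ?_
    rw [Complex.real_smul]
    push_cast
    ring
  -- the value
  have habel := Complex.tendsto_tsum_powerSeries_nhdsWithin_lt hl'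
  rw [tendsto_map'_iff] at habel
  have hre : z.re < 1 := by
    have h1 : z.re ≤ 1 := hz ▸ Complex.re_le_norm z
    refine lt_of_le_of_ne h1 fun h2 => hz1 ?_
    have h3 : z.re * z.re + z.im * z.im = 1 := by
      have h4 := Complex.normSq_eq_norm_sq z
      rw [hz, one_pow, Complex.normSq_apply] at h4
      exact h4
    have h4 : z.im = 0 := by
      rw [h2] at h3
      have : z.im * z.im = 0 := by linarith
      exact mul_self_eq_zero.mp this
    exact Complex.ext h2 h4
  have hslit : 1 - z ∈ Complex.slitPlane := by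
    refine Or.inl ?_
    rw [Complex.sub_re, Complex.one_re]
    linarith
  have hlim : Tendsto (fun x : ℝ => -Complex.log (1 - z * (x : ℂ))) (𝓝[<] 1)
      (𝓝 (-Complex.log (1 - z))) := by
    have h1 : Tendsto (fun x : ℝ => 1 - z * (x : ℂ)) (𝓝 1) (𝓝 (1 - z)) := by
      have h2 : Continuous fun x : ℝ => 1 - z * (x : ℂ) := by fun_prop
      have h3 := h2.tendsto 1
      simpa using h3
    exact ((h1.mono_left nhdsWithin_le_nhds).clog hslit).neg
  have heq : (fun x : ℝ => -Complex.log (1 - z * (x : ℂ))) =ᶠ[𝓝[<] 1]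
      ((fun w : ℂ => ∑' n : ℕ, z ^ n / (n : ℂ) * w ^ n) ∘ ((↑) : ℝ → ℂ)) := by
    have h0 : Set.Ioo (0 : ℝ) 1 ∈ 𝓝[<] (1 : ℝ) := Ioo_mem_nhdsLT one_pos
    filter_upwards [h0] with x hx
    have h1 : ‖z * (x : ℂ)‖ < 1 := by
      rw [norm_mul, hz, one_mul, Complex.norm_real, Real.norm_of_nonneg hx.1.le]
      exact hx.2
    rw [← (Complex.hasSum_taylorSeries_neg_log h1).tsum_eq, Function.comp_apply]
    refine tsum_congr fun n => ?_
    rw [mul_pow]
    ring
  have huniq := tendsto_nhds_unique (habel.congr' heq.symm) hlim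
  rw [← huniq]
  exact hl'

/-! ### Periodic functions -/

variable {N : ℕ} [NeZero N]

open ZMod in
/-- **The value at `1` as the sum of the series**: `Φ` with period `N` and mean value `0`. -/
theorem tendsto_sum_div (Φ : ZMod N → ℂ) (hΦ : ∑ k, Φ k = 0) :
    Tendsto (fun M : ℕ => ∑ n ∈ range M, Φ (n : ZMod N) / (n : ℂ)) atTop
      (𝓝 (ZMod.LFunction Φ 1)) := by
  set Ψ : ZMod N → ℂ := ZMod.dft.symm Φ with hΨ
  have hF : ZMod.dft Ψ = Φ := LinearEquiv.apply_symm_apply dft Φ
  have h0 : Ψ 0 = 0 := by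
    rw [hΨ, invDFT_apply', neg_zero, dft_apply_zero, hΦ, smul_zero]
  have hval : ∀ k, Φ k = ∑ j, stdAddChar (-(j * k)) * Ψ j := fun k => by
    have := dft_apply Ψ k
    rw [hF] at this
    simpa [smul_eq_mul] using this
  have h1 : ZMod.LFunction Φ 1 =
      ∑ j : ZMod N, Ψ j * -Complex.log (1 - stdAddChar (-j)) := by
    rw [Diri.ZMod_LFunction_one Φ hΦ, ← sum_neg_distrib]
    exact sum_congr rfl fun j _ => by rw [mul_neg]
  rw [h1]
  have h2 : ∀ M : ℕ, ∑ n ∈ range M, Φ (n : ZMod N) / (n : ℂ) =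
      ∑ j : ZMod N, Ψ j * ∑ n ∈ range M, (stdAddChar (-j) : ℂ) ^ n / (n : ℂ) := by
    intro M
    rw [sum_congr rfl fun (n : ℕ) _ => by rw [hval (n : ZMod N), sum_div], sum_comm]
    refine sum_congr rfl fun j _ => ?_
    rw [mul_sum]
    refine sum_congr rfl fun n _ => ?_
    have h3 : (stdAddChar (-(j * (n : ZMod N))) : ℂ) = (stdAddChar (-j) : ℂ) ^ n := by
      rw [← AddChar.map_nsmul_eq_pow, nsmul_eq_mul]
      congr 1
      ring
    rw [h3]
    ring
  simp only [h2]
  refine tendsto_finsetSum _ fun j _ => ?_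
  by_cases hj : j = 0
  · subst hj
    simp only [h0, zero_mul]
    exact tendsto_const_nhds
  · refine Tendsto.const_mul _ (tendsto_sum_pow_div ?_
      (Diri.stdAddChar_ne_one (neg_ne_zero.mpr hj)))
    exact AddChar.norm_apply _ _

/-- **The series converges only if the mean value is `0`.** -/
theorem sum_eq_zero_of_tendsto {Φ : ZMod N → ℂ} {l : ℂ}
    (h : Tendsto (fun M : ℕ => ∑ n ∈ range M, Φ (n : ZMod N) / (n : ℂ)) atTop (𝓝 l)) :
    ∑ k, Φ k = 0 := by
  set c : ℂ := (∑ k, Φ k) / N with hc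
  have hN : (N : ℂ) ≠ 0 := Nat.cast_ne_zero.mpr (NeZero.ne N)
  have h1 : ∑ k : ZMod N, (Φ k - c) = 0 := by
    rw [sum_sub_distrib, sum_const, card_univ, ZMod.card, nsmul_eq_mul, hc,
      mul_div_cancel₀ _ hN, sub_self]
  have h2 := h.sub (tendsto_sum_div (fun k => Φ k - c) h1)
  have h3 : ∀ M : ℕ, (∑ n ∈ range M, Φ (n : ZMod N) / (n : ℂ) -
      ∑ n ∈ range M, (Φ (n : ZMod N) - c) / (n : ℂ)) =
        c * ((∑ n ∈ range M, 1 / (n : ℝ) : ℝ) : ℂ) := by
    intro M
    rw [← sum_sub_distrib]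
    push_cast
    rw [mul_sum]
    exact sum_congr rfl fun n _ => by ring
  simp only [h3] at h2
  by_contra hne
  have hc0 : c ≠ 0 := div_ne_zero hne hN
  have h4 := (h2.const_mul c⁻¹).norm
  have h5 : Tendsto (fun M : ℕ => ∑ n ∈ range M, 1 / (n : ℝ)) atTop atTop := by
    rw [← tendsto_add_atTop_iff_nat 1]
    refine Real.tendsto_sum_range_one_div_nat_succ_atTop.congr fun M => ?_
    rw [sum_range_succ']
    simp
  refine not_tendsto_nhds_of_tendsto_atTop h5 _ (h4.congr fun M => ?_)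
  rw [inv_mul_cancel_left₀ hc0, Complex.norm_real, Real.norm_of_nonneg]
  exact sum_nonneg fun n _ => by positivity

/-! ### The theorem of Baker, Birch and Wirsing for the series -/

variable {K : Type*} [Field K] [CharZero K] [Algebra.IsAlgebraic ℚ K] [Algebra K ℂ]

omit [Algebra.IsAlgebraic ℚ K] in
theorem sum_eq_zero_of_tendsto_map {f : ZMod N → K} {l : ℂ}
    (h : Tendsto (fun M : ℕ => ∑ n ∈ range M, algebraMap K ℂ (f (n : ZMod N)) / (n : ℂ)) atTop
      (𝓝 l)) : ∑ k, f k = 0 := by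
  have h1 := sum_eq_zero_of_tendsto (Φ := fun k => algebraMap K ℂ (f k)) h
  rw [← map_sum] at h1
  exact (map_eq_zero _).mp h1

/-- **The theorem of Baker, Birch and Wirsing** (1973), for the series: `K` a field of algebraic
numbers over which the `N`-th cyclotomic polynomial is irreducible, `f` a periodic function with
period `N` and values in `K` such that `f(k) = 0` if `1 < gcd(k, N) < N`. If the series `∑ f(n) / n`
converges to an algebraic number, then `f = 0`. -/
theorem baker_birch_wirsing_series (hirr : Irreducible (Polynomial.cyclotomic N K))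
    {f : ZMod N → K} (hf : ∀ k, ¬IsUnit k → k ≠ 0 → f k = 0) {l : ℂ} (hl : IsAlgebraic ℚ l)
    (h : Tendsto (fun M : ℕ => ∑ n ∈ range M, algebraMap K ℂ (f (n : ZMod N)) / (n : ℂ)) atTop
      (𝓝 l)) : f = 0 := by
  have hsum := sum_eq_zero_of_tendsto_map h
  have hsum' : ∑ k, algebraMap K ℂ (f k) = 0 := by rw [← map_sum, hsum, map_zero]
  have h1 := tendsto_nhds_unique h (tendsto_sum_div (fun k => algebraMap K ℂ (f k)) hsum')
  by_contra hne
  have h2 := transcendental_LFunction hirr hf hsum hne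
  rw [← h1] at h2
  exact h2 hl

/-- **Chowla's problem**: `f` a function with rational values and prime period `p`. If the series
`∑ f(n) / n` converges to `0`, or to any algebraic number, then `f = 0`. -/
theorem chowla {p : ℕ} [hp : Fact p.Prime] {f : ZMod p → ℚ} {l : ℂ} (hl : IsAlgebraic ℚ l)
    (h : Tendsto (fun M : ℕ => ∑ n ∈ range M, (f (n : ZMod p) : ℂ) / (n : ℂ)) atTop (𝓝 l)) :
    f = 0 := by
  refine baker_birch_wirsing_series (K := ℚ) (Polynomial.cyclotomic.irreducible_rat hp.out.pos)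
    (fun k hk hk0 => absurd (isUnit_iff_ne_zero.mpr hk0) hk) hl ?_
  simpa only [eq_ratCast] using h

end Fermat.Agent.Cor.BBW
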