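import Fermat.Agent.Corollaries.BBW.Cot
import Fermat.Agent.Corollaries.BBW.Series

/-!
# A conjecture of Erdős on periodic series, for the moduli not congruent to `1` modulo `4`

Let `f` be a function with period `N` such that `f(n) = ±1` if `N` does not divide `n` and
`f(n) = 0` if `N` divides `n`. Erdős conjectured that `∑ f(n) / n ≠ 0` whenever the series
converges. This is proved for `N` even (the series does not converge), for `N ≡ 3` modulo `4`
(Murty and Saradha, 2010) and for `N` prime (Baker, Birch and Wirsing, 1973); the sum is even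
transcendental.
-/

set_option autoImplicit false

open Finset Filter Topology

namespace Fermat.Agent.Cor.BBW

variable {N : ℕ} [NeZero N]

/-- If the value at `1` is `0`, the value of the odd part is `0`. -/
theorem sum_mul_ct_eq_zero {Φ : ZMod N → ℂ} (hΦ : ∀ k, IsAlgebraic ℚ (Φ k)) (hsum : ∑ k, Φ k = 0)
    (h : ZMod.LFunction Φ 1 = 0) : ∑ k, Φ k * (ct k : ℝ) = 0 := by
  set A : ZMod N → ℂ := fun k => Φ k + Φ (-k) with hA
  set B : ZMod N → ℂ := fun k => Φ k - Φ (-k) with hB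
  have hneg : ∑ k, Φ (-k) = 0 := by
    rw [← hsum]
    exact Equiv.sum_comp (Equiv.neg (ZMod N)) Φ
  have hsA : ∑ k, A k = 0 := by rw [hA, sum_add_distrib, hsum, hneg, add_zero]
  have hsB : ∑ k, B k = 0 := by rw [hB, sum_sub_distrib, hsum, hneg, sub_zero]
  have hAB : A + B = (2 : ℂ) • Φ := by
    funext k
    simp only [hA, hB, Pi.add_apply, Pi.smul_apply, smul_eq_mul]
    ring
  have h0 : logSum N Φ = 0 := by
    rw [LFunction_one_eq hsum] at h
    exact neg_eq_zero.mp h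
  have h1 : ZMod.LFunction A 1 = -ZMod.LFunction B 1 := by
    have h2 := map_add (logSum N) A B
    rw [hAB, map_smul, h0, smul_zero] at h2
    rw [LFunction_one_eq hsA, LFunction_one_eq hsB, neg_neg]
    linear_combination h2
  have hBo : ∀ k, B (-k) = -B k := by
    intro k
    simp only [hB, neg_neg]
    ring
  have hBa : ∀ k, IsAlgebraic ℚ (B k) := fun k => (hΦ k).sub (hΦ (-k))
  have h2 : ZMod.LFunction A 1 = 0 := by
    refine eq_zero_of_even (fun k => (hΦ k).add (hΦ (-k))) hsA (fun k => ?_) ?_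
    · simp only [hA, neg_neg]
      ring
    · rw [h1, neg_div]
      exact (isAlgebraic_div_pi_of_odd hBa hBo).neg
  have h3 : ZMod.LFunction B 1 = 0 := by linear_combination h1 - h2
  rw [LFunction_one_cot hBo] at h3
  have hN : (N : ℂ) ≠ 0 := Nat.cast_ne_zero.mpr (NeZero.ne N)
  have hπ : (Real.pi : ℂ) ≠ 0 := by exact_mod_cast Real.pi_ne_zero
  have h4 := (mul_eq_zero.mp h3).resolve_left (div_ne_zero hπ (mul_ne_zero two_ne_zero hN))
  have h5 : ∑ k, Φ (-k) * ((ct k : ℝ) : ℂ) = -∑ k, Φ k * ((ct k : ℝ) : ℂ) := by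
    rw [← Equiv.sum_comp (Equiv.neg (ZMod N)) (fun k => Φ (-k) * ((ct k : ℝ) : ℂ)),
      ← sum_neg_distrib]
    refine sum_congr rfl fun k _ => ?_
    rw [Equiv.neg_apply, neg_neg, ct_neg]
    push_cast
    ring
  have h6 : ∑ k, B k * ((ct k : ℝ) : ℂ) =
      ∑ k, Φ k * ((ct k : ℝ) : ℂ) - ∑ k, Φ (-k) * ((ct k : ℝ) : ℂ) := by
    rw [← sum_sub_distrib]
    exact sum_congr rfl fun k _ => by rw [hB]; ring
  rw [h6, h5] at h4
  have h7 : (2 : ℂ) * ∑ k, Φ k * ((ct k : ℝ) : ℂ) = 0 := by linear_combination h4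
  exact (mul_eq_zero.mp h7).resolve_left two_ne_zero

/-- `N / (e(k) - 1)` is an algebraic integer -/
theorem isIntegral_div_sub_one {k : ZMod N} (hk : k ≠ 0) :
    IsIntegral ℤ ((N : ℂ) / (ZMod.stdAddChar k - 1)) := by
  have h1 := Diri.sum_val_mul_stdAddChar (neg_ne_zero.mpr hk)
  rw [neg_neg] at h1
  rw [← h1]
  refine IsIntegral.sum _ fun j _ => ?_
  refine IsIntegral.mul ?_ ?_
  · exact_mod_cast isIntegral_natCast (R := ℤ) (B := ℂ) j.val
  · refine IsIntegral.of_pow (NeZero.pos N) ?_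
    rw [Diri.stdAddChar_pow]
    exact isIntegral_one

omit [NeZero N] in
/-- the sum over `ZMod N` of a function, `N = 2 m + 1` -/
theorem sum_zmod_odd {M : Type*} [AddCommMonoid M] {m : ℕ} (g : ZMod (2 * m + 1) → M) :
    ∑ k, g k = g 0 + ∑ a ∈ range m, (g ((a + 1 : ℕ) : ZMod (2 * m + 1)) +
      g (-((a + 1 : ℕ) : ZMod (2 * m + 1)))) := by
  have h1 : ∑ k, g k = ∑ a ∈ range (2 * m + 1), g ((a : ℕ) : ZMod (2 * m + 1)) := by
    refine (sum_nbij (fun a : ℕ => (a : ZMod (2 * m + 1))) (fun a _ => mem_univ _) ?_ ?_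
      fun a _ => rfl).symm
    · intro a ha b hb hab
      have h2 := congrArg ZMod.val hab
      simp only at h2
      rwa [ZMod.val_cast_of_lt (mem_range.mp (mem_coe.mp ha)),
        ZMod.val_cast_of_lt (mem_range.mp (mem_coe.mp hb))] at h2
    · intro k _
      exact ⟨k.val, mem_coe.mpr (mem_range.mpr (ZMod.val_lt k)), ZMod.natCast_zmod_val k⟩
  rw [h1, sum_range_succ', Nat.cast_zero, add_comm, sum_add_distrib,
    show range (2 * m) = range (m + m) by rw [two_mul], sum_range_add]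
  congr 2
  rw [← sum_range_reflect]
  refine sum_congr rfl fun a ha => ?_
  congr 1
  have h3 : m + (m - 1 - a) + 1 + (a + 1) = m + m + 1 := by
    have := mem_range.mp ha
    omega
  have h4 : ((m + (m - 1 - a) + 1 + (a + 1) : ℕ) : ZMod (2 * m + 1)) = 0 := by
    rw [h3, ← two_mul]
    exact ZMod.natCast_self _
  rw [Nat.cast_add] at h4
  exact eq_neg_of_add_eq_zero_left h4

/-- **Non-vanishing modulo `2`** (Murty and Saradha): `f` integral valued, `f(k)` odd for `k ≠ 0`,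
`N` odd and `N + f(0) ≡ 3` modulo `4`, mean value `0`: the value at `1` is not `0`. -/
theorem LFunction_one_ne_zero_of_odd {f : ZMod N → ℤ} (hN : Odd N)
    (h0 : ((N : ℤ) + f 0) % 4 = 3) (hf : ∀ k, k ≠ 0 → Odd (f k)) (hsum : ∑ k, f k = 0) :
    ZMod.LFunction (fun k => (f k : ℂ)) 1 ≠ 0 := by
  intro h
  obtain ⟨m, rfl⟩ := hN
  have h1 := sum_mul_ct_eq_zero (Φ := fun k => (f k : ℂ))
    (fun k => isAlgebraic_intCast _) (by rw [← Int.cast_sum, hsum, Int.cast_zero]) h
  rw [sum_zmod_odd, ct_zero] at h1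
  rw [sum_zmod_odd, sum_add_distrib] at hsum
  have hne : ∀ a ∈ range m, ((a + 1 : ℕ) : ZMod (2 * m + 1)) ≠ 0 := by
    intro a ha h2
    rw [ZMod.natCast_eq_zero_iff] at h2
    have h3 := Nat.le_of_dvd (Nat.succ_pos a) h2
    have h4 := mem_range.mp ha
    omega
  -- the halves of the differences
  have hh : ∀ a : ℕ, ∃ c : ℤ, a ∈ range m → f ((a + 1 : ℕ) : ZMod (2 * m + 1)) -
      f (-((a + 1 : ℕ) : ZMod (2 * m + 1))) = 2 * c := by
    intro a
    by_cases ha : a ∈ range m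
    · obtain ⟨c, hc⟩ := (hf _ (hne a ha)).sub_odd (hf _ (neg_ne_zero.mpr (hne a ha)))
      exact ⟨c, fun _ => by rw [hc]; ring⟩
    · exact ⟨0, fun h => absurd h ha⟩
  choose c hc using hh
  -- the algebraic integer
  set α : ℂ := ∑ a ∈ range m, (c a : ℂ) *
    (((2 * m + 1 : ℕ) : ℂ) / (ZMod.stdAddChar ((a + 1 : ℕ) : ZMod (2 * m + 1)) - 1)) with hα
  have hαi : IsIntegral ℤ α := by
    refine IsIntegral.sum _ fun a ha => IsIntegral.mul ?_ (isIntegral_div_sub_one (hne a ha))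
    exact isIntegral_algebraMap
  have h2 : ((2 * m + 1 : ℕ) : ℂ) * ∑ a ∈ range m, (c a : ℂ) + 2 * α = 0 := by
    have h3 : ∀ a ∈ range m, ((f ((a + 1 : ℕ) : ZMod (2 * m + 1)) : ℂ) *
        ((ct ((a + 1 : ℕ) : ZMod (2 * m + 1)) : ℝ) : ℂ) +
        (f (-((a + 1 : ℕ) : ZMod (2 * m + 1))) : ℂ) *
        ((ct (-((a + 1 : ℕ) : ZMod (2 * m + 1))) : ℝ) : ℂ)) * ((2 * m + 1 : ℕ) : ℂ) =
        (2 * Complex.I) * ((2 * m + 1 : ℕ) * (c a : ℂ) + 2 * ((c a : ℂ) *
    (((2 * m + 1 : ℕ) : ℂ) / (ZMod.stdAddChar ((a + 1 : ℕ) : ZMod (2 * m + 1)) - 1)))) := by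
      intro a ha
      have h4 := I_div_sub_one (hne a ha)
      have h5 : (f ((a + 1 : ℕ) : ZMod (2 * m + 1)) : ℂ) -
          (f (-((a + 1 : ℕ) : ZMod (2 * m + 1))) : ℂ) = 2 * (c a : ℂ) := by
        exact_mod_cast congrArg (fun x : ℤ => (x : ℂ)) (hc a ha)
      rw [ct_neg]
      push_cast at h4 h5 ⊢
      have h6 : ((ct ((a : ZMod (2 * m + 1)) + 1) : ℝ) : ℂ) = Complex.I +
          2 * (Complex.I / (ZMod.stdAddChar ((a : ZMod (2 * m + 1)) + 1) - 1)) := by
        rw [h4]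
        ring
      rw [h6]
      linear_combination ((2 * (m : ℂ) + 1) * (Complex.I +
        2 * (Complex.I / (ZMod.stdAddChar ((a : ZMod (2 * m + 1)) + 1) - 1)))) * h5
    have h4 := congrArg (fun x : ℂ => x * ((2 * m + 1 : ℕ) : ℂ)) h1
    simp only [Complex.ofReal_zero, mul_zero, zero_add, zero_mul] at h4
    rw [sum_mul, sum_congr rfl h3, ← mul_sum, sum_add_distrib, ← mul_sum, ← mul_sum] at h4
    exact (mul_eq_zero.mp h4).resolve_left (mul_ne_zero two_ne_zero Complex.I_ne_zero)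
  -- the parity
  have h5 : ∑ a ∈ range m, f ((a + 1 : ℕ) : ZMod (2 * m + 1)) -
      ∑ a ∈ range m, f (-((a + 1 : ℕ) : ZMod (2 * m + 1))) = 2 * ∑ a ∈ range m, c a := by
    rw [← sum_sub_distrib, mul_sum]
    exact sum_congr rfl hc
  have h6 : (∑ a ∈ range m, f ((a + 1 : ℕ) : ZMod (2 * m + 1)) - m) % 2 = 0 := by
    have h7 : ∑ a ∈ range m, f ((a + 1 : ℕ) : ZMod (2 * m + 1)) - m =
        ∑ a ∈ range m, (f ((a + 1 : ℕ) : ZMod (2 * m + 1)) - 1) := by
      rw [sum_sub_distrib, sum_const, card_range, nsmul_eq_mul, mul_one]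
    rw [h7]
    refine Int.emod_eq_zero_of_dvd (dvd_sum fun a ha => ?_)
    exact ((hf _ (hne a ha)).sub_odd odd_one).two_dvd
  have h8 : Odd (∑ a ∈ range m, c a) := by
    rw [Int.odd_iff]
    push_cast at h0
    omega
  -- conclusion
  have h9 : IsIntegral ℤ ((((2 * m + 1 : ℕ) : ℤ) * (∑ a ∈ range m, c a) : ℤ) / 2 : ℚ) := by
    rw [← isIntegral_algebraMap_iff (B := ℂ) (algebraMap ℚ ℂ).injective]
    have h10 : algebraMap ℚ ℂ ((((2 * m + 1 : ℕ) : ℤ) * (∑ a ∈ range m, c a) : ℤ) / 2 : ℚ) =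
        -α := by
      rw [eq_ratCast]
      push_cast
      push_cast at h2
      linear_combination h2 / 2
    rw [h10]
    exact hαi.neg
  obtain ⟨n, hn⟩ := IsIntegrallyClosed.isIntegral_iff.mp h9
  have h11 : 2 * n = ((2 * m + 1 : ℕ) : ℤ) * ∑ a ∈ range m, c a := by
    have h12 : (2 : ℚ) * (n : ℚ) = (((2 * m + 1 : ℕ) : ℤ) * (∑ a ∈ range m, c a) : ℤ) := by
      rw [eq_intCast] at hn
      rw [hn]
      ring
    exact_mod_cast h12
  have h12 : Odd (((2 * m + 1 : ℕ) : ℤ) * ∑ a ∈ range m, c a) := by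
    refine Odd.mul ?_ h8
    exact ⟨m, by push_cast; ring⟩
  rw [← h11] at h12
  exact (Int.not_odd_iff_even.mpr (even_two_mul n)) h12

/-- the values of `f` are odd off `0` and `f(0) = 0`, `N` even: the mean value is not `0` -/
theorem sum_ne_zero_of_even {f : ZMod N → ℤ} (hN : Even N) (h0 : f 0 = 0)
    (hf : ∀ k, k ≠ 0 → Odd (f k)) : ∑ k, f k ≠ 0 := by
  classical
  intro h
  have h1 : ∑ k : ZMod N, (f k - if k = 0 then 0 else 1) = -((N : ℤ) - 1) := by
    rw [sum_sub_distrib, h, zero_sub]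
    congr 1
    have h2 : ∀ k : ZMod N, (if k = 0 then (0 : ℤ) else 1) = 1 - if k = 0 then 1 else 0 := by
      intro k
      split_ifs <;> rfl
    rw [sum_congr rfl fun k _ => h2 k, sum_sub_distrib, sum_ite_eq' univ (0 : ZMod N),
      if_pos (mem_univ _), sum_const, card_univ, ZMod.card, nsmul_eq_mul, mul_one]
  have h2 : (2 : ℤ) ∣ ∑ k : ZMod N, (f k - if k = 0 then 0 else 1) := by
    refine dvd_sum fun k _ => ?_
    by_cases hk : k = 0
    · rw [if_pos hk, hk, h0, sub_zero]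
      exact dvd_zero _
    · rw [if_neg hk]
      exact ((hf k hk).sub_odd odd_one).two_dvd
  rw [h1] at h2
  obtain ⟨c, hc⟩ := hN
  omega

/-- **A conjecture of Erdős** for `N` even, `N ≡ 3` modulo `4` (Murty and Saradha) and `N` prime
(Baker, Birch and Wirsing): `f : ℕ → ℤ` with period `N`, `f(n) = 0` if `N` divides `n` and
`f(n) = ±1` if not. If the series `∑ f(n) / n` converges, its sum is transcendental. -/
theorem erdos_transcendental {N : ℕ} (hN : N % 4 ≠ 1 ∨ N.Prime) (hN0 : 0 < N) {f : ℕ → ℤ}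
    (hper : ∀ n, f (n + N) = f n) (h0 : ∀ n, N ∣ n → f n = 0)
    (hf : ∀ n, ¬N ∣ n → f n = 1 ∨ f n = -1) {l : ℝ}
    (h : Tendsto (fun M : ℕ => ∑ n ∈ range M, (f n : ℝ) / n) atTop (𝓝 l)) :
    Transcendental ℚ l := by
  have hNZ : NeZero N := ⟨hN0.ne'⟩
  set F : ZMod N → ℤ := fun k => f k.val with hF
  have hFf : ∀ n : ℕ, F (n : ZMod N) = f n := by
    intro n
    simp only [hF]
    rw [ZMod.val_natCast]
    exact Function.Periodic.map_mod_nat hper n
  have hF0 : F 0 = 0 := by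
    have h1 := hFf 0
    rw [Nat.cast_zero, h0 0 (dvd_zero N)] at h1
    exact h1
  have hF1 : ∀ k, k ≠ 0 → F k = 1 ∨ F k = -1 := by
    intro k hk
    refine hf _ fun h1 => hk ((ZMod.val_eq_zero k).mp (Nat.eq_zero_of_dvd_of_lt h1 (ZMod.val_lt k)))
  have hFo : ∀ k, k ≠ 0 → Odd (F k) := by
    intro k hk
    rcases hF1 k hk with h1 | h1
    · rw [h1]
      exact odd_one
    · rw [h1]
      exact ⟨-1, by norm_num⟩
  have hC : Tendsto (fun M : ℕ => ∑ n ∈ range M, ((F (n : ZMod N) : ℤ) : ℂ) / (n : ℂ)) atTop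
      (𝓝 (l : ℂ)) := by
    have h1 := (Complex.continuous_ofReal.tendsto l).comp h
    refine h1.congr fun M => ?_
    rw [Function.comp_apply]
    push_cast
    exact sum_congr rfl fun n _ => by rw [hFf]
  have hsum0 := sum_eq_zero_of_tendsto (Φ := fun k => (F k : ℂ)) hC
  have hsum : ∑ k, F k = 0 := by exact_mod_cast hsum0
  intro hl
  have hl' : IsAlgebraic ℚ (l : ℂ) := isAlgebraic_ofReal_iff.mpr hl
  by_cases hp : N.Prime
  · have hfact : Fact N.Prime := ⟨hp⟩
    have h1 := chowla (p := N) (f := fun k => (F k : ℚ)) hl' (hC.congr fun M => by push_cast; rfl)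
    have h2 := congrFun h1 1
    simp only [Pi.zero_apply, Int.cast_eq_zero] at h2
    rcases hF1 1 one_ne_zero with h3 | h3 <;> omega
  · have h4 : N % 4 ≠ 1 := hN.resolve_right hp
    rcases Nat.even_or_odd N with he | ho
    · exact sum_ne_zero_of_even he hF0 hFo hsum
    · have h5 := LFunction_one_ne_zero_of_odd (f := F) ho (by
        rw [hF0]
        obtain ⟨m, hm⟩ := ho
        omega) hFo hsum
      have h6 := tendsto_nhds_unique hC (tendsto_sum_div (fun k => (F k : ℂ)) hsum0)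
      rcases LFunction_one_eq_zero_or_transcendental (Φ := fun k => (F k : ℂ))
        (fun k => isAlgebraic_intCast _) hsum0 with h7 | h7
      · exact h5 h7
      · rw [← h6] at h7
        exact h7 hl'

/-- **A conjecture of Erdős**, for the same `N`: the sum is not `0`. -/
theorem erdos_ne_zero {N : ℕ} (hN : N % 4 ≠ 1 ∨ N.Prime) (hN0 : 0 < N) {f : ℕ → ℤ}
    (hper : ∀ n, f (n + N) = f n) (h0 : ∀ n, N ∣ n → f n = 0)
    (hf : ∀ n, ¬N ∣ n → f n = 1 ∨ f n = -1) {l : ℝ}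
    (h : Tendsto (fun M : ℕ => ∑ n ∈ range M, (f n : ℝ) / n) atTop (𝓝 l)) : l ≠ 0 := by
  rintro rfl
  exact erdos_transcendental hN hN0 hper h0 hf h isAlgebraic_zero

end Fermat.Agent.Cor.BBW
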