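import Fermat.Agent.Corollaries.BBW.Sums

/-!
# Gauss's digamma theorem

`ψ(r / N) = -γ - log (2 N) - (π / 2) cot (π r / N) + ∑_{0 < j < N} cos (2 π r j / N) log sin (π j / N)`
for `0 < r < N` (Gauss 1813).
-/

set_option autoImplicit false

open Finset Filter Topology

namespace Fermat.Agent.Cor.BBW

/-- `1 - e^{-iθ} = 2 sin(θ / 2) e^{i(π - θ) / 2}` -/
theorem one_sub_exp_neg (θ : ℝ) : 1 - Complex.exp (((-θ : ℝ) : ℂ) * Complex.I) =
    ((2 * Real.sin (θ / 2) : ℝ) : ℂ) *
      Complex.exp ((((Real.pi - θ) / 2 : ℝ) : ℂ) * Complex.I) := by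
  have e1 : (Real.pi - θ) / 2 = Real.pi / 2 - θ / 2 := by ring
  have e2 : Real.cos θ = 1 - 2 * Real.sin (θ / 2) ^ 2 := by
    have h := Real.cos_two_mul' (θ / 2)
    rw [mul_div_cancel₀ _ two_ne_zero, Real.cos_sq'] at h
    linarith
  have e3 : Real.sin θ = 2 * Real.sin (θ / 2) * Real.cos (θ / 2) := by
    have h := Real.sin_two_mul (θ / 2)
    rwa [mul_div_cancel₀ _ two_ne_zero] at h
  apply Complex.ext
  · rw [Complex.sub_re, Complex.one_re, Complex.exp_ofReal_mul_I_re, Complex.re_ofReal_mul,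
      Complex.exp_ofReal_mul_I_re, e1, Real.cos_pi_div_two_sub, Real.cos_neg, e2]
    ring
  · rw [Complex.sub_im, Complex.one_im, Complex.exp_ofReal_mul_I_im, Complex.im_ofReal_mul,
      Complex.exp_ofReal_mul_I_im, e1, Real.sin_pi_div_two_sub, Real.sin_neg, e3]
    ring

/-- `log (1 - e^{-iθ}) = log (2 sin (θ / 2)) + i (π - θ) / 2` for `0 < θ < 2π` -/
theorem clog_one_sub_exp_neg {θ : ℝ} (h0 : 0 < θ) (h1 : θ < 2 * Real.pi) :
    Complex.log (1 - Complex.exp (((-θ : ℝ) : ℂ) * Complex.I)) =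
      (Real.log (2 * Real.sin (θ / 2)) : ℂ) + (((Real.pi - θ) / 2 : ℝ) : ℂ) * Complex.I := by
  have hs : 0 < Real.sin (θ / 2) := Real.sin_pos_of_pos_of_lt_pi (by linarith) (by linarith)
  have him : ((((Real.pi - θ) / 2 : ℝ) : ℂ) * Complex.I).im = (Real.pi - θ) / 2 := by
    rw [Complex.im_ofReal_mul, Complex.I_im, mul_one]
  rw [one_sub_exp_neg, Complex.log_ofReal_mul (by positivity) (Complex.exp_ne_zero _),
    Complex.log_exp (by rw [him]; linarith [Real.pi_pos]) (by rw [him]; linarith [Real.pi_pos])]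

/-- `∏_{0 < j < N} 2 sin (π j / N) = N` -/
theorem prod_two_mul_sin {N : ℕ} (hN : 0 < N) :
    ∏ j ∈ Ico 1 N, (2 * Real.sin (Real.pi * j / N)) = N := by
  obtain ⟨n, rfl⟩ : ∃ n, N = n + 1 := ⟨N - 1, by omega⟩
  have hprim := (Complex.isPrimitiveRoot_exp (n + 1) (Nat.succ_ne_zero n)).inv
  have h1 := hprim.prod_one_sub_pow_eq_order
  have h2 := congrArg norm h1
  rw [norm_prod] at h2
  have h3 : ‖((n : ℂ) + 1)‖ = n + 1 := by
    have : ((n : ℂ) + 1) = ((n + 1 : ℕ) : ℂ) := by push_cast; rfl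
    rw [this, Complex.norm_natCast]
    push_cast
    rfl
  rw [h3] at h2
  rw [prod_Ico_eq_prod_range, Nat.add_sub_cancel]
  push_cast
  refine Eq.trans (prod_congr rfl fun k hk => ?_) h2
  rw [mem_range] at hk
  have hn0 : (0 : ℝ) < (n : ℝ) + 1 := by positivity
  have h4 : (Complex.exp (2 * Real.pi * Complex.I / ((n + 1 : ℕ) : ℂ)))⁻¹ ^ (k + 1) =
      Complex.exp (((-(2 * (Real.pi * (1 + k) / (n + 1))) : ℝ) : ℂ) * Complex.I) := by
    rw [← Complex.exp_neg, ← Complex.exp_nat_mul]
    congr 1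
    push_cast
    field_simp
    ring
  have h5 : 0 ≤ Real.sin (Real.pi * (1 + k) / (n + 1)) := by
    refine Real.sin_nonneg_of_nonneg_of_le_pi (by positivity) ?_
    rw [div_le_iff₀ hn0]
    have : (k : ℝ) + 1 ≤ n := by exact_mod_cast hk
    nlinarith [Real.pi_pos]
  rw [h4, one_sub_exp_neg, norm_mul, Complex.norm_exp_ofReal_mul_I, mul_one, Complex.norm_real,
    mul_div_cancel_left₀ _ (two_ne_zero' ℝ), Real.norm_of_nonneg (by positivity)]

/-- `∑_{0 < j < N} log (2 sin (π j / N)) = log N` -/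
theorem sum_log_two_mul_sin {N : ℕ} (hN : 0 < N) :
    ∑ j ∈ Ico 1 N, Real.log (2 * Real.sin (Real.pi * j / N)) = Real.log N := by
  rw [← Real.log_prod, prod_two_mul_sin hN]
  intro j hj
  rw [mem_Ico] at hj
  have h1 : (0 : ℝ) < j := by exact_mod_cast hj.1
  have h2 : (j : ℝ) < N := by exact_mod_cast hj.2
  have h3 : (0 : ℝ) < N := h1.trans h2
  have h4 : 0 < Real.sin (Real.pi * j / N) := by
    refine Real.sin_pos_of_pos_of_lt_pi (by positivity) ?_
    rw [div_lt_iff₀ h3]
    exact mul_lt_mul_of_pos_left h2 Real.pi_pos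
  positivity

section Main

variable {N : ℕ} [NeZero N]

/-- `ψ(r / N) + γ` as a sum of logarithms of cyclotomic numbers -/
theorem psi_add_eq_sum_log {r : ℕ} (hr : 0 < r) (hrN : r < N) :
    ((psi ((r : ℝ) / N) + Real.eulerMascheroniConstant : ℝ) : ℂ) =
      -∑ j : ZMod N, (1 - ZMod.stdAddChar ((r : ZMod N) * j)) *
        Complex.log (1 - ZMod.stdAddChar (-j)) := by
  classical
  have hN0 : 0 < N := NeZero.pos N
  have hN : (N : ℂ) ≠ 0 := Nat.cast_ne_zero.mpr hN0.ne'
  have hNR : (N : ℝ) ≠ 0 := Nat.cast_ne_zero.mpr hN0.ne'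
  set Φ : ZMod N → ℂ := fun k => (if k = ((N : ℕ) : ZMod N) then 1 else 0) -
    (if k = (r : ZMod N) then 1 else 0) with hΦ
  have hsum : ∑ k, Φ k = 0 := by
    rw [hΦ, sum_sub_distrib, sum_ite_eq' univ ((N : ℕ) : ZMod N), sum_ite_eq' univ (r : ZMod N),
      if_pos (mem_univ _), if_pos (mem_univ _), sub_self]
  have h1 : ZMod.LFunction Φ 1 = 1 / N *
      ((psi ((r : ℝ) / N) + Real.eulerMascheroniConstant : ℝ) : ℂ) := by
    rw [LFunction_one_eq_psi Φ hsum]
    simp only [hΦ, sub_mul]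
    rw [sum_sub_distrib, sum_ite_mul_psi hN0 le_rfl, sum_ite_mul_psi hr hrN.le, div_self hNR,
      psi_one]
    push_cast
    ring
  have h2 : ZMod.LFunction Φ 1 = 1 / N * -∑ j : ZMod N,
      (1 - ZMod.stdAddChar ((r : ZMod N) * j)) * Complex.log (1 - ZMod.stdAddChar (-j)) := by
    rw [Diri.ZMod_LFunction_one Φ hsum, mul_neg, mul_sum]
    congr 1
    refine sum_congr rfl fun j _ => ?_
    rw [← mul_assoc]
    congr 1
    rw [ZMod.invDFT_apply, smul_eq_mul, one_div]
    congr 1
    simp only [hΦ, smul_eq_mul, mul_sub, mul_ite, mul_one, mul_zero]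
    rw [sum_sub_distrib, sum_ite_eq' univ ((N : ℕ) : ZMod N), sum_ite_eq' univ (r : ZMod N),
      if_pos (mem_univ _), if_pos (mem_univ _), ZMod.natCast_self, zero_mul,
      AddChar.map_zero_eq_one]
  exact mul_left_cancel₀ (one_div_ne_zero hN) (h1.symm.trans h2)

end Main

/-- **Gauss's digamma theorem** (1813): `0 < r < N` -/
theorem gauss_digamma {N r : ℕ} (hr : 0 < r) (hrN : r < N) :
    psi ((r : ℝ) / N) = -Real.eulerMascheroniConstant - Real.log (2 * N) -
      Real.pi / 2 * Real.cot (Real.pi * r / N) +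
      ∑ j ∈ Ico 1 N, Real.cos (2 * Real.pi * r * j / N) * Real.log (Real.sin (Real.pi * j / N)) := by
  have hN0 : 0 < N := by omega
  have hne : NeZero N := ⟨hN0.ne'⟩
  have hNR : (0 : ℝ) < N := by exact_mod_cast hN0
  have hrR : (0 : ℝ) < r := by exact_mod_cast hr
  have hrNR : (r : ℝ) < N := by exact_mod_cast hrN
  have hpi := Real.pi_pos
  -- the root of unity
  set z : ℂ := Complex.exp (((2 * Real.pi * r / N : ℝ) : ℂ) * Complex.I) with hz
  have hzpow : ∀ j : ℕ, z ^ j = Complex.exp (((2 * Real.pi * r * j / N : ℝ) : ℂ) * Complex.I) := by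
    intro j
    rw [hz, ← Complex.exp_nat_mul]
    congr 1
    push_cast
    ring
  have hzre : ∀ j : ℕ, (z ^ j).re = Real.cos (2 * Real.pi * r * j / N) := fun j => by
    rw [hzpow, Complex.exp_ofReal_mul_I_re]
  have hzim : ∀ j : ℕ, (z ^ j).im = Real.sin (2 * Real.pi * r * j / N) := fun j => by
    rw [hzpow, Complex.exp_ofReal_mul_I_im]
  set s : ℝ := Real.sin (Real.pi * r / N) with hs
  set c : ℝ := Real.cos (Real.pi * r / N) with hc
  have hs0 : 0 < s := by
    refine Real.sin_pos_of_pos_of_lt_pi (by positivity) ?_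
    rw [div_lt_iff₀ hNR]
    exact mul_lt_mul_of_pos_left hrNR hpi
  have hsc : s ^ 2 + c ^ 2 = 1 := Real.sin_sq_add_cos_sq _
  have hθ : 2 * Real.pi * r / N = 2 * (Real.pi * r / N) := by ring
  have hz1 : z - 1 = ((-2 * s ^ 2 : ℝ) : ℂ) + ((2 * s * c : ℝ) : ℂ) * Complex.I := by
    apply Complex.ext
    · rw [Complex.sub_re, Complex.one_re, hz, Complex.exp_ofReal_mul_I_re, hθ, Real.cos_two_mul',
        Complex.add_re, Complex.ofReal_re, Complex.re_ofReal_mul, Complex.I_re]
      rw [← hs, ← hc]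
      linarith
    · rw [Complex.sub_im, Complex.one_im, hz, Complex.exp_ofReal_mul_I_im, hθ, Real.sin_two_mul,
        Complex.add_im, Complex.ofReal_im, Complex.im_ofReal_mul, Complex.I_im]
      ring
  have hz1ne : z - 1 ≠ 0 := by
    intro h
    have h1 := congrArg Complex.re (hz1.symm.trans h)
    rw [Complex.add_re, Complex.ofReal_re, Complex.re_ofReal_mul, Complex.I_re, mul_zero, add_zero,
      Complex.zero_re] at h1
    have : 0 < s ^ 2 := by positivity
    linarith
  have hzN : z ^ N = 1 := by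
    rw [hz, ← Complex.exp_nat_mul, Complex.exp_eq_one_iff]
    refine ⟨r, ?_⟩
    have : (N : ℂ) ≠ 0 := Nat.cast_ne_zero.mpr hN0.ne'
    push_cast
    field_simp
  have hinv : (N : ℂ) / (z - 1) =
      ((-N / 2 : ℝ) : ℂ) + ((-N / 2 * (c / s) : ℝ) : ℂ) * Complex.I := by
    rw [div_eq_iff hz1ne, hz1]
    apply Complex.ext
    · simp only [Complex.mul_re, Complex.add_re, Complex.add_im, Complex.ofReal_re,
        Complex.ofReal_im, Complex.mul_im, Complex.I_re, Complex.I_im, Complex.natCast_re]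
      field_simp
      linear_combination (-2 : ℝ) * N * s * hsc
    · simp only [Complex.mul_re, Complex.add_re, Complex.add_im, Complex.ofReal_re,
        Complex.ofReal_im, Complex.mul_im, Complex.I_re, Complex.I_im, Complex.natCast_im]
      field_simp
      ring
  -- the elementary sums
  have hgeom : ∑ j ∈ range N, z ^ j = 0 := by
    rw [geom_sum_eq (sub_ne_zero.mp hz1ne), hzN, sub_self, zero_div]
  have hsplit : ∀ f : ℕ → ℝ, ∑ j ∈ range N, f j = f 0 + ∑ j ∈ Ico 1 N, f j := fun f => by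
    rw [range_eq_Ico, sum_eq_sum_Ico_succ_bot hN0]
  have hcos : ∑ j ∈ Ico 1 N, Real.cos (2 * Real.pi * r * j / N) = -1 := by
    have h1 := congrArg Complex.re hgeom
    rw [Complex.re_sum, Complex.zero_re] at h1
    simp only [hzre] at h1
    rw [hsplit] at h1
    simp only [Nat.cast_zero, mul_zero, zero_div, Real.cos_zero] at h1
    linarith
  have hsin : ∑ j ∈ Ico 1 N, Real.sin (2 * Real.pi * r * j / N) = 0 := by
    have h1 := congrArg Complex.im hgeom
    rw [Complex.im_sum, Complex.zero_im] at h1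
    simp only [hzim] at h1
    rw [hsplit] at h1
    simp only [Nat.cast_zero, mul_zero, zero_div, Real.sin_zero] at h1
    linarith
  have hjsin : ∑ j ∈ Ico 1 N, (j : ℝ) * Real.sin (2 * Real.pi * r * j / N) = -N / 2 * (c / s) := by
    have h1 := congrArg Complex.im (Diri.sum_nat_mul_pow hzN (sub_ne_zero.mp hz1ne))
    rw [hinv, Complex.im_sum, Complex.add_im, Complex.ofReal_im, Complex.im_ofReal_mul,
      Complex.I_im, mul_one, zero_add] at h1
    have h2 : ∀ j : ℕ, ((j : ℂ) * z ^ j).im = (j : ℝ) * Real.sin (2 * Real.pi * r * j / N) := by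
      intro j
      have : (j : ℂ) = ((j : ℝ) : ℂ) := by push_cast; rfl
      rw [this, Complex.im_ofReal_mul, hzim]
    simp only [h2] at h1
    rw [hsplit] at h1
    simp only [Nat.cast_zero, zero_mul, zero_add] at h1
    exact h1
  -- the main formula
  have hmain : psi ((r : ℝ) / N) + Real.eulerMascheroniConstant =
      -∑ j ∈ Ico 1 N, ((1 - Real.cos (2 * Real.pi * r * j / N)) *
        Real.log (2 * Real.sin (Real.pi * j / N)) +
          Real.sin (2 * Real.pi * r * j / N) * (Real.pi / 2 - Real.pi * j / N)) := by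
    have h1 := congrArg Complex.re (psi_add_eq_sum_log (N := N) hr hrN)
    rw [Complex.ofReal_re, Diri.sum_zmod_eq, Complex.neg_re, Complex.re_sum, hsplit] at h1
    have h0 : ((1 - (ZMod.stdAddChar ((r : ZMod N) * ((0 : ℕ) : ZMod N)) : ℂ)) *
        Complex.log (1 - ZMod.stdAddChar (-((0 : ℕ) : ZMod N)))).re = 0 := by
      rw [Nat.cast_zero, mul_zero, AddChar.map_zero_eq_one, sub_self, zero_mul, Complex.zero_re]
    rw [h0, zero_add] at h1
    rw [h1]
    congr 1
    refine sum_congr rfl fun j hj => ?_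
    rw [mem_Ico] at hj
    have hj0 : (0 : ℝ) < j := by exact_mod_cast hj.1
    have hjN : (j : ℝ) < N := by exact_mod_cast hj.2
    have e1 : (ZMod.stdAddChar ((r : ZMod N) * (j : ZMod N)) : ℂ) = z ^ j := by
      have h2 := ZMod.stdAddChar_coe (N := N) ((r * j : ℕ) : ℤ)
      rw [Int.cast_natCast, Nat.cast_mul] at h2
      rw [h2, hzpow]
      congr 1
      push_cast
      ring
    have e2 : (ZMod.stdAddChar (-(j : ZMod N)) : ℂ) =
        Complex.exp (((-(2 * (Real.pi * j / N)) : ℝ) : ℂ) * Complex.I) := by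
      have h2 := ZMod.stdAddChar_coe (N := N) (-((j : ℕ) : ℤ))
      rw [Int.cast_neg, Int.cast_natCast] at h2
      rw [h2]
      congr 1
      push_cast
      ring
    have e3 : 2 * (Real.pi * j / N) < 2 * Real.pi := by
      have : Real.pi * j / N < Real.pi := by
        rw [div_lt_iff₀ hNR]
        exact mul_lt_mul_of_pos_left hjN hpi
      linarith
    rw [e1, e2, clog_one_sub_exp_neg (by positivity) e3, mul_div_cancel_left₀ _ (two_ne_zero' ℝ)]
    rw [Complex.mul_re, Complex.sub_re, Complex.sub_im, Complex.one_re, Complex.one_im, hzre, hzim,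
      Complex.add_re, Complex.add_im, Complex.ofReal_re, Complex.ofReal_im, Complex.re_ofReal_mul,
      Complex.im_ofReal_mul, Complex.I_re, Complex.I_im]
    ring
  have hA := sum_log_two_mul_sin hN0
  have hlog : ∀ j ∈ Ico 1 N, Real.log (2 * Real.sin (Real.pi * j / N)) =
      Real.log 2 + Real.log (Real.sin (Real.pi * j / N)) := by
    intro j hj
    rw [mem_Ico] at hj
    have h1 : (0 : ℝ) < j := by exact_mod_cast hj.1
    have h2 : (j : ℝ) < N := by exact_mod_cast hj.2
    have h4 : 0 < Real.sin (Real.pi * j / N) := by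
      refine Real.sin_pos_of_pos_of_lt_pi (by positivity) ?_
      rw [div_lt_iff₀ hNR]
      exact mul_lt_mul_of_pos_left h2 hpi
    exact Real.log_mul two_ne_zero h4.ne'
  have h5 : ∀ j ∈ Ico 1 N, ((1 - Real.cos (2 * Real.pi * r * j / N)) *
        Real.log (2 * Real.sin (Real.pi * j / N)) +
          Real.sin (2 * Real.pi * r * j / N) * (Real.pi / 2 - Real.pi * j / N)) =
      Real.log (2 * Real.sin (Real.pi * j / N)) -
        Real.cos (2 * Real.pi * r * j / N) * Real.log 2 -
        Real.cos (2 * Real.pi * r * j / N) * Real.log (Real.sin (Real.pi * j / N)) +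
        Real.pi / 2 * Real.sin (2 * Real.pi * r * j / N) -
        Real.pi / N * ((j : ℝ) * Real.sin (2 * Real.pi * r * j / N)) := by
    intro j hj
    have h6 := hlog j hj
    linear_combination (-Real.cos (2 * Real.pi * r * j / N)) * h6
  rw [sum_congr rfl h5, sum_sub_distrib, sum_add_distrib, sum_sub_distrib, sum_sub_distrib,
    hA, ← sum_mul, ← mul_sum, ← mul_sum, hcos, hsin, hjsin] at hmain
  rw [Real.log_mul two_ne_zero hNR.ne', Real.cot_eq_cos_div_sin, ← hs, ← hc]
  have h7 : Real.pi / N * (-N / 2 * (c / s)) = -(Real.pi / 2 * (c / s)) := by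
    field_simp
  rw [h7] at hmain
  linear_combination hmain

/-- Gauss's digamma theorem for Mathlib's digamma function -/
theorem gauss_digamma_complex {N r : ℕ} (hr : 0 < r) (hrN : r < N) :
    Complex.digamma ((r : ℂ) / N) = ((-Real.eulerMascheroniConstant - Real.log (2 * N) -
      Real.pi / 2 * Real.cot (Real.pi * r / N) +
      ∑ j ∈ Ico 1 N, Real.cos (2 * Real.pi * r * j / N) *
        Real.log (Real.sin (Real.pi * j / N)) : ℝ) : ℂ) := by
  have hrR : (0 : ℝ) < r := by exact_mod_cast hr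
  have hNR : (0 : ℝ) < N := hrR.trans (by exact_mod_cast hrN)
  rw [← gauss_digamma hr hrN, ← digamma_ofReal (div_pos hrR hNR)]
  congr 1
  push_cast
  rfl

end Fermat.Agent.Cor.BBW
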