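import Fermat.Agent.Corollaries.BBW.Main

/-!
# The numbers `L(1, χ)` are linearly independent over `ℚ` if `N` is prime to `φ(N)`
-/

set_option autoImplicit false

open Finset Polynomial

namespace Fermat.Agent.Cor.BBW

/-- the cyclotomic polynomial of level `N` is irreducible over the cyclotomic field of level `e` if
`N` and `e` are coprime -/
theorem irreducible_cyclotomic_of_coprime {e N : ℕ} [NeZero e] [NeZero N] (h : e.Coprime N)
    (K : Type*) [Field K] [CharZero K] [FiniteDimensional ℚ K] {μ : K} (hμ : IsPrimitiveRoot μ e)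
    (hK : Module.finrank ℚ K = e.totient) : Irreducible (cyclotomic N K) := by
  have hfd : FiniteDimensional K (CyclotomicField N K) :=
    IsCyclotomicExtension.finiteDimensional {N} K (CyclotomicField N K)
  have hcz : CharZero (CyclotomicField N K) :=
    charZero_of_injective_algebraMap (algebraMap K (CyclotomicField N K)).injective
  have hζ := IsCyclotomicExtension.zeta_spec N K (CyclotomicField N K)
  set ζ := IsCyclotomicExtension.zeta N K (CyclotomicField N K) with hζdef
  have hfdQ : FiniteDimensional ℚ (CyclotomicField N K) :=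
    FiniteDimensional.trans ℚ K (CyclotomicField N K)
  have hμ' : IsPrimitiveRoot (algebraMap K (CyclotomicField N K) μ) e :=
    hμ.map_of_injective (algebraMap K (CyclotomicField N K)).injective
  have hprod : IsPrimitiveRoot (algebraMap K (CyclotomicField N K) μ * ζ) (e * N) := by
    have h1 : orderOf (algebraMap K (CyclotomicField N K) μ * ζ) = e * N := by
      rw [(Commute.all _ _).orderOf_mul_eq_mul_orderOf_of_coprime, ← hμ'.eq_orderOf,
        ← hζ.eq_orderOf]
      rw [← hμ'.eq_orderOf, ← hζ.eq_orderOf]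
      exact h
    rw [← h1]
    exact IsPrimitiveRoot.orderOf _
  have hpos : 0 < e * N := Nat.mul_pos (NeZero.pos e) (NeZero.pos N)
  have h1 : (e * N).totient ≤ Module.finrank ℚ (CyclotomicField N K) := by
    have h2 := minpoly.natDegree_le (A := ℚ) (algebraMap K (CyclotomicField N K) μ * ζ)
    rwa [← cyclotomic_eq_minpoly_rat hprod hpos, natDegree_cyclotomic] at h2
  rw [← Module.finrank_mul_finrank ℚ K (CyclotomicField N K), hK, Nat.totient_mul h] at h1
  have h2 : N.totient ≤ Module.finrank K (CyclotomicField N K) :=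
    Nat.le_of_mul_le_mul_left h1 (Nat.totient_pos.mpr (NeZero.pos e))
  have h3 : Module.finrank K (CyclotomicField N K) = (minpoly K ζ).natDegree := by
    rw [(hζ.powerBasis K).finrank, ← (hζ.powerBasis K).natDegree_minpoly,
      IsPrimitiveRoot.powerBasis_gen]
  have hint : IsIntegral K ζ := Algebra.IsIntegral.isIntegral ζ
  have h4 : minpoly K ζ ∣ cyclotomic N K := by
    refine minpoly.dvd K ζ ?_
    rw [aeval_def, ← eval_map, map_cyclotomic]
    exact hζ.isRoot_cyclotomic (NeZero.pos N)
  have h5 := eq_of_monic_of_dvd_of_natDegree_le (minpoly.monic hint) (cyclotomic.monic N K) h4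
    (by rw [natDegree_cyclotomic, ← h3]; exact h2)
  rw [h5]
  exact minpoly.irreducible hint

variable {N : ℕ} [NeZero N]

omit [NeZero N] in
/-- the characters are linearly independent functions -/
theorem linearIndependent_char :
    LinearIndependent ℂ fun χ : DirichletCharacter ℂ N => (χ : ZMod N → ℂ) := by
  have h1 := linearIndependent_monoidHom (ZMod N) ℂ
  have h2 := h1.comp (fun χ : DirichletCharacter ℂ N => χ.toMonoidHom) (by
    intro χ ψ h
    ext a
    exact DFunLike.congr_fun h (a : ZMod N))
  exact h2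

theorem coeff_eq_zero {K : Type*} [Field K] [CharZero K] [Algebra.IsAlgebraic ℚ K] [Algebra K ℂ]
    (hirr : Irreducible (cyclotomic N K)) {μ : K} (hμ : IsPrimitiveRoot μ N.totient)
    {a : {χ : DirichletCharacter ℂ N // χ ≠ 1} → ℚ}
    (h : ∑ χ, (a χ : ℂ) * χ.1.LFunction 1 = 0) (χ : {χ : DirichletCharacter ℂ N // χ ≠ 1}) :
    a χ = 0 := by
  classical
  have hφ : 0 < N.totient := Nat.totient_pos.mpr (NeZero.pos N)
  -- the values are in `K`
  have hval : ∀ (χ : DirichletCharacter ℂ N) (k : ZMod N),
      χ k ∈ (algebraMap K ℂ).range := by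
    intro χ k
    by_cases hk : IsUnit k
    · obtain ⟨u, rfl⟩ := hk
      have h1 : (χ (u : ZMod N)) ^ N.totient = 1 := by
        rw [← map_pow, ← Units.val_pow_eq_pow_val, ← ZMod.card_units_eq_totient, pow_card_eq_one,
          Units.val_one, map_one]
      have hne : NeZero N.totient := ⟨hφ.ne'⟩
      obtain ⟨i, -, hi⟩ := (hμ.map_of_injective (algebraMap K ℂ).injective).eq_pow_of_pow_eq_one h1
      rw [← hi]
      exact pow_mem (RingHom.mem_range_self _ μ) i
    · rw [χ.map_nonunit hk]
      exact Subring.zero_mem _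
  set Φ : ZMod N → ℂ := ∑ χ : {χ : DirichletCharacter ℂ N // χ ≠ 1}, (a χ : ℂ) • (χ.1 : ZMod N → ℂ)
    with hΦ
  have hΦk : ∀ k, Φ k = ∑ χ : {χ : DirichletCharacter ℂ N // χ ≠ 1}, (a χ : ℂ) * χ.1 k := by
    intro k
    rw [hΦ, Finset.sum_apply]
    rfl
  have hmem : ∀ k, ∃ y : K, algebraMap K ℂ y = Φ k := by
    intro k
    rw [hΦk]
    have h1 : ∑ χ : {χ : DirichletCharacter ℂ N // χ ≠ 1}, (a χ : ℂ) * χ.1 k ∈
        (algebraMap K ℂ).range := by
      refine sum_mem fun χ _ => mul_mem ?_ (hval χ.1 k)
      exact ⟨(a χ : K), map_ratCast _ _⟩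
    exact h1
  choose f hf using hmem
  have hf' : (fun k => algebraMap K ℂ (f k)) = Φ := funext hf
  have hinj : Function.Injective (algebraMap K ℂ) := (algebraMap K ℂ).injective
  have hunit : ∀ k, ¬IsUnit k → k ≠ 0 → f k = 0 := by
    intro k hk _
    apply hinj
    rw [hf, hΦk, map_zero]
    exact sum_eq_zero fun χ _ => by rw [χ.1.map_nonunit hk, mul_zero]
  have hsumΦ : ∑ k, Φ k = 0 := by
    simp only [hΦk]
    rw [sum_comm]
    exact sum_eq_zero fun χ _ => by rw [← mul_sum, χ.1.sum_eq_zero_of_ne_one χ.2, mul_zero]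
  have hsum : ∑ k, f k = 0 := by
    apply hinj
    rw [map_sum, map_zero, ← hsumΦ]
    exact sum_congr rfl fun k _ => hf k
  have hL : ZMod.LFunction (fun k => algebraMap K ℂ (f k)) 1 = 0 := by
    rw [hf', LFunction_one_eq hsumΦ, hΦ, map_sum, ← h, ← sum_neg_distrib]
    refine sum_congr rfl fun χ _ => ?_
    rw [map_smul, smul_eq_mul, DirichletCharacter.LFunction,
      LFunction_one_eq (χ.1.sum_eq_zero_of_ne_one χ.2)]
    ring
  have hzero := baker_birch_wirsing hirr hunit hsum hL
  have hΦ0 : Φ = 0 := by
    funext k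
    rw [← hf k, hzero, Pi.zero_apply, map_zero, Pi.zero_apply]
  have hli := (linearIndependent_char (N := N)).comp
    (fun χ : {χ : DirichletCharacter ℂ N // χ ≠ 1} => χ.1) Subtype.val_injective
  rw [Fintype.linearIndependent_iff] at hli
  have h1 := hli (fun χ => (a χ : ℂ)) hΦ0 χ
  exact_mod_cast h1

/-- **Baker, Birch and Wirsing**: if `N` is prime to `φ(N)` (for example a prime number) then the
numbers `L(1, χ)`, `χ ≠ 1` modulo `N`, are linearly independent over `ℚ`. -/
theorem linearIndependent_LFunction_one (hN : N.Coprime N.totient) :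
    LinearIndependent ℚ fun χ : {χ : DirichletCharacter ℂ N // χ ≠ 1} => χ.1.LFunction 1 := by
  classical
  have hφ : 0 < N.totient := Nat.totient_pos.mpr (NeZero.pos N)
  have hne : NeZero N.totient := ⟨hφ.ne'⟩
  set ω : ℂ := Complex.exp (2 * Real.pi * Complex.I / N.totient) with hω
  have hωp : IsPrimitiveRoot ω N.totient := Complex.isPrimitiveRoot_exp _ hφ.ne'
  have hint : IsIntegral ℚ ω := (hωp.isIntegral hφ).tower_top
  have hfd : FiniteDimensional ℚ (IntermediateField.adjoin ℚ {ω}) :=
    IntermediateField.adjoin.finiteDimensional hint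
  have hμ : IsPrimitiveRoot (IntermediateField.AdjoinSimple.gen ℚ ω) N.totient := by
    refine IsPrimitiveRoot.of_map_of_injective
      (f := algebraMap (IntermediateField.adjoin ℚ {ω}) ℂ) ?_ (RingHom.injective _)
    rw [IntermediateField.AdjoinSimple.algebraMap_gen]
    exact hωp
  have hfr : Module.finrank ℚ (IntermediateField.adjoin ℚ {ω}) = N.totient.totient := by
    rw [IntermediateField.adjoin.finrank hint, ← cyclotomic_eq_minpoly_rat hωp hφ,
      natDegree_cyclotomic]
  have hirr := irreducible_cyclotomic_of_coprime hN.symm (IntermediateField.adjoin ℚ {ω}) hμ hfr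
  rw [Fintype.linearIndependent_iff]
  intro a ha χ
  refine coeff_eq_zero hirr hμ (a := a) ?_ χ
  rw [← ha]
  exact sum_congr rfl fun χ _ => by rw [Rat.smul_def]

/-- the case of a prime number -/
theorem linearIndependent_LFunction_one_prime {p : ℕ} [hp : Fact p.Prime] :
    LinearIndependent ℚ fun χ : {χ : DirichletCharacter ℂ p // χ ≠ 1} => χ.1.LFunction 1 := by
  refine linearIndependent_LFunction_one ?_
  rw [Nat.totient_prime hp.out]
  have h2 := hp.out.two_le
  exact (Nat.Prime.coprime_iff_not_dvd hp.out).mpr (Nat.not_dvd_of_pos_of_lt (by omega) (by omega))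

/-- **Chowla's problem**: `p` a prime number, `f` a periodic function modulo `p` with rational values,
not zero, with sum `0` over a period; then `∑ f(n) / n` is transcendental, in particular not `0`. -/
theorem chowla_LFunction {p : ℕ} [hp : Fact p.Prime] {f : ZMod p → ℚ} (hsum : ∑ k, f k = 0) (hf : f ≠ 0) :
    Transcendental ℚ (ZMod.LFunction (fun k => (f k : ℂ)) 1) := by
  have h1 := transcendental_LFunction (K := ℚ) (cyclotomic.irreducible_rat hp.out.pos) (f := f)
    (fun k hk hk0 => absurd (IsUnit.mk0 k hk0) hk) hsum hf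
  simpa only [eq_ratCast] using h1

end Fermat.Agent.Cor.BBW
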