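import Fermat.Agent.Corollaries.BBW.Parity
import Fermat.Agent.Corollaries.BBW.GaussPsi
import Mathlib.NumberTheory.Niven

/-!
# The Euler-Lehmer constants

`γ(a, q) = lim (∑_{n < x, n ≡ a (q)} 1 / n - log x / q)`. Among `γ` and the numbers `γ(a, q)`,
`1 ≤ a < q`, `(a, q) ≠ (2, 4)`, at most one is algebraic (Murty and Saradha, 2010).
-/

set_option autoImplicit false

open Finset Filter Topology

namespace Fermat.Agent.Cor.BBW

/-- the real logarithms of positive algebraic numbers -/
def realLogs : Set ℂ := {z | ∃ r : ℝ, IsAlgebraic ℚ (Real.exp r) ∧ z = (r : ℂ)}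

/-- the linear combinations of real logarithms with algebraic coefficients -/
noncomputable def logForms : Submodule (algebraicClosure ℚ ℂ) ℂ := Submodule.span _ realLogs

theorem mul_log_mem {c : ℂ} (hc : IsAlgebraic ℚ c) {r : ℝ} (hr : IsAlgebraic ℚ (Real.exp r)) :
    c * (r : ℂ) ∈ logForms :=
  logForms.smul_mem (⟨c, mem_algebraicClosure_iff.mpr hc⟩ : algebraicClosure ℚ ℂ)
    (Submodule.subset_span ⟨r, hr, rfl⟩)

/-- **Baker's theorem**: a linear form in real logarithms plus an algebraic multiple of `π` is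
algebraic only if both are `0`. -/
theorem eq_zero_of_add_mul_pi {z α : ℂ} (hz : z ∈ logForms) (hα : IsAlgebraic ℚ α)
    (h : IsAlgebraic ℚ (z + α * Real.pi)) : α = 0 ∧ z = 0 := by
  obtain ⟨n, f, g, hfg⟩ := Submodule.mem_span_set'.mp hz
  choose r hr hgr using fun i => (g i).2
  have hz' : z = ∑ i, (f i : ℂ) * (r i : ℂ) := by
    rw [← hfg]
    exact sum_congr rfl fun i _ => by rw [← hgr i]; rfl
  have hf : ∀ i, IsAlgebraic ℚ (f i : ℂ) := fun i => mem_algebraicClosure_iff.mp (f i).2
  have h1 := Baker.sum_eq_zero_or_transcendental (univ : Finset (Option (Fin n)))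
    (β := fun o => o.elim (-Complex.I * α) fun i => (f i : ℂ))
    (l := fun o => o.elim (Real.pi * Complex.I) fun i => (r i : ℂ)) (by
      rintro (_ | i) _
      · exact isAlgebraic_I.neg.mul hα
      · exact hf i) (by
      rintro (_ | i) _
      · simp only [Option.elim_none, Complex.exp_pi_mul_I]
        exact isAlgebraic_one.neg
      · simp only [Option.elim_some]
        rw [← Complex.ofReal_exp]
        exact isAlgebraic_ofReal_iff.mpr (hr i))
  rw [Fintype.sum_option] at h1
  simp only [Option.elim_none, Option.elim_some] at h1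
  have h2 : -Complex.I * α * (Real.pi * Complex.I) + ∑ i, (f i : ℂ) * (r i : ℂ) =
      z + α * Real.pi := by
    rw [hz']
    linear_combination (-α * Real.pi) * Complex.I_sq
  rw [h2] at h1
  have h3 : z + α * Real.pi = 0 := h1.resolve_right fun h4 => h4 h
  have hα0 : α = 0 := by
    by_contra hne
    refine sum_mul_log_ne_pi univ (c := fun i => -(f i : ℂ) * α⁻¹) (x := r)
      (fun i _ => (hf i).neg.mul hα.inv) (fun i _ => hr i) ?_
    have h4 : ∀ i, -(f i : ℂ) * α⁻¹ * (r i : ℂ) = -α⁻¹ * ((f i : ℂ) * (r i : ℂ)) := fun i => by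
      ring
    rw [sum_congr rfl fun i _ => h4 i, ← mul_sum, ← hz']
    field_simp
    linear_combination -h3
  refine ⟨hα0, ?_⟩
  rw [hα0, zero_mul, add_zero] at h3
  exact h3

/-- the Euler-Lehmer constant `γ(a, q)` -/
noncomputable def lehmer (a q : ℕ) : ℝ := -(psi ((a : ℝ) / q) + Real.log q) / q

/-- `γ(a, q)` as a limit, `x = q M` -/
theorem tendsto_lehmer {a q : ℕ} (ha : 0 < a) (hq : 0 < q) :
    Tendsto (fun M : ℕ => ∑ j ∈ range M, 1 / ((a : ℝ) + q * j) - Real.log (q * M) / q) atTop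
      (𝓝 (lehmer a q)) := by
  have haR : (0 : ℝ) < a := by exact_mod_cast ha
  have hqR : (0 : ℝ) < q := by exact_mod_cast hq
  have hx : (0 : ℝ) < (a : ℝ) / q := div_pos haR hqR
  have h1 := ((tendsto_psi_sub_log hx).div_const (q : ℝ)).add_const (lehmer a q)
  rw [zero_div, zero_add] at h1
  refine h1.congr' ?_
  filter_upwards [eventually_ge_atTop 1] with M hM
  have hMR : (0 : ℝ) < M := by exact_mod_cast hM
  rw [psi_add_nat hx, lehmer, Real.log_mul hqR.ne' hMR.ne']
  have h2 : ∑ i ∈ range M, 1 / ((i : ℝ) + (a : ℝ) / q) =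
      q * ∑ j ∈ range M, 1 / ((a : ℝ) + q * j) := by
    rw [mul_sum]
    refine sum_congr rfl fun i _ => ?_
    have h3 : (0 : ℝ) < (a : ℝ) + q * i := by positivity
    have h4 : (i : ℝ) + (a : ℝ) / q ≠ 0 := by positivity
    field_simp
    ring
  rw [h2]
  field_simp
  ring

theorem lehmer_one_one : lehmer 1 1 = Real.eulerMascheroniConstant := by
  rw [lehmer, Nat.cast_one, div_one, div_one, psi_one, Real.log_one, add_zero, neg_neg]

theorem psi_half : psi (1 / 2) = -Real.eulerMascheroniConstant - Real.log 4 := by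
  have h := gauss_digamma (N := 2) (r := 1) one_pos (by norm_num)
  have h1 : Ico 1 2 = {1} := rfl
  rw [h1, sum_singleton] at h
  push_cast at h
  rw [h, show (2 : ℝ) * 2 = 4 by norm_num, mul_one, mul_one, Real.sin_pi_div_two, Real.log_one,
    mul_zero, Real.cot_eq_cos_div_sin, Real.cos_pi_div_two, zero_div, mul_zero, sub_zero, add_zero]

theorem lehmer_two_four : lehmer 2 4 = Real.eulerMascheroniConstant / 4 := by
  have h : ((2 : ℕ) : ℝ) / ((4 : ℕ) : ℝ) = 1 / 2 := by norm_num
  rw [lehmer, h, psi_half]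
  push_cast
  ring

theorem isAlgebraic_cos_div (a q : ℕ) : IsAlgebraic ℚ (Real.cos (Real.pi * a / q)) := by
  have h := Real.isAlgebraic_cos_rat_mul_pi ((a : ℚ) / q)
  have h1 : (((a : ℚ) / q : ℚ) : ℝ) * Real.pi = Real.pi * a / q := by
    push_cast
    ring
  rw [h1] at h
  exact (IsFractionRing.isAlgebraic_iff ℤ ℚ ℝ).mp h

theorem isAlgebraic_sin_div (a q : ℕ) : IsAlgebraic ℚ (Real.sin (Real.pi * a / q)) := by
  have h := Real.isAlgebraic_sin_rat_mul_pi ((a : ℚ) / q)
  have h1 : (((a : ℚ) / q : ℚ) : ℝ) * Real.pi = Real.pi * a / q := by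
    push_cast
    ring
  rw [h1] at h
  exact (IsFractionRing.isAlgebraic_iff ℤ ℚ ℝ).mp h

theorem isAlgebraic_cot_div (a q : ℕ) : IsAlgebraic ℚ (Real.cot (Real.pi * a / q)) := by
  rw [Real.cot_eq_cos_div_sin, div_eq_mul_inv]
  exact (isAlgebraic_cos_div a q).mul (isAlgebraic_sin_div a q).inv

/-- `ψ(a / N) + γ + log N` is a linear form in real logarithms minus `(π / 2) cot (π a / N)` -/
theorem psi_add_add_log {a N : ℕ} (ha : 0 < a) (haN : a ≤ N) : ∃ z ∈ logForms,
    ((psi ((a : ℝ) / N) + Real.eulerMascheroniConstant + Real.log N : ℝ) : ℂ) =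
      z + ((-Real.cot (Real.pi * a / N) / 2 : ℝ) : ℂ) * Real.pi := by
  have hN0 : 0 < N := by omega
  have hNR : (0 : ℝ) < N := by exact_mod_cast hN0
  have hnat : ∀ n : ℕ, 0 < n → IsAlgebraic ℚ (Real.exp (Real.log n)) := by
    intro n hn
    rw [Real.exp_log (by exact_mod_cast hn)]
    exact isAlgebraic_natCast n
  rcases Nat.lt_or_eq_of_le haN with h | h
  · refine ⟨-1 * ((Real.log (2 : ℕ) : ℝ) : ℂ) + ∑ j ∈ Ico 1 N,
      ((Real.cos (2 * Real.pi * a * j / N) : ℝ) : ℂ) *
        ((Real.log (Real.sin (Real.pi * j / N)) : ℝ) : ℂ),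
      logForms.add_mem (mul_log_mem isAlgebraic_one.neg (hnat 2 two_pos))
        (logForms.sum_mem fun j hj => mul_log_mem ?_ ?_), ?_⟩
    · have h1 := isAlgebraic_cos_div (2 * a * j) N
      have h2 : Real.pi * ((2 * a * j : ℕ) : ℝ) / N = 2 * Real.pi * a * j / N := by
        push_cast
        ring
      rw [h2] at h1
      exact isAlgebraic_ofReal_iff.mpr h1
    · rw [mem_Ico] at hj
      have h1 : (0 : ℝ) < j := by exact_mod_cast hj.1
      have h2 : (j : ℝ) < N := by exact_mod_cast hj.2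
      have h3 : 0 < Real.sin (Real.pi * j / N) := by
        refine Real.sin_pos_of_pos_of_lt_pi (by positivity) ?_
        rw [div_lt_iff₀ hNR]
        exact mul_lt_mul_of_pos_left h2 Real.pi_pos
      rw [Real.exp_log h3]
      exact isAlgebraic_sin_div j N
    · rw [gauss_digamma ha h, Real.log_mul two_ne_zero hNR.ne']
      push_cast
      ring
  · refine ⟨1 * ((Real.log (N : ℕ) : ℝ) : ℂ), mul_log_mem isAlgebraic_one (hnat N hN0), ?_⟩
    rw [h, div_self hNR.ne', psi_one, mul_div_assoc, div_self hNR.ne', mul_one,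
      Real.cot_eq_cos_div_sin, Real.sin_pi, div_zero]
    push_cast
    ring

theorem eq_of_cot_eq {x y : ℝ} (hx0 : 0 < x) (hx : x < Real.pi) (hy0 : 0 < y) (hy : y < Real.pi)
    (h : Real.cot x = Real.cot y) : x = y := by
  have hsx := (Real.sin_pos_of_pos_of_lt_pi hx0 hx).ne'
  have hsy := (Real.sin_pos_of_pos_of_lt_pi hy0 hy).ne'
  rw [Real.cot_eq_cos_div_sin, Real.cot_eq_cos_div_sin, div_eq_div_iff hsx hsy] at h
  have h1 : Real.sin (x - y) = 0 := by
    rw [Real.sin_sub]
    linarith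
  have h2 := (Real.sin_eq_zero_iff_of_lt_of_lt (by linarith) (by linarith)).mp h1
  linarith

/-- if two Euler-Lehmer constants are algebraic, both parts agree -/
theorem lehmer_aux {a b q r : ℕ} (ha : 0 < a) (haq : a ≤ q) (hb : 0 < b) (hbr : b ≤ r)
    (h1 : IsAlgebraic ℚ (lehmer a q)) (h2 : IsAlgebraic ℚ (lehmer b r)) :
    Real.cot (Real.pi * a / q) = Real.cot (Real.pi * b / r) ∧
      psi ((a : ℝ) / q) + Real.log q = psi ((b : ℝ) / r) + Real.log r := by
  obtain ⟨z, hz, hz1⟩ := psi_add_add_log ha haq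
  obtain ⟨w, hw, hw1⟩ := psi_add_add_log hb hbr
  have hq : (q : ℝ) ≠ 0 := Nat.cast_ne_zero.mpr (by omega)
  have hr : (r : ℝ) ≠ 0 := Nat.cast_ne_zero.mpr (by omega)
  have h3 : (psi ((a : ℝ) / q) + Real.eulerMascheroniConstant + Real.log q) -
      (psi ((b : ℝ) / r) + Real.eulerMascheroniConstant + Real.log r) =
      r * lehmer b r - q * lehmer a q := by
    rw [lehmer, lehmer]
    field_simp
    ring
  have h4 : IsAlgebraic ℚ ((z - w) + ((-Real.cot (Real.pi * a / q) / 2 -
      -Real.cot (Real.pi * b / r) / 2 : ℝ) : ℂ) * Real.pi) := by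
    have h5 : (z - w) + ((-Real.cot (Real.pi * a / q) / 2 -
        -Real.cot (Real.pi * b / r) / 2 : ℝ) : ℂ) * Real.pi =
        ((r * lehmer b r - q * lehmer a q : ℝ) : ℂ) := by
      rw [← h3, Complex.ofReal_sub (psi ((a : ℝ) / q) + Real.eulerMascheroniConstant + Real.log q),
        hz1, hw1]
      push_cast
      ring
    rw [h5]
    exact isAlgebraic_ofReal_iff.mpr (((isAlgebraic_natCast r).mul h2).sub
      ((isAlgebraic_natCast q).mul h1))
  have halg : ∀ x : ℝ, IsAlgebraic ℚ x → IsAlgebraic ℚ (-x / 2) := by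
    intro x hx
    rw [div_eq_mul_inv]
    exact hx.neg.mul (by exact_mod_cast (isAlgebraic_natCast (R := ℚ) (A := ℝ) 2).inv)
  have h5 := eq_zero_of_add_mul_pi (logForms.sub_mem hz hw) (isAlgebraic_ofReal_iff.mpr
    ((halg _ (isAlgebraic_cot_div a q)).sub (halg _ (isAlgebraic_cot_div b r)))) h4
  have h6 : -Real.cot (Real.pi * a / q) / 2 - -Real.cot (Real.pi * b / r) / 2 = 0 := by
    exact_mod_cast h5.1
  refine ⟨by linarith, ?_⟩
  have h7 : ((psi ((a : ℝ) / q) + Real.eulerMascheroniConstant + Real.log q : ℝ) : ℂ) =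
      ((psi ((b : ℝ) / r) + Real.eulerMascheroniConstant + Real.log r : ℝ) : ℂ) := by
    rw [hz1, hw1]
    have h8 : -Real.cot (Real.pi * a / q) / 2 = -Real.cot (Real.pi * b / r) / 2 := by linarith
    rw [h8]
    linear_combination h5.2
  have h8 := Complex.ofReal_injective h7
  linarith

/-- **The Euler-Lehmer constants** (Murty and Saradha): two of them are both algebraic only in the
obvious cases `(b, r) = (a, q)` and `γ(q, q) = 4 γ(2 q, 4 q)`. -/
theorem lehmer_eq_of_isAlgebraic {a b q r : ℕ} (ha : 0 < a) (haq : a ≤ q) (hb : 0 < b)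
    (hbr : b ≤ r) (h1 : IsAlgebraic ℚ (lehmer a q)) (h2 : IsAlgebraic ℚ (lehmer b r)) :
    (a = b ∧ q = r) ∨ (a = q ∧ b = 2 * q ∧ r = 4 * q) ∨ (b = r ∧ a = 2 * r ∧ q = 4 * r) := by
  have key : ∀ b q r : ℕ, 0 < q → 0 < b → b < r →
      Real.cot (Real.pi * q / q) = Real.cot (Real.pi * b / r) →
      psi ((q : ℝ) / q) + Real.log q = psi ((b : ℝ) / r) + Real.log r →
      b = 2 * q ∧ r = 4 * q := by
    intro b q r hq hb hbr hc hp
    have hqR : (0 : ℝ) < q := by exact_mod_cast hq
    have hbR : (0 : ℝ) < b := by exact_mod_cast hb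
    have hbrR : (b : ℝ) < r := by exact_mod_cast hbr
    have hrR : (0 : ℝ) < r := hbR.trans hbrR
    have hπ := Real.pi_pos
    rw [mul_div_assoc, div_self hqR.ne', mul_one, Real.cot_eq_cos_div_sin, Real.sin_pi,
      div_zero] at hc
    have h3 : Real.pi * b / r = Real.pi / 2 := by
      refine eq_of_cot_eq (by positivity) ?_ (by positivity) (by linarith) ?_
      · rw [div_lt_iff₀ hrR]
        exact mul_lt_mul_of_pos_left hbrR hπ
      · rw [← hc, Real.cot_eq_cos_div_sin, Real.cos_pi_div_two, zero_div]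
    have h4 : (b : ℝ) / r = 1 / 2 := by
      have h5 : Real.pi * ((b : ℝ) / r) = Real.pi * (1 / 2) := by
        rw [← mul_div_assoc, h3]
        ring
      exact mul_left_cancel₀ hπ.ne' h5
    rw [div_self hqR.ne', psi_one, h4, psi_half] at hp
    have h5 : Real.log ((4 * q : ℕ) : ℝ) = Real.log r := by
      push_cast
      rw [Real.log_mul (by norm_num) hqR.ne']
      linarith
    have h6 : ((4 * q : ℕ) : ℝ) = r := Real.log_injOn_pos (Set.mem_Ioi.mpr (by positivity))
      (Set.mem_Ioi.mpr hrR) h5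
    have h7 : 4 * q = r := by exact_mod_cast h6
    have h8 : (2 : ℝ) * b = r := by
      field_simp at h4
      linarith
    have h9 : 2 * b = r := by exact_mod_cast h8
    omega
  obtain ⟨hc, hp⟩ := lehmer_aux ha haq hb hbr h1 h2
  have hq : 0 < q := by omega
  have hr : 0 < r := by omega
  have hqR : (0 : ℝ) < q := by exact_mod_cast hq
  have hrR : (0 : ℝ) < r := by exact_mod_cast hr
  have haR : (0 : ℝ) < a := by exact_mod_cast ha
  have hbR : (0 : ℝ) < b := by exact_mod_cast hb
  have hπ := Real.pi_pos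
  have hlog : Real.log q = Real.log r → q = r := by
    intro h
    exact_mod_cast Real.log_injOn_pos (Set.mem_Ioi.mpr hqR) (Set.mem_Ioi.mpr hrR) h
  rcases Nat.lt_or_eq_of_le haq with h | h
  · rcases Nat.lt_or_eq_of_le hbr with h' | h'
    · left
      have hR : (a : ℝ) < q := by exact_mod_cast h
      have hR' : (b : ℝ) < r := by exact_mod_cast h'
      have h3 : Real.pi * a / q = Real.pi * b / r := by
        refine eq_of_cot_eq (by positivity) ?_ (by positivity) ?_ hc
        · rw [div_lt_iff₀ hqR]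
          exact mul_lt_mul_of_pos_left hR hπ
        · rw [div_lt_iff₀ hrR]
          exact mul_lt_mul_of_pos_left hR' hπ
      have h4 : (a : ℝ) / q = (b : ℝ) / r := by
        rw [mul_div_assoc, mul_div_assoc] at h3
        exact mul_left_cancel₀ hπ.ne' h3
      rw [h4] at hp
      have h5 := hlog (by linarith)
      subst h5
      have h6 : (a : ℝ) = b := by
        field_simp at h4
        exact h4
      exact ⟨by exact_mod_cast h6, rfl⟩
    · right
      right
      rw [h'] at hc hp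
      obtain ⟨h5, h6⟩ := key a r q hr ha h hc.symm hp.symm
      exact ⟨h', h5, h6⟩
  · rcases Nat.lt_or_eq_of_le hbr with h' | h'
    · right
      left
      rw [h] at hc hp
      obtain ⟨h5, h6⟩ := key b q r hq hb h' hc hp
      exact ⟨h, h5, h6⟩
    · left
      rw [h, h', div_self hqR.ne', div_self hrR.ne'] at hp
      have h5 := hlog (by linarith)
      exact ⟨by omega, h5⟩

/-- **The theorem of Murty and Saradha** (2010): among Euler's constant `γ` and the Euler-Lehmer
constants `γ(a, q)`, `1 ≤ a < q`, `(a, q) ≠ (2, 4)`, at most one is algebraic. -/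
theorem lehmer_subsingleton : {x : ℕ × ℕ | (x = (1, 1) ∨ (0 < x.1 ∧ x.1 < x.2 ∧ x ≠ (2, 4))) ∧
    IsAlgebraic ℚ (lehmer x.1 x.2)}.Subsingleton := by
  rintro ⟨a, q⟩ ⟨hx, h1⟩ ⟨b, r⟩ ⟨hy, h2⟩
  simp only [Prod.mk.injEq, ne_eq] at hx hy h1 h2 ⊢
  rcases lehmer_eq_of_isAlgebraic (by omega) (by omega) (by omega) (by omega) h1 h2 with h | h | h
  · exact h
  · omega
  · omega

/-- Euler's constant or every `γ(a, q)`, `1 ≤ a < q`, `(a, q) ≠ (2, 4)`, is transcendental -/
theorem transcendental_lehmer (h : IsAlgebraic ℚ Real.eulerMascheroniConstant) {a q : ℕ}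
    (ha : 0 < a) (haq : a < q) (h24 : ¬(a = 2 ∧ q = 4)) : Transcendental ℚ (lehmer a q) := by
  intro h1
  have h2 : IsAlgebraic ℚ (lehmer 1 1) := by rwa [lehmer_one_one]
  rcases lehmer_eq_of_isAlgebraic one_pos le_rfl ha haq.le h2 h1 with h3 | h3 | h3 <;> omega

end Fermat.Agent.Cor.BBW
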