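import Fermat.Agent.Corollaries.BBW.Lehmer

/-!
# Differences of the Euler-Lehmer constants

`γ(a, q) - γ / q` is transcendental for `1 ≤ a ≤ q`, `(a, q) ≠ (1, 1), (2, 4)`, and
`γ(a, q) - γ(b, q)` is transcendental for `1 ≤ a, b ≤ q`, `a ≠ b`.
-/

set_option autoImplicit false

open Finset Filter Topology

namespace Fermat.Agent.Cor.BBW

/-- `γ(a, q) - γ / q` is transcendental, `(a, q) ≠ (1, 1), (2, 4)` -/
theorem transcendental_lehmer_sub_div {a q : ℕ} (ha : 0 < a) (haq : a ≤ q)
    (h11 : ¬(a = 1 ∧ q = 1)) (h24 : ¬(a = 2 ∧ q = 4)) :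
    Transcendental ℚ (lehmer a q - Real.eulerMascheroniConstant / q) := by
  intro h
  have hq : 0 < q := by omega
  have hqR : (0 : ℝ) < q := by exact_mod_cast hq
  have haR : (0 : ℝ) < a := by exact_mod_cast ha
  have hπ := Real.pi_pos
  obtain ⟨z, hz, hz1⟩ := psi_add_add_log ha haq
  have h1 : psi ((a : ℝ) / q) + Real.eulerMascheroniConstant + Real.log q =
      -(q * (lehmer a q - Real.eulerMascheroniConstant / q)) := by
    rw [lehmer]
    field_simp
    ring
  have h2 : IsAlgebraic ℚ (z + ((-Real.cot (Real.pi * a / q) / 2 : ℝ) : ℂ) * Real.pi) := by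
    rw [← hz1, h1]
    exact isAlgebraic_ofReal_iff.mpr ((isAlgebraic_natCast q).mul h).neg
  have h3 : IsAlgebraic ℚ (-Real.cot (Real.pi * a / q) / 2) := by
    rw [div_eq_mul_inv]
    exact (isAlgebraic_cot_div a q).neg.mul
      (by exact_mod_cast (isAlgebraic_natCast (R := ℚ) (A := ℝ) 2).inv)
  obtain ⟨h4, h5⟩ := eq_zero_of_add_mul_pi hz (isAlgebraic_ofReal_iff.mpr h3) h2
  have h6 : psi ((a : ℝ) / q) + Real.eulerMascheroniConstant + Real.log q = 0 := by
    have h7 : ((psi ((a : ℝ) / q) + Real.eulerMascheroniConstant + Real.log q : ℝ) : ℂ) = 0 := by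
      rw [hz1, h4, h5]
      ring
    exact_mod_cast h7
  rcases Nat.lt_or_eq_of_le haq with h7 | h7
  · have h8 : Real.cot (Real.pi * a / q) = 0 := by
      have h9 : -Real.cot (Real.pi * a / q) / 2 = 0 := by exact_mod_cast h4
      linarith
    have h9 : Real.pi * a / q = Real.pi / 2 := by
      refine eq_of_cot_eq (by positivity) ?_ (by positivity) (by linarith) ?_
      · rw [div_lt_iff₀ hqR]
        exact mul_lt_mul_of_pos_left (by exact_mod_cast h7) hπ
      · rw [h8, Real.cot_eq_cos_div_sin, Real.cos_pi_div_two, zero_div]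
    have h10 : (a : ℝ) / q = 1 / 2 := by
      have h11 : Real.pi * ((a : ℝ) / q) = Real.pi * (1 / 2) := by
        rw [← mul_div_assoc, h9]
        ring
      exact mul_left_cancel₀ hπ.ne' h11
    rw [h10, psi_half] at h6
    have h12 : Real.log q = Real.log 4 := by linarith
    have h13 : (q : ℝ) = 4 := Real.log_injOn_pos (Set.mem_Ioi.mpr hqR)
      (Set.mem_Ioi.mpr (by norm_num)) h12
    have h14 : q = 4 := by exact_mod_cast h13
    rw [h13] at h10
    have h15 : (a : ℝ) = 2 := by linarith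
    have h16 : a = 2 := by exact_mod_cast h15
    exact h24 ⟨h16, h14⟩
  · rw [h7, div_self hqR.ne', psi_one, neg_add_cancel, zero_add] at h6
    have h8 : (q : ℝ) = 1 := Real.eq_one_of_pos_of_log_eq_zero hqR h6
    have h9 : q = 1 := by exact_mod_cast h8
    exact h11 ⟨h7.trans h9, h9⟩

/-- `γ(a, q) - γ(b, q)` is transcendental, `a ≠ b` -/
theorem transcendental_lehmer_sub {a b q : ℕ} (ha : 0 < a) (haq : a ≤ q) (hb : 0 < b)
    (hbq : b ≤ q) (hab : a ≠ b) : Transcendental ℚ (lehmer a q - lehmer b q) := by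
  intro h
  have hq : 0 < q := by omega
  have hqR : (q : ℝ) ≠ 0 := by positivity
  have hne : NeZero q := ⟨hq.ne'⟩
  refine transcendental_psi_sub_nat (N := q) (r := a) (s := b) ha haq hb hbq hab ?_
  have h1 : psi ((b : ℝ) / q) - psi ((a : ℝ) / q) = q * (lehmer a q - lehmer b q) := by
    rw [lehmer, lehmer]
    field_simp
    ring
  rw [h1]
  exact isAlgebraic_ofReal_iff.mpr ((isAlgebraic_natCast q).mul h)

end Fermat.Agent.Cor.BBW
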