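import Fermat.Agent.Corollaries.BBW.Basic

/-!
# `L(1, χ) / π` is algebraic if and only if `χ` is odd
-/

set_option autoImplicit false

open Finset

namespace Fermat.Agent.Cor.BBW

theorem isAlgebraic_conj {z : ℂ} (hz : IsAlgebraic ℚ z) : IsAlgebraic ℚ ((starRingEnd ℂ) z) :=
  (hz.isIntegral.map (starRingEnd ℂ).toRatAlgHom).isAlgebraic

theorem isAlgebraic_ofReal_iff {x : ℝ} : IsAlgebraic ℚ (x : ℂ) ↔ IsAlgebraic ℚ x :=
  isAlgebraic_algebraMap_iff (A := ℂ) (RingHom.injective (algebraMap ℝ ℂ))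

theorem isAlgebraic_norm {z : ℂ} (hz : IsAlgebraic ℚ z) : IsAlgebraic ℚ ‖z‖ := by
  rw [← isAlgebraic_ofReal_iff]
  refine IsAlgebraic.of_pow (n := 2) two_pos ?_
  rw [← Complex.mul_conj']
  exact hz.mul (isAlgebraic_conj hz)

theorem isAlgebraic_I : IsAlgebraic ℚ Complex.I := by
  refine IsAlgebraic.of_pow two_pos ?_
  rw [Complex.I_sq]
  exact isAlgebraic_one.neg

/-- **`π` is not a linear combination with algebraic coefficients of real logarithms of algebraic
numbers.** -/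
theorem sum_mul_log_ne_pi {ι : Type*} (s : Finset ι) {c : ι → ℂ} (hc : ∀ i ∈ s, IsAlgebraic ℚ (c i))
    {x : ι → ℝ} (hx : ∀ i ∈ s, IsAlgebraic ℚ (Real.exp (x i))) :
    ∑ i ∈ s, c i * (x i : ℂ) ≠ (Real.pi : ℂ) := by
  classical
  intro h
  set F := algebraicClosure ℚ ℂ with hF
  have hFalg : Algebra.IsAlgebraic ℚ F := algebraicClosure.isAlgebraic ℚ ℂ
  have hmem : ∀ i ∈ s, c i ∈ F := fun i hi => mem_algebraicClosure_iff.mpr (hc i hi)
  have hI : Complex.I ∈ F := mem_algebraicClosure_iff.mpr isAlgebraic_I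
  have hci : ∀ i ∈ s, ((if hi : i ∈ s then (⟨c i, hmem i hi⟩ : F) else 0 : F) : ℂ) = c i := by
    intro i hi
    rw [dif_pos hi]
  have h1 := sum_conj_eq_zero (F := F) (algebraMap F ℂ) ((starRingEnd ℂ).comp (algebraMap F ℂ))
    (insertNone s) (c := fun o => o.elim (⟨Complex.I, hI⟩ : F)
      fun i => if hi : i ∈ s then (⟨c i, hmem i hi⟩ : F) else 0)
    (l := fun o => o.elim ((Real.pi : ℂ) * Complex.I) fun i => (x i : ℂ)) (by
      rintro (_ | i) hi
      · show IsAlgebraic ℚ (Complex.exp (Real.pi * Complex.I))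
        rw [Complex.exp_pi_mul_I]
        exact isAlgebraic_one.neg
      · show IsAlgebraic ℚ (Complex.exp (x i))
        rw [← Complex.ofReal_exp]
        exact isAlgebraic_ofReal_iff.mpr (hx i (some_mem_insertNone.mp hi))) (by
      rw [sum_insertNone]
      show Complex.I * (Real.pi * Complex.I) + ∑ i ∈ s,
        ((if hi : i ∈ s then (⟨c i, hmem i hi⟩ : F) else 0 : F) : ℂ) * (x i : ℂ) = 0
      rw [sum_congr rfl fun i hi => by rw [hci i hi], h]
      linear_combination (Real.pi : ℂ) * Complex.I_mul_I)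
  rw [sum_insertNone] at h1
  have h2 : (starRingEnd ℂ) Complex.I * (Real.pi * Complex.I) + ∑ i ∈ s,
      (starRingEnd ℂ) ((if hi : i ∈ s then (⟨c i, hmem i hi⟩ : F) else 0 : F) : ℂ) * (x i : ℂ) = 0 :=
    h1
  rw [sum_congr rfl fun i hi => by rw [hci i hi]] at h2
  have h3 := congrArg (starRingEnd ℂ) h
  rw [map_sum] at h3
  simp only [map_mul, Complex.conj_ofReal] at h3
  rw [h3, Complex.conj_I] at h2
  have h4 : (Real.pi : ℂ) = 0 := by
    linear_combination (1 / 2 : ℂ) * h2 + (1 / 2 : ℂ) * Real.pi * Complex.I_mul_I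
  exact Real.pi_ne_zero (by exact_mod_cast h4)

variable {N : ℕ} [NeZero N]

theorem stdAddChar_neg (a : ZMod N) :
    (ZMod.stdAddChar (-a) : ℂ) = (starRingEnd ℂ) (ZMod.stdAddChar a) := by
  have h1 : (ZMod.stdAddChar (-a) : ℂ) * ZMod.stdAddChar a = 1 := by
    rw [← AddChar.map_add_eq_mul, neg_add_cancel, AddChar.map_zero_eq_one]
  have h2 : (starRingEnd ℂ) (ZMod.stdAddChar a) * ZMod.stdAddChar a = 1 := by
    rw [mul_comm, Complex.mul_conj, Complex.normSq_eq_norm_sq, Diri.stdAddChar_eq_exp,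
      Diri.norm_exp_two_pi]
    norm_num
  have h0 : (ZMod.stdAddChar a : ℂ) ≠ 0 := by
    intro h
    rw [h, mul_zero] at h1
    exact zero_ne_one h1
  exact mul_right_cancel₀ h0 (h1.trans h2.symm)

/-- the argument of `1 - e(-j)` -/
theorem arg_one_sub {j : ZMod N} (hj : j ≠ 0) :
    (1 - (ZMod.stdAddChar (-j) : ℂ)).arg = Real.pi * (1 / 2 - (j.val : ℝ) / N) := by
  have hN : (0 : ℝ) < N := Nat.cast_pos.mpr (NeZero.pos N)
  have hj0 : (0 : ℝ) < j.val := by
    exact_mod_cast Nat.pos_of_ne_zero fun h => hj ((ZMod.val_eq_zero j).mp h)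
  have hjN : (j.val : ℝ) < N := by exact_mod_cast ZMod.val_lt j
  set t : ℝ := (j.val : ℝ) / N with ht
  have ht0 : 0 < t := by positivity
  have ht1 : t < 1 := by
    rw [ht, div_lt_one hN]
    exact hjN
  have hπ := Real.pi_pos
  have h1 : 1 - (ZMod.stdAddChar (-j) : ℂ) = ((2 * Real.sin (Real.pi * t) : ℝ) : ℂ) *
      (Complex.cos ((Real.pi * (1 / 2 - t) : ℝ)) +
        Complex.sin ((Real.pi * (1 / 2 - t) : ℝ)) * Complex.I) := by
    have e0 : (ZMod.stdAddChar (-j) : ℂ) = Complex.exp (-(2 * (Real.pi * t) * Complex.I)) := by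
      rw [stdAddChar_neg, Diri.stdAddChar_eq_exp, ← Complex.exp_conj]
      congr 1
      simp only [map_mul, Complex.conj_I, Complex.conj_ofReal, map_ofNat]
      rw [ht]
      push_cast
      ring
    have e1 : Complex.exp (-(2 * (Real.pi * t) * Complex.I)) =
        Complex.exp (-(Real.pi * t) * Complex.I) * Complex.exp (-(Real.pi * t) * Complex.I) := by
      rw [← Complex.exp_add]
      congr 1
      ring
    have e2 : ((Real.pi * (1 / 2 - t) : ℝ) : ℂ) = (Real.pi : ℂ) / 2 - Real.pi * t := by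
      push_cast
      ring
    rw [e0, e1, e2, Complex.cos_pi_div_two_sub, Complex.sin_pi_div_two_sub, Complex.exp_mul_I,
      Complex.cos_neg, Complex.sin_neg]
    push_cast
    have h3 := Complex.sin_sq_add_cos_sq ((Real.pi : ℂ) * t)
    have h4 : Complex.I ^ 2 = -1 := Complex.I_sq
    linear_combination (-1 : ℂ) * h3 - (Complex.sin ((Real.pi : ℂ) * t) ^ 2) * h4
  rw [h1, Complex.arg_mul_cos_add_sin_mul_I]
  · exact mul_pos two_pos (Real.sin_pos_of_pos_of_lt_pi (by positivity) (by nlinarith))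
  · constructor <;> nlinarith

theorem log_conj_one_sub (j : ZMod N) : Complex.log (1 - ZMod.stdAddChar j) =
    (starRingEnd ℂ) (Complex.log (1 - ZMod.stdAddChar (-j))) := by
  have h1 : (1 : ℂ) - ZMod.stdAddChar j = (starRingEnd ℂ) (1 - ZMod.stdAddChar (-j)) := by
    rw [map_sub, map_one, ← stdAddChar_neg, neg_neg]
  have h2 : (1 - (ZMod.stdAddChar (-j) : ℂ)).arg ≠ Real.pi := by
    by_cases hj : j = 0
    · subst hj
      rw [neg_zero, AddChar.map_zero_eq_one, sub_self, Complex.arg_zero]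
      exact Real.pi_ne_zero.symm
    · rw [arg_one_sub hj]
      intro h
      have hN : (0 : ℝ) < N := Nat.cast_pos.mpr (NeZero.pos N)
      have h3 : 0 ≤ (j.val : ℝ) / N := by positivity
      have := Real.pi_pos
      nlinarith
  rw [h1, Complex.log_conj _ h2]

/-- the log sum of a function, in both orders -/
theorem sum_invDFT_neg (Φ : ZMod N → ℂ) (g : ZMod N → ℂ) {ε : ℂ}
    (h : ∀ k, Φ (-k) = ε * Φ k) :
    ∑ j, ZMod.dft.symm Φ j * g (-j) = ε * ∑ j, ZMod.dft.symm Φ j * g j := by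
  have h1 : ∀ j, ZMod.dft.symm Φ (-j) = ε * ZMod.dft.symm Φ j := by
    intro j
    have h2 : ∑ k : ZMod N, (ZMod.stdAddChar (k * -j) : ℂ) • Φ k =
        ε * ∑ k : ZMod N, (ZMod.stdAddChar (k * j) : ℂ) • Φ k := by
      rw [← Equiv.sum_comp (Equiv.neg (ZMod N))
        (fun k => (ZMod.stdAddChar (k * -j) : ℂ) • Φ k), mul_sum]
      refine sum_congr rfl fun k _ => ?_
      rw [Equiv.neg_apply, h k, neg_mul_neg, smul_eq_mul, smul_eq_mul]
      ring
    rw [ZMod.invDFT_apply, ZMod.invDFT_apply, h2, smul_eq_mul, smul_eq_mul]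
    ring
  rw [← Equiv.sum_comp (Equiv.neg (ZMod N)), mul_sum]
  refine sum_congr rfl fun j _ => ?_
  rw [Equiv.neg_apply, neg_neg, h1]
  ring

/-- **The value at `1` for an even function.** -/
theorem LFunction_one_of_even {Φ : ZMod N → ℂ} (hsum : ∑ k, Φ k = 0) (he : ∀ k, Φ (-k) = Φ k) :
    ZMod.LFunction Φ 1 =
      ∑ j, -ZMod.dft.symm Φ j * ((Real.log ‖(1 : ℂ) - ZMod.stdAddChar (-j)‖ : ℝ) : ℂ) := by
  have h1 := sum_invDFT_neg Φ (fun j => Complex.log (1 - ZMod.stdAddChar j)) (ε := 1)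
    (fun k => by rw [he, one_mul])
  rw [one_mul] at h1
  have h2 : 2 * ∑ j, ZMod.dft.symm Φ j * Complex.log (1 - ZMod.stdAddChar (-j)) =
      2 * ∑ j, ZMod.dft.symm Φ j * ((Real.log ‖(1 : ℂ) - ZMod.stdAddChar (-j)‖ : ℝ) : ℂ) := by
    rw [two_mul]
    nth_rewrite 2 [h1]
    rw [← sum_add_distrib, mul_sum]
    refine sum_congr rfl fun j _ => ?_
    rw [log_conj_one_sub j, ← mul_add, Complex.add_conj, Complex.log_re]
    push_cast
    ring
  have h3 := mul_left_cancel₀ (two_ne_zero) h2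
  rw [Diri.ZMod_LFunction_one Φ hsum, h3, ← sum_neg_distrib]
  exact sum_congr rfl fun j _ => by rw [neg_mul]

/-- **The value at `1` for an odd function.** -/
theorem LFunction_one_of_odd {Φ : ZMod N → ℂ} (ho : ∀ k, Φ (-k) = -Φ k) :
    ZMod.LFunction Φ 1 = Real.pi * ∑ j, ZMod.dft.symm Φ j *
      (-Complex.I * (1 / 2 - (j.val : ℂ) / N)) := by
  have hsum : ∑ k, Φ k = 0 := by
    have h1 : ∑ k, Φ k = -∑ k, Φ k := by
      conv_lhs => rw [← Equiv.sum_comp (Equiv.neg (ZMod N))]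
      rw [← sum_neg_distrib]
      exact sum_congr rfl fun k _ => by rw [Equiv.neg_apply, ho]
    have h2 : (2 : ℂ) * ∑ k, Φ k = 0 := by linear_combination h1
    exact (mul_eq_zero.mp h2).resolve_left two_ne_zero
  have h1 := sum_invDFT_neg Φ (fun j => Complex.log (1 - ZMod.stdAddChar j)) (ε := -1)
    (fun k => by rw [ho, neg_one_mul])
  have h0 : ZMod.dft.symm Φ 0 = 0 := by
    rw [ZMod.invDFT_apply]
    simp [hsum]
  have h2 : 2 * ∑ j, ZMod.dft.symm Φ j * Complex.log (1 - ZMod.stdAddChar (-j)) =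
      2 * -(Real.pi * ∑ j, ZMod.dft.symm Φ j *
        (-Complex.I * (1 / 2 - (j.val : ℂ) / N))) := by
    have h3 : 2 * ∑ j, ZMod.dft.symm Φ j * Complex.log (1 - ZMod.stdAddChar (-j)) =
        ∑ j, ZMod.dft.symm Φ j * Complex.log (1 - ZMod.stdAddChar (-j)) -
          ∑ j, ZMod.dft.symm Φ j * Complex.log (1 - ZMod.stdAddChar j) := by
      linear_combination h1
    rw [h3, ← sum_sub_distrib, mul_sum, ← sum_neg_distrib, mul_sum]
    refine sum_congr rfl fun j _ => ?_
    by_cases hj : j = 0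
    · subst hj
      rw [h0]
      ring
    · rw [log_conj_one_sub j, ← mul_sub, Complex.sub_conj, Complex.log_im, arg_one_sub hj]
      push_cast
      ring
  have h3 := mul_left_cancel₀ (two_ne_zero) h2
  rw [Diri.ZMod_LFunction_one Φ hsum, h3, neg_neg]

/-- an odd function with algebraic values: the value at `1` is `π` times an algebraic number -/
theorem isAlgebraic_div_pi_of_odd {Φ : ZMod N → ℂ} (hΦ : ∀ k, IsAlgebraic ℚ (Φ k))
    (ho : ∀ k, Φ (-k) = -Φ k) : IsAlgebraic ℚ (ZMod.LFunction Φ 1 / Real.pi) := by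
  have hπ : (Real.pi : ℂ) ≠ 0 := by exact_mod_cast Real.pi_ne_zero
  rw [LFunction_one_of_odd ho, mul_div_cancel_left₀ _ hπ]
  refine (IsIntegral.sum _ fun j _ => IsAlgebraic.isIntegral ?_).isAlgebraic
  refine (isAlgebraic_invDFT hΦ j).mul (isAlgebraic_I.neg.mul (IsAlgebraic.sub ?_ ?_))
  · rw [one_div]
    exact IsAlgebraic.inv (by exact_mod_cast isAlgebraic_natCast (R := ℚ) (A := ℂ) 2)
  · rw [div_eq_mul_inv]
    exact (isAlgebraic_natCast _).mul (isAlgebraic_natCast _).inv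

/-- an even function with algebraic values: if the value at `1` is `π` times an algebraic number,
it is `0` -/
theorem eq_zero_of_even {Φ : ZMod N → ℂ} (hΦ : ∀ k, IsAlgebraic ℚ (Φ k)) (hsum : ∑ k, Φ k = 0)
    (he : ∀ k, Φ (-k) = Φ k) (h : IsAlgebraic ℚ (ZMod.LFunction Φ 1 / Real.pi)) :
    ZMod.LFunction Φ 1 = 0 := by
  by_contra h0
  have hπ : (Real.pi : ℂ) ≠ 0 := by exact_mod_cast Real.pi_ne_zero
  have hα : ZMod.LFunction Φ 1 / Real.pi ≠ 0 := div_ne_zero h0 hπ
  refine sum_mul_log_ne_pi univ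
    (c := fun j => -ZMod.dft.symm Φ j * (ZMod.LFunction Φ 1 / Real.pi)⁻¹)
    (x := fun j : ZMod N => Real.log ‖(1 : ℂ) - ZMod.stdAddChar (-j)‖)
    (fun j _ => (isAlgebraic_invDFT hΦ j).neg.mul h.inv) (fun j _ => ?_) ?_
  · by_cases hj : j = 0
    · subst hj
      rw [neg_zero, AddChar.map_zero_eq_one, sub_self, norm_zero, Real.log_zero, Real.exp_zero]
      exact isAlgebraic_one
    · have h1 : (0 : ℝ) < ‖(1 : ℂ) - ZMod.stdAddChar (-j)‖ :=
        norm_pos_iff.mpr (sub_ne_zero.mpr (Diri.stdAddChar_ne_one (neg_ne_zero.mpr hj)).symm)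
      rw [Real.exp_log h1]
      exact isAlgebraic_norm (isAlgebraic_one.sub (isAlgebraic_stdAddChar _))
  · have h1 : ∀ j : ZMod N, -ZMod.dft.symm Φ j * (ZMod.LFunction Φ 1 / Real.pi)⁻¹ *
        ((Real.log ‖(1 : ℂ) - ZMod.stdAddChar (-j)‖ : ℝ) : ℂ) =
        (-ZMod.dft.symm Φ j * ((Real.log ‖(1 : ℂ) - ZMod.stdAddChar (-j)‖ : ℝ) : ℂ)) *
          (ZMod.LFunction Φ 1 / Real.pi)⁻¹ := fun j => by ring
    rw [sum_congr rfl fun j _ => h1 j, ← sum_mul, ← LFunction_one_of_even hsum he, inv_div,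
      mul_div_cancel₀ _ h0]

/-- **`L(1, χ) / π` is algebraic if and only if `χ` is odd** (`χ ≠ 1`). -/
theorem isAlgebraic_LFunction_one_div_pi_iff {χ : DirichletCharacter ℂ N} (hχ : χ ≠ 1) :
    IsAlgebraic ℚ (χ.LFunction 1 / Real.pi) ↔ χ.Odd := by
  constructor
  · intro h
    rcases χ.even_or_odd with he | ho
    · exact absurd (eq_zero_of_even (isAlgebraic_dirichletCharacter χ)
        (χ.sum_eq_zero_of_ne_one hχ) (fun k => DirichletCharacter.Even.eval_neg χ k he) h)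
        (DirichletCharacter.LFunction_apply_one_ne_zero hχ)
    · exact ho
  · intro ho
    exact isAlgebraic_div_pi_of_odd (isAlgebraic_dirichletCharacter χ) fun k =>
      DirichletCharacter.Odd.eval_neg χ k ho

end Fermat.Agent.Cor.BBW
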