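import Fermat.Agent.Corollaries.BBW.Digamma
import Mathlib.LinearAlgebra.Lagrange

/-!
# Transcendental infinite sums

* `hasSum_psi`: the series of the digamma function, absolutely convergent.
* `sum_mul_psi_eq_zero_or_transcendental`: `∑ c_i ψ(α_i)`, `c_i` algebraic with sum `0`, `α_i` rational
  in `(0, 1]`, is `0` or transcendental.
* `hasSum_eval_div_prod`: the theorem of Adhikari, Saradha, Shorey and Tijdeman (2001): `P` with
  algebraic coefficients, `Q` with distinct rational roots in `[-1, 0)`, `deg P + 2 ≤ deg Q`: the sum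
  `∑ P(n) / Q(n)` is `0` or transcendental.
* `transcendental_tsum_eval_div_prod`, `transcendental_tsum_inv_prod`: cases with positive terms.
-/

set_option autoImplicit false

open Finset Filter Topology

namespace Fermat.Agent.Cor.BBW

/-- **The series of the digamma function** -/
theorem hasSum_psi {x : ℝ} (hx : 0 < x) :
    HasSum (fun n : ℕ => 1 / ((n : ℝ) + 1) - 1 / ((n : ℝ) + x))
      (psi x + Real.eulerMascheroniConstant) := by
  rcases le_total 1 x with h | h
  · refine (hasSum_iff_tendsto_nat_of_nonneg (fun n => ?_) _).mpr (tendsto_psi hx)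
    rw [sub_nonneg]
    exact one_div_le_one_div_of_le (by positivity) (by linarith)
  · have h1 : HasSum (fun n : ℕ => -(1 / ((n : ℝ) + 1) - 1 / ((n : ℝ) + x)))
        (-(psi x + Real.eulerMascheroniConstant)) := by
      refine (hasSum_iff_tendsto_nat_of_nonneg (fun n => ?_) _).mpr ?_
      · rw [neg_nonneg, sub_nonpos]
        exact one_div_le_one_div_of_le (by positivity) (by linarith)
      · simpa only [sum_neg_distrib] using (tendsto_psi hx).neg
    simpa using h1.neg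

/-- partial fractions with simple poles -/
theorem hasSum_sum_div {ι : Type*} (s : Finset ι) {c : ι → ℂ} {α : ι → ℝ}
    (hα : ∀ i ∈ s, 0 < α i) (hsum : ∑ i ∈ s, c i = 0) :
    HasSum (fun n : ℕ => ∑ i ∈ s, c i / ((n : ℂ) + α i)) (-∑ i ∈ s, c i * psi (α i)) := by
  have h1 : ∀ i ∈ s, HasSum (fun n : ℕ => c i *
      ((1 / ((n : ℝ) + 1) - 1 / ((n : ℝ) + α i) : ℝ) : ℂ))
      (c i * ((psi (α i) + Real.eulerMascheroniConstant : ℝ) : ℂ)) := fun i hi =>
    (Complex.hasSum_ofReal.mpr (hasSum_psi (hα i hi))).mul_left _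
  have h2 := (hasSum_sum h1).neg
  have e1 : ∀ n : ℕ, ∑ i ∈ s, c i / ((n : ℂ) + α i) =
      -∑ i ∈ s, c i * ((1 / ((n : ℝ) + 1) - 1 / ((n : ℝ) + α i) : ℝ) : ℂ) := by
    intro n
    push_cast
    simp only [mul_sub]
    rw [sum_sub_distrib, ← sum_mul, hsum, zero_mul, zero_sub, neg_neg]
    exact sum_congr rfl fun i _ => by rw [mul_one_div]
  have e2 : ∑ i ∈ s, c i * (psi (α i) : ℂ) =
      ∑ i ∈ s, c i * ((psi (α i) + Real.eulerMascheroniConstant : ℝ) : ℂ) := by
    push_cast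
    simp only [mul_add]
    rw [sum_add_distrib, ← sum_mul, hsum, zero_mul, add_zero]
  rw [e2, funext e1]
  exact h2

theorem exists_nat_eq_div {x : ℚ} (hx : 0 < x) (hx1 : x ≤ 1) {N : ℕ} (hN : N ≠ 0)
    (h : x.den ∣ N) : ∃ a : ℕ, 1 ≤ a ∧ a ≤ N ∧ x = (a : ℚ) / N := by
  obtain ⟨m, rfl⟩ := h
  have hm : m ≠ 0 := right_ne_zero_of_mul hN
  obtain ⟨b, hb⟩ : ∃ b : ℕ, x.num = b := Int.eq_ofNat_of_zero_le (Rat.num_nonneg.mpr hx.le)
  have hxb : x = (b : ℚ) / x.den := by
    have h := Rat.num_div_den x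
    rw [hb, Int.cast_natCast] at h
    exact h.symm
  have e : x = ((b * m : ℕ) : ℚ) / ((x.den * m : ℕ) : ℚ) := by
    push_cast
    rw [mul_div_mul_right _ _ (Nat.cast_ne_zero.mpr hm)]
    exact hxb
  have hpos : (0 : ℚ) < ((x.den * m : ℕ) : ℚ) := by exact_mod_cast Nat.pos_of_ne_zero hN
  have h1 : 1 ≤ b * m := by
    have h2 : (0 : ℚ) < ((b * m : ℕ) : ℚ) / ((x.den * m : ℕ) : ℚ) := e ▸ hx
    exact_mod_cast (div_pos_iff_of_pos_right hpos).mp h2
  have h2 : b * m ≤ x.den * m := by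
    have h3 : ((b * m : ℕ) : ℚ) / ((x.den * m : ℕ) : ℚ) ≤ 1 := e ▸ hx1
    rw [div_le_one hpos] at h3
    exact_mod_cast h3
  exact ⟨b * m, h1, h2, e⟩

section Form

variable {N : ℕ} [NeZero N]

theorem natCast_succ_eq_iff {i a : ℕ} (hi : i ∈ range N) (ha : 1 ≤ a) (haN : a ≤ N) :
    ((i + 1 : ℕ) : ZMod N) = (a : ZMod N) ↔ i = a - 1 := by
  have hN0 : 0 < N := NeZero.pos N
  rw [mem_range] at hi
  constructor
  · intro h
    rw [ZMod.natCast_eq_natCast_iff] at h
    rcases Nat.lt_or_ge a N with h1 | h1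
    · rcases Nat.lt_or_ge (i + 1) N with h2 | h2
      · have h3 := Nat.ModEq.eq_of_lt_of_lt h h2 h1
        omega
      · have h4 : i + 1 = N := by omega
        rw [h4] at h
        have h5 : a ≡ 0 [MOD N] := h.symm.trans (by simp [Nat.ModEq])
        have h6 := Nat.ModEq.eq_of_lt_of_lt h5 h1 hN0
        omega
    · have h4 : a = N := by omega
      rw [h4] at h
      rcases Nat.lt_or_ge (i + 1) N with h2 | h2
      · have h5 : i + 1 ≡ 0 [MOD N] := h.trans (by simp [Nat.ModEq])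
        have h6 := Nat.ModEq.eq_of_lt_of_lt h5 h2 hN0
        omega
      · omega
  · rintro rfl
    rw [Nat.sub_add_cancel ha]

theorem sum_ite_mul_psi {a : ℕ} (ha : 1 ≤ a) (haN : a ≤ N) : ∑ i ∈ range N,
    (if ((i + 1 : ℕ) : ZMod N) = (a : ZMod N) then (1 : ℂ) else 0) *
      psi (((i : ℝ) + 1) / N) = psi ((a : ℝ) / N) := by
  have h1 : ∀ i ∈ range N, (if ((i + 1 : ℕ) : ZMod N) = (a : ZMod N) then (1 : ℂ) else 0) *
      psi (((i : ℝ) + 1) / N) = if i = a - 1 then (psi (((i : ℝ) + 1) / N) : ℂ) else 0 := by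
    intro i hi
    rw [ite_mul, one_mul, zero_mul]
    exact if_congr (natCast_succ_eq_iff hi ha haN) rfl rfl
  rw [sum_congr rfl h1, sum_ite_eq' (range N) (a - 1), if_pos (mem_range.mpr (by omega))]
  have h2 : (((a - 1 : ℕ) : ℝ) + 1) = a := by
    rw [Nat.cast_sub ha, Nat.cast_one, sub_add_cancel]
  rw [h2]

end Form

/-- **`∑ c_i ψ(α_i)` is `0` or transcendental**: `c_i` algebraic numbers with sum `0`, `α_i` rational
numbers in `(0, 1]`. -/
theorem sum_mul_psi_eq_zero_or_transcendental {ι : Type*} (s : Finset ι) {c : ι → ℂ} {α : ι → ℚ}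
    (hc : ∀ i ∈ s, IsAlgebraic ℚ (c i)) (hsum : ∑ i ∈ s, c i = 0)
    (hα : ∀ i ∈ s, 0 < α i ∧ α i ≤ 1) :
    ∑ i ∈ s, c i * psi (α i : ℝ) = 0 ∨ Transcendental ℚ (∑ i ∈ s, c i * psi (α i : ℝ)) := by
  classical
  set N : ℕ := ∏ i ∈ s, (α i).den with hNdef
  have hN0 : N ≠ 0 := prod_ne_zero_iff.mpr fun i _ => (α i).den_ne_zero
  have : NeZero N := ⟨hN0⟩
  have hNC : (N : ℂ) ≠ 0 := Nat.cast_ne_zero.mpr hN0
  have hex : ∀ i : ι, ∃ a : ℕ, i ∈ s → 1 ≤ a ∧ a ≤ N ∧ α i = (a : ℚ) / N := by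
    intro i
    by_cases hi : i ∈ s
    · obtain ⟨a, h⟩ := exists_nat_eq_div (hα i hi).1 (hα i hi).2 hN0
        (dvd_prod_of_mem (fun i => (α i).den) hi)
      exact ⟨a, fun _ => h⟩
    · exact ⟨0, fun h => absurd h hi⟩
  choose a ha using hex
  set Φ : ZMod N → ℂ := fun k => ∑ i ∈ s, c i * (if k = (a i : ZMod N) then 1 else 0) with hΦ
  have hΦsum : ∑ k, Φ k = 0 := by
    rw [hΦ, sum_comm]
    refine Eq.trans (sum_congr rfl fun i _ => ?_) hsum
    rw [← mul_sum, sum_ite_eq' univ (a i : ZMod N), if_pos (mem_univ _), mul_one]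
  have halg : ∀ k, IsAlgebraic ℚ (Φ k) := by
    intro k
    rw [← mem_algebraicClosure_iff]
    refine sum_mem fun i hi => mul_mem (mem_algebraicClosure_iff.mpr (hc i hi))
      (mem_algebraicClosure_iff.mpr (isAlgebraic_ite _))
  have hL : ZMod.LFunction Φ 1 = -(1 / N) * ∑ i ∈ s, c i * psi (α i : ℝ) := by
    rw [LFunction_one_eq_psi Φ hΦsum]
    congr 1
    simp only [hΦ, sum_mul]
    rw [sum_comm]
    refine sum_congr rfl fun i hi => ?_
    obtain ⟨h1, h2, h3⟩ := ha i hi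
    have h4 : ((α i : ℚ) : ℝ) = ((a i : ℕ) : ℝ) / N := by
      rw [h3, Rat.cast_div, Rat.cast_natCast, Rat.cast_natCast]
    rw [h4, ← sum_ite_mul_psi h1 h2, mul_sum]
    exact sum_congr rfl fun j _ => by rw [mul_assoc]
  rcases LFunction_one_eq_zero_or_transcendental halg hΦsum with h | h
  · left
    rw [hL] at h
    exact (mul_eq_zero.mp h).resolve_left (neg_ne_zero.mpr (one_div_ne_zero hNC))
  · right
    intro hcon
    apply h
    rw [hL, ← mem_algebraicClosure_iff]
    refine mul_mem (neg_mem (div_mem (one_mem _) (natCast_mem _ N)))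
      (mem_algebraicClosure_iff.mpr hcon)

/-- **The theorem of Adhikari, Saradha, Shorey and Tijdeman** (2001): `P` a polynomial with algebraic
coefficients, `s` a set of rational numbers in `(0, 1]`, `deg P + 2 ≤ #s`. The series
`∑ P(n) / ∏_{a ∈ s} (n + a)` converges absolutely, and its sum is `0` or transcendental. -/
theorem hasSum_eval_div_prod {s : Finset ℚ} (hs : ∀ a ∈ s, 0 < a ∧ a ≤ 1) {P : Polynomial ℂ}
    (hP : ∀ n, IsAlgebraic ℚ (P.coeff n)) (hdeg : P.natDegree + 2 ≤ #s) :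
    ∃ S : ℂ, HasSum (fun n : ℕ => P.eval (n : ℂ) / ∏ a ∈ s, ((n : ℂ) + a)) S ∧
      (S = 0 ∨ Transcendental ℚ S) := by
  set v : ℚ → ℂ := fun a => -(a : ℂ) with hv
  have hvinj : Set.InjOn v s := fun a _ b _ h => by
    have h1 : (a : ℂ) = (b : ℂ) := neg_injective h
    exact_mod_cast h1
  have hdeg' : P.degree < #s :=
    lt_of_le_of_lt Polynomial.degree_le_natDegree (by exact_mod_cast (by omega : P.natDegree < #s))
  set c : ℚ → ℂ := fun a => Lagrange.nodalWeight s v a * P.eval (v a) with hc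
  have hcsum : ∑ a ∈ s, c a = 0 := by
    have h1 := Lagrange.coeff_eq_sum hvinj hdeg'
    rw [Polynomial.coeff_eq_zero_of_natDegree_lt (by omega)] at h1
    rw [h1]
    refine sum_congr rfl fun a _ => ?_
    change Lagrange.nodalWeight s v a * P.eval (v a) = _
    rw [Lagrange.nodalWeight, prod_inv_distrib, mul_comm, div_eq_mul_inv]
  have hval : ∀ n : ℕ, P.eval (n : ℂ) / ∏ a ∈ s, ((n : ℂ) + a) =
      ∑ a ∈ s, c a / ((n : ℂ) + ((a : ℝ) : ℂ)) := by
    intro n
    have hne : ∀ a ∈ s, (n : ℂ) ≠ v a := by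
      intro a ha h
      have h1 : ((n : ℚ) + a : ℚ) = 0 := by
        have h2 : (n : ℂ) + (a : ℂ) = 0 := by rw [h, hv]; simp
        exact_mod_cast h2
      have := (hs a ha).1
      have : (0 : ℚ) ≤ n := Nat.cast_nonneg n
      linarith
    have h1 := Lagrange.eval_interpolate_not_at_node (fun a => P.eval (v a)) hne
    rw [← Lagrange.eq_interpolate hvinj hdeg', Lagrange.eval_nodal] at h1
    have h2 : ∏ a ∈ s, ((n : ℂ) - v a) = ∏ a ∈ s, ((n : ℂ) + a) :=
      prod_congr rfl fun a _ => by rw [hv]; ring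
    have h3 : ∏ a ∈ s, ((n : ℂ) + a) ≠ 0 := by
      rw [← h2, prod_ne_zero_iff]
      exact fun a ha => sub_ne_zero.mpr (hne a ha)
    rw [h2] at h1
    rw [h1, mul_div_cancel_left₀ _ h3]
    refine sum_congr rfl fun a _ => ?_
    rw [hc, hv]
    push_cast
    rw [sub_neg_eq_add]
    ring
  have hA : ∀ a ∈ s, IsAlgebraic ℚ (c a) := by
    intro a _
    have hva : ∀ b : ℚ, v b ∈ algebraicClosure ℚ ℂ := fun b => by
      have h1 := (algebraicClosure ℚ ℂ).algebraMap_mem b
      rw [eq_ratCast] at h1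
      exact neg_mem h1
    rw [← mem_algebraicClosure_iff, hc]
    refine mul_mem ?_ ?_
    · rw [Lagrange.nodalWeight]
      exact prod_mem fun b _ => inv_mem (sub_mem (hva a) (hva b))
    · rw [Polynomial.eval_eq_sum_range]
      exact sum_mem fun i _ => mul_mem (mem_algebraicClosure_iff.mpr (hP i)) (pow_mem (hva a) i)
  have hpos : ∀ a ∈ s, (0 : ℝ) < ((a : ℚ) : ℝ) := fun a ha => by exact_mod_cast (hs a ha).1
  have h1 := hasSum_sum_div s (α := fun a : ℚ => (a : ℝ)) hpos hcsum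
  refine ⟨_, h1.congr_fun hval, ?_⟩
  rcases sum_mul_psi_eq_zero_or_transcendental s (α := fun a : ℚ => a) hA hcsum hs with h | h
  · left
    rw [h, neg_zero]
  · right
    intro hcon
    apply h
    rw [← mem_algebraicClosure_iff] at hcon ⊢
    have := neg_mem hcon
    rwa [neg_neg] at this

/-- a real number is transcendental if it is transcendental as a complex number -/
theorem transcendental_of_ofReal {x : ℝ} (h : Transcendental ℚ (x : ℂ)) : Transcendental ℚ x :=
  fun h1 => h (h1.algebraMap (A := ℂ))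

/-- **Positive terms**: `f` a polynomial with rational coefficients, `f ≠ 0`, `f(n) ≥ 0` for all
`n ≥ 0`, `s` a set of rational numbers in `(0, 1]`, `deg f + 2 ≤ #s`. The number
`∑ f(n) / ∏_{a ∈ s} (n + a)` is transcendental. -/
theorem transcendental_tsum_eval_div_prod {s : Finset ℚ} (hs : ∀ a ∈ s, 0 < a ∧ a ≤ 1)
    {f : Polynomial ℚ} (hf : f ≠ 0) (hpos : ∀ n : ℕ, 0 ≤ f.eval (n : ℚ))
    (hdeg : f.natDegree + 2 ≤ #s) :
    Transcendental ℚ (∑' n : ℕ, ((f.eval (n : ℚ) / ∏ a ∈ s, ((n : ℚ) + a) : ℚ) : ℝ)) := by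
  set g : ℕ → ℚ := fun n => f.eval (n : ℚ) / ∏ a ∈ s, ((n : ℚ) + a) with hg
  have hg0 : ∀ n, 0 ≤ g n := fun n => div_nonneg (hpos n) (prod_nonneg fun a ha => by
    have := (hs a ha).1
    positivity)
  obtain ⟨S, hS, h⟩ := hasSum_eval_div_prod hs (P := f.map (algebraMap ℚ ℂ))
    (fun n => by
      rw [Polynomial.coeff_map]
      exact isAlgebraic_algebraMap _) (by rwa [Polynomial.natDegree_map])
  have he : ∀ n : ℕ, (f.map (algebraMap ℚ ℂ)).eval (n : ℂ) / ∏ a ∈ s, ((n : ℂ) + a) =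
      (((g n : ℚ) : ℝ) : ℂ) := by
    intro n
    have h1 : (f.map (algebraMap ℚ ℂ)).eval (n : ℂ) = ((f.eval (n : ℚ) : ℚ) : ℂ) := by
      have h2 : (n : ℂ) = algebraMap ℚ ℂ (n : ℚ) := by simp
      rw [h2, Polynomial.eval_map_algebraMap, Polynomial.aeval_algebraMap_apply, eq_ratCast]
      rfl
    rw [h1, hg]
    push_cast
    rfl
  have hS' : HasSum (fun n : ℕ => (((g n : ℚ) : ℝ) : ℂ)) S := by
    rw [← funext he]
    exact hS
  have hsum : Summable (fun n : ℕ => ((g n : ℚ) : ℝ)) := Complex.summable_ofReal.mp hS'.summable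
  have hSe : S = ((∑' n : ℕ, ((g n : ℚ) : ℝ) : ℝ) : ℂ) := by
    rw [Complex.ofReal_tsum]
    exact hS'.tsum_eq.symm
  have hne : ∃ n : ℕ, 0 < g n := by
    by_contra hcon
    push Not at hcon
    apply hf
    refine Polynomial.eq_zero_of_infinite_isRoot f (Set.Infinite.mono ?_
      (Set.infinite_range_of_injective (Nat.cast_injective (R := ℚ))))
    rintro _ ⟨n, rfl⟩
    have h1 : g n = 0 := le_antisymm (hcon n) (hg0 n)
    have h2 : ∏ a ∈ s, ((n : ℚ) + a) ≠ 0 := prod_ne_zero_iff.mpr fun a ha => by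
      have := (hs a ha).1
      positivity
    exact (div_eq_zero_iff.mp h1).resolve_right h2
  have hSpos : (0 : ℝ) < ∑' n : ℕ, ((g n : ℚ) : ℝ) := by
    obtain ⟨n, hn⟩ := hne
    exact hsum.tsum_pos (fun n => by exact_mod_cast hg0 n) n (by exact_mod_cast hn)
  apply transcendental_of_ofReal
  rw [← hSe]
  refine h.resolve_left fun h0 => ?_
  rw [hSe] at h0
  exact hSpos.ne' (by exact_mod_cast h0)

/-- `∑ 1 / ((q n + 1) (q n + 2) … (q n + q))` is transcendental for every `q ≥ 2` -/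
theorem transcendental_tsum_inv_prod {q : ℕ} (hq : 2 ≤ q) :
    Transcendental ℚ (∑' n : ℕ, 1 / ∏ r ∈ range q, ((q : ℝ) * n + (r + 1))) := by
  have hq0 : (0 : ℚ) < q := by
    have : 0 < q := by omega
    exact_mod_cast this
  have hq0' : (q : ℝ) ≠ 0 := by
    have : q ≠ 0 := by omega
    exact_mod_cast this
  set e : ℕ → ℚ := fun r => ((r : ℚ) + 1) / q with he
  have hinj : Function.Injective e := by
    intro a b h
    have h1 : ((a : ℚ) + 1) = b + 1 := (div_left_inj' hq0.ne').mp h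
    have h2 : (a : ℚ) = b := by linarith
    exact_mod_cast h2
  set s : Finset ℚ := (range q).image e with hs
  have hcard : #s = q := by rw [hs, card_image_of_injective _ hinj, card_range]
  have hmem : ∀ a ∈ s, 0 < a ∧ a ≤ 1 := by
    intro a ha
    rw [hs, mem_image] at ha
    obtain ⟨r, hr, rfl⟩ := ha
    rw [mem_range] at hr
    refine ⟨by positivity, ?_⟩
    rw [he, div_le_one hq0]
    exact_mod_cast hr
  have hC : (0 : ℚ) < (1 / q) ^ q := by positivity
  have h1 := transcendental_tsum_eval_div_prod hmem (f := Polynomial.C ((1 / (q : ℚ)) ^ q))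
    (by rw [Ne, Polynomial.C_eq_zero]; exact hC.ne') (fun n => by
      rw [Polynomial.eval_C]; exact hC.le) (by rw [Polynomial.natDegree_C, hcard]; omega)
  convert h1 using 1
  refine tsum_congr fun n => ?_
  rw [Polynomial.eval_C, hs, prod_image fun a _ b _ h => hinj h]
  simp only [he]
  push_cast
  have h2 : ∏ r ∈ range q, ((q : ℝ) * n + (r + 1)) =
      (q : ℝ) ^ q * ∏ r ∈ range q, ((n : ℝ) + ((r : ℝ) + 1) / q) := by
    conv_rhs => rw [← card_range q, ← prod_const, card_range, ← prod_mul_distrib]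
    refine prod_congr rfl fun r _ => ?_
    field_simp
  rw [h2, one_div, mul_inv, one_div, inv_pow, div_eq_mul_inv]

end Fermat.Agent.Cor.BBW
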